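import Mathlib

/-!
Binary cubic forms of fundamental negative discriminant: covariants, syzygy, and the choice of
auxiliary vectors.
-/

set_option autoImplicit false

namespace Fermat.Agent.DihedralTwo

/-- A binary cubic form `a x³ + b x² y + c x y² + d y³`. -/
structure Cubic where
  a : ℤ
  b : ℤ
  c : ℤ
  d : ℤ

namespace Cubic

variable (F : Cubic)

/-- Value of the form. -/
def val {R : Type*} [CommRing R] (x y : R) : R :=
  (F.a : R) * x ^ 3 + (F.b : R) * x ^ 2 * y + (F.c : R) * x * y ^ 2 + (F.d : R) * y ^ 3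

/-- The discriminant. -/
def disc : ℤ :=
  F.b ^ 2 * F.c ^ 2 - 4 * F.a * F.c ^ 3 - 4 * F.b ^ 3 * F.d - 27 * F.a ^ 2 * F.d ^ 2
    + 18 * F.a * F.b * F.c * F.d

/-- Coefficients of the Hessian. -/
def hA : ℤ := F.b ^ 2 - 3 * F.a * F.c
/-- Coefficients of the Hessian. -/
def hB : ℤ := F.b * F.c - 9 * F.a * F.d
/-- Coefficients of the Hessian. -/
def hC : ℤ := F.c ^ 2 - 3 * F.b * F.d

/-- The Hessian. -/
def hess (z : ℤ × ℤ) : ℤ := F.hA * z.1 ^ 2 + F.hB * z.1 * z.2 + F.hC * z.2 ^ 2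

/-- The cubic covariant. -/
def jac (z : ℤ × ℤ) : ℤ :=
  (2 * F.hA * z.1 + F.hB * z.2) *
      (F.b * z.1 ^ 2 + 2 * F.c * z.1 * z.2 + 3 * F.d * z.2 ^ 2)
    - (F.hB * z.1 + 2 * F.hC * z.2) *
      (3 * F.a * z.1 ^ 2 + 2 * F.b * z.1 * z.2 + F.c * z.2 ^ 2)

/-- The value at a vector. -/
def at' (z : ℤ × ℤ) : ℤ := F.val z.1 z.2

/-- The linear form governing everything modulo `3`. -/
def lam (z : ℤ × ℤ) : ℤ := F.b * z.1 - F.c * z.2

/-- The polarised Hessian. -/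
def polar (u z : ℤ × ℤ) : ℤ :=
  2 * F.hA * u.1 * z.1 + F.hB * (u.1 * z.2 + u.2 * z.1) + 2 * F.hC * u.2 * z.2

theorem at'_eq (z : ℤ × ℤ) :
    F.at' z = F.a * z.1 ^ 3 + F.b * z.1 ^ 2 * z.2 + F.c * z.1 * z.2 ^ 2 + F.d * z.2 ^ 3 := by
  simp [at', val]

theorem hess_disc : F.hB ^ 2 - 4 * F.hA * F.hC = -3 * F.disc := by
  simp only [hA, hB, hC, disc]; ring

theorem syzygy (z : ℤ × ℤ) : F.jac z ^ 2 + 27 * F.disc * F.at' z ^ 2 = 4 * F.hess z ^ 3 := by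
  simp only [at'_eq, jac, hess, hA, hB, hC, disc]; ring

theorem cube_identity_re (u z : ℤ × ℤ) :
    (2 * F.hess u) ^ 3 * F.jac z =
      F.jac u * (F.polar u z ^ 3 - 9 * F.disc * F.polar u z * (u.1 * z.2 - u.2 * z.1) ^ 2)
        - 9 * F.disc * F.at' u * (3 * F.polar u z ^ 2 * (u.1 * z.2 - u.2 * z.1)
          - 3 * F.disc * (u.1 * z.2 - u.2 * z.1) ^ 3) := by
  simp only [at'_eq, jac, hess, polar, hA, hB, hC, disc]
  ring

theorem cube_identity_im (u z : ℤ × ℤ) :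
    (2 * F.hess u) ^ 3 * (3 * F.at' z) =
      F.jac u * (3 * F.polar u z ^ 2 * (u.1 * z.2 - u.2 * z.1)
          - 3 * F.disc * (u.1 * z.2 - u.2 * z.1) ^ 3)
        + 3 * F.at' u * (F.polar u z ^ 3
          - 9 * F.disc * F.polar u z * (u.1 * z.2 - u.2 * z.1) ^ 2) := by
  simp only [at'_eq, jac, hess, polar, hA, hB, hC, disc]
  ring

/-- The two Kummer elements differ by a cube. -/
theorem cube_identity {R : Type*} [CommRing R] (t : R) (ht : t ^ 2 = -3 * (F.disc : R))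
    (u z : ℤ × ℤ) :
    (2 * (F.hess u : R)) ^ 3 * ((F.jac z : R) + 3 * t * (F.at' z : R)) =
      ((F.jac u : R) + 3 * t * (F.at' u : R)) *
        ((F.polar u z : R) + t * ((u.1 * z.2 - u.2 * z.1 : ℤ) : R)) ^ 3 := by
  have h1 := congrArg (Int.cast : ℤ → R) (F.cube_identity_re u z)
  have h2 := congrArg (Int.cast : ℤ → R) (F.cube_identity_im u z)
  simp only [Int.cast_mul, Int.cast_add, Int.cast_sub, Int.cast_pow, Int.cast_ofNat] at h1 h2 ⊢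
  generalize (F.hess u : R) = H, (F.jac z : R) = G, (F.at' z : R) = C,
    (F.jac u : R) = G', (F.at' u : R) = C', (F.polar u z : R) = P,
    ((u.1 : R) * z.2 - u.2 * z.1) = δ, (F.disc : R) = D at *
  linear_combination h1 + t * h2 - (3 * G' * P * δ ^ 2 + G' * δ ^ 3 * t + 9 * C' * P ^ 2 * δ
    + 9 * C' * P * δ ^ 2 * t + 3 * C' * δ ^ 3 * (t ^ 2 - 3 * D)) * ht

theorem jac_mod_three (z : ℤ × ℤ) : (3 : ℤ) ∣ F.jac z - 2 * F.lam z ^ 3 := by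
  refine ⟨3 * F.b ^ 2 * F.c * z.1 ^ 2 * z.2 + 6 * F.b ^ 2 * F.d * z.1 * z.2 ^ 2
    - 3 * F.a * F.b * F.c * z.1 ^ 3 - 6 * F.a * F.c ^ 2 * z.1 ^ 2 * z.2
    - 9 * F.a * F.c * F.d * z.1 * z.2 ^ 2 - 3 * F.b * F.c ^ 2 * z.1 * z.2 ^ 2
    + 3 * F.b * F.c * F.d * z.2 ^ 3 + 9 * F.a * F.b * F.d * z.1 ^ 2 * z.2
    - 9 * F.a * F.d ^ 2 * z.2 ^ 3 + 9 * F.a ^ 2 * F.d * z.1 ^ 3, ?_⟩
  simp only [jac, lam, hA, hB, hC]
  ring

end Cubic

/-- `F` has fundamental negative discriminant `Δ` and no rational zero. -/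
structure GoodCubic (F : Cubic) (Δ : ℤ) : Prop where
  disc_eq : F.disc = Δ
  neg : Δ < 0
  fund : ∀ q : ℕ, q.Prime → ∀ e : ℤ, Δ = (q : ℤ) ^ 2 * e → ¬ (e % 4 = 0 ∨ e % 4 = 1)
  irred : ∀ z : ℤ × ℤ, F.at' z = 0 → z = 0

theorem disc_mod_four (F : Cubic) : F.disc % 4 = 0 ∨ F.disc % 4 = 1 := by
  have key : ∀ a b c d : ZMod 4,
      b ^ 2 * c ^ 2 - 4 * a * c ^ 3 - 4 * b ^ 3 * d - 27 * a ^ 2 * d ^ 2
        + 18 * a * b * c * d = 0 ∨
      b ^ 2 * c ^ 2 - 4 * a * c ^ 3 - 4 * b ^ 3 * d - 27 * a ^ 2 * d ^ 2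
        + 18 * a * b * c * d = 1 := by decide
  rcases key (F.a : ZMod 4) F.b F.c F.d with h | h
  · left
    have : ((F.disc : ℤ) : ZMod 4) = ((0 : ℤ) : ZMod 4) := by
      simp only [Cubic.disc]; push_cast; exact h
    rw [ZMod.intCast_eq_intCast_iff'] at this
    omega
  · right
    have : ((F.disc : ℤ) : ZMod 4) = ((1 : ℤ) : ZMod 4) := by
      simp only [Cubic.disc]; push_cast; exact h
    rw [ZMod.intCast_eq_intCast_iff'] at this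
    omega

variable {F : Cubic} {Δ : ℤ}

theorem GoodCubic.mod_four (h : GoodCubic F Δ) : Δ % 4 = 0 ∨ Δ % 4 = 1 :=
  h.disc_eq ▸ disc_mod_four F

theorem GoodCubic.not_sq_dvd (h : GoodCubic F Δ) {q : ℕ} (hq : q.Prime) (hq2 : q ≠ 2) :
    ¬ (q : ℤ) ^ 2 ∣ Δ := by
  rintro ⟨e, he⟩
  refine h.fund q hq e he ?_
  have hsq : ((q : ℤ) ^ 2) % 4 = 1 := by
    obtain ⟨t, ht⟩ := hq.odd_of_ne_two hq2
    rw [ht]; push_cast
    rw [show (2 * (t : ℤ) + 1) ^ 2 = 4 * (t * t + t) + 1 by ring]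
    omega
  have := h.mod_four
  rw [he, Int.mul_emod, hsq, one_mul, Int.emod_emod] at this
  exact this

theorem GoodCubic.not_sixteen (h : GoodCubic F Δ) : ¬ (16 : ℤ) ∣ Δ := by
  rintro ⟨e, he⟩
  exact h.fund 2 Nat.prime_two (4 * e) (by rw [he]; norm_num; ring) (Or.inl (by omega))

theorem GoodCubic.lam_ne (h : GoodCubic F Δ) : ¬ ((3 : ℤ) ∣ F.b ∧ (3 : ℤ) ∣ F.c) := by
  rintro ⟨⟨s, hs⟩, ⟨t, ht⟩⟩
  refine h.not_sq_dvd Nat.prime_three (by norm_num) ⟨9 * s ^ 2 * t ^ 2 - 12 * F.a * t ^ 3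
    - 12 * s ^ 3 * F.d - 3 * F.a ^ 2 * F.d ^ 2 + 18 * F.a * s * t * F.d, ?_⟩
  rw [← h.disc_eq]
  simp only [Cubic.disc, hs, ht]
  norm_num
  ring

/-- Vectors usable as Kummer parameters. -/
structure Usable (F : Cubic) (z : ℤ × ℤ) : Prop where
  lam3 : ¬ (3 : ℤ) ∣ F.lam z
  val9 : ¬ (9 : ℤ) ∣ F.at' z
  hess0 : F.hess z ≠ 0

theorem Usable.jac3 {z : ℤ × ℤ} (h : Usable F z) : ¬ (3 : ℤ) ∣ F.jac z := fun hd => by
  have := dvd_sub hd (F.jac_mod_three z)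
  rw [sub_sub_cancel] at this
  rcases Int.prime_three.dvd_or_dvd this with h2 | h2
  · norm_num at h2
  · exact h.lam3 (Int.prime_three.dvd_of_dvd_pow h2)

/-- Some vector has `λ ≢ 0 (3)` and value `≢ 0 (9)`. -/
theorem GoodCubic.exists_three (h : GoodCubic F Δ) :
    ∃ z : ℤ × ℤ, ¬ (3 : ℤ) ∣ F.lam z ∧ ¬ (9 : ℤ) ∣ F.at' z := by
  by_contra hcon
  push Not at hcon
  obtain ⟨z, hz⟩ : ∃ z : ℤ × ℤ, ¬ (3 : ℤ) ∣ F.lam z := by
    by_cases hb : (3 : ℤ) ∣ F.b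
    · exact ⟨(0, 1), fun hd => h.lam_ne ⟨hb, by simpa [Cubic.lam] using hd⟩⟩
    · exact ⟨(1, 0), fun hd => hb (by simpa [Cubic.lam] using hd)⟩
  have hshift : ∀ i j : ℤ, (9 : ℤ) ∣ F.at' (z.1 + 3 * i, z.2 + 3 * j) := by
    intro i j
    refine hcon _ fun hd => hz ?_
    have : F.lam z = F.lam (z.1 + 3 * i, z.2 + 3 * j) - 3 * (F.b * i - F.c * j) := by
      simp only [Cubic.lam]; ring
    rw [this]
    exact dvd_sub hd (dvd_mul_right _ _)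
  have h0 := hcon z hz
  set Fx := 3 * F.a * z.1 ^ 2 + 2 * F.b * z.1 * z.2 + F.c * z.2 ^ 2 with hFx
  set Fy := F.b * z.1 ^ 2 + 2 * F.c * z.1 * z.2 + 3 * F.d * z.2 ^ 2 with hFy
  have hx : (3 : ℤ) ∣ Fx := by
    have h1 := dvd_sub (hshift 1 0) h0
    simp only [Cubic.at'_eq] at h1
    have : (9 : ℤ) ∣ 3 * Fx := by
      have h2 : 3 * Fx = (F.a * (z.1 + 3 * 1) ^ 3 + F.b * (z.1 + 3 * 1) ^ 2 * (z.2 + 3 * 0)
          + F.c * (z.1 + 3 * 1) * (z.2 + 3 * 0) ^ 2 + F.d * (z.2 + 3 * 0) ^ 3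
          - (F.a * z.1 ^ 3 + F.b * z.1 ^ 2 * z.2 + F.c * z.1 * z.2 ^ 2 + F.d * z.2 ^ 3))
          - 9 * (3 * F.a * z.1 + 3 * F.a + F.b * z.2) := by rw [hFx]; ring
      rw [h2]
      exact dvd_sub h1 (dvd_mul_right _ _)
    omega
  have hy : (3 : ℤ) ∣ Fy := by
    have h1 := dvd_sub (hshift 0 1) h0
    simp only [Cubic.at'_eq] at h1
    have : (9 : ℤ) ∣ 3 * Fy := by
      have h2 : 3 * Fy = (F.a * (z.1 + 3 * 0) ^ 3 + F.b * (z.1 + 3 * 0) ^ 2 * (z.2 + 3 * 1)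
          + F.c * (z.1 + 3 * 0) * (z.2 + 3 * 1) ^ 2 + F.d * (z.2 + 3 * 1) ^ 3
          - (F.a * z.1 ^ 3 + F.b * z.1 ^ 2 * z.2 + F.c * z.1 * z.2 ^ 2 + F.d * z.2 ^ 3))
          - 9 * (3 * F.d * z.2 + 3 * F.d + F.c * z.1) := by rw [hFy]; ring
      rw [h2]
      exact dvd_sub h1 (dvd_mul_right _ _)
    omega
  have ex : Fx = -z.2 * F.lam z + 3 * (F.a * z.1 ^ 2 + F.b * z.1 * z.2) := by
    rw [hFx, Cubic.lam]; ring
  have ey : Fy = z.1 * F.lam z + 3 * (F.c * z.1 * z.2 + F.d * z.2 ^ 2) := by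
    rw [hFy, Cubic.lam]; ring
  have hz1 : (3 : ℤ) ∣ z.1 * F.lam z := by
    rw [show z.1 * F.lam z = Fy - 3 * (F.c * z.1 * z.2 + F.d * z.2 ^ 2) by rw [ey]; ring]
    exact dvd_sub hy (dvd_mul_right _ _)
  have hz2 : (3 : ℤ) ∣ z.2 * F.lam z := by
    rw [show z.2 * F.lam z = 3 * (F.a * z.1 ^ 2 + F.b * z.1 * z.2) - Fx by rw [ex]; ring]
    exact dvd_sub (dvd_mul_right _ _) hx
  exact hz (dvd_sub
    (((Int.prime_three.dvd_or_dvd hz1).resolve_right hz).mul_left _)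
    (((Int.prime_three.dvd_or_dvd hz2).resolve_right hz).mul_left _))

/-- A prime `≥ 5` divides not all values. -/
theorem GoodCubic.exists_prime (h : GoodCubic F Δ) {q : ℕ} (hq : q.Prime) (h5 : 5 ≤ q) :
    ∃ z : ℤ × ℤ, ¬ (q : ℤ) ∣ F.at' z := by
  by_contra hcon
  push Not at hcon
  have := Fact.mk hq
  have e : ∀ x y : ℤ, ((F.at' (x, y) : ℤ) : ZMod q) = 0 := fun x y =>
    (ZMod.intCast_zmod_eq_zero_iff_dvd _ q).2 (hcon _)
  simp only [Cubic.at'_eq] at e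
  have h10 := e 1 0
  have h01 := e 0 1
  have h11 := e 1 1
  have h1m := e 1 (-1)
  have h12 := e 1 2
  push_cast at h10 h01 h11 h1m h12
  have hA : (F.a : ZMod q) = 0 := by linear_combination h10
  have hD : (F.d : ZMod q) = 0 := by linear_combination h01
  have hne : ∀ k : ℕ, 0 < k → k < 5 → (k : ZMod q) ≠ 0 := fun k hk0 hk5 e => by
    have := Nat.le_of_dvd hk0 ((ZMod.natCast_eq_zero_iff k q).1 e)
    omega
  have h2 : (2 : ZMod q) ≠ 0 := by simpa using hne 2 (by norm_num) (by norm_num)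
  have hB : (F.b : ZMod q) = 0 := by
    have : (2 : ZMod q) * F.b = 0 := by linear_combination h11 - h1m - 2 * hD
    exact (mul_eq_zero.1 this).resolve_left h2
  have hC : (F.c : ZMod q) = 0 := by linear_combination h11 - hA - hB - hD
  obtain ⟨a, ha⟩ := (ZMod.intCast_zmod_eq_zero_iff_dvd _ q).1 hA
  obtain ⟨b, hb⟩ := (ZMod.intCast_zmod_eq_zero_iff_dvd _ q).1 hB
  obtain ⟨c, hc⟩ := (ZMod.intCast_zmod_eq_zero_iff_dvd _ q).1 hC
  obtain ⟨d, hd⟩ := (ZMod.intCast_zmod_eq_zero_iff_dvd _ q).1 hD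
  refine h.not_sq_dvd hq (by omega) ⟨(q : ℤ) ^ 2 * (b ^ 2 * c ^ 2 - 4 * a * c ^ 3 - 4 * b ^ 3 * d
    - 27 * a ^ 2 * d ^ 2 + 18 * a * b * c * d), ?_⟩
  rw [← h.disc_eq]
  simp only [Cubic.disc, ha, hb, hc, hd]
  ring

/-- Some value is not divisible by `4`, and an even one only if `Δ ≡ 1 (8)`. -/
theorem GoodCubic.exists_two (h : GoodCubic F Δ) :
    ∃ z : ℤ × ℤ, ¬ (4 : ℤ) ∣ F.at' z ∧ ((2 : ℤ) ∣ F.at' z → Δ % 8 = 1) := by
  by_cases hodd : ∃ z : ℤ × ℤ, ¬ (2 : ℤ) ∣ F.at' z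
  · obtain ⟨z, hz⟩ := hodd
    exact ⟨z, fun h4 => hz ((by norm_num : (2 : ℤ) ∣ 4).trans h4), fun h2 => absurd h2 hz⟩
  push Not at hodd
  have e10 := hodd (1, 0)
  have e01 := hodd (0, 1)
  have e11 := hodd (1, 1)
  simp only [Cubic.at'_eq] at e10 e01 e11
  norm_num at e10 e01 e11
  obtain ⟨a, ha⟩ := e10
  obtain ⟨d, hd⟩ := e01
  have hdisc := h.disc_eq
  simp only [Cubic.disc, ha, hd] at hdisc
  have hbc : ¬ ((2 : ℤ) ∣ F.b) := by
    rintro ⟨b, hb⟩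
    obtain ⟨c, hc⟩ : (2 : ℤ) ∣ F.c := by omega
    refine h.not_sixteen ⟨b ^ 2 * c ^ 2 - 4 * a * c ^ 3 - 4 * b ^ 3 * d - 27 * a ^ 2 * d ^ 2
      + 18 * a * b * c * d, ?_⟩
    rw [← hdisc, hb, hc]; ring
  obtain ⟨b, hb⟩ : ∃ b, F.b = 2 * b + 1 := ⟨F.b / 2, by omega⟩
  obtain ⟨c, hcc⟩ : ∃ c, F.c = 2 * c + 1 := ⟨F.c / 2, by omega⟩
  have h8 : Δ % 8 = 1 := by
    obtain ⟨s, hs⟩ : (2 : ℤ) ∣ b * (b + 1) := by
      rcases Int.even_or_odd' b with ⟨u, rfl | rfl⟩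
      · exact ⟨u * (2 * u + 1), by ring⟩
      · exact ⟨(2 * u + 1) * (u + 1), by ring⟩
    obtain ⟨t, ht⟩ : (2 : ℤ) ∣ c * (c + 1) := by
      rcases Int.even_or_odd' c with ⟨u, rfl | rfl⟩
      · exact ⟨u * (2 * u + 1), by ring⟩
      · exact ⟨(2 * u + 1) * (u + 1), by ring⟩
    have : Δ = (8 * s + 1) * (8 * t + 1) - 8 * (a * F.c ^ 3 + F.b ^ 3 * d + 54 * a ^ 2 * d ^ 2
        - 9 * a * F.b * F.c * d) := by
      rw [← hdisc,
        show (8 * s + 1 : ℤ) = F.b ^ 2 by rw [hb]; linear_combination (-4 : ℤ) * hs,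
        show (8 * t + 1 : ℤ) = F.c ^ 2 by rw [hcc]; linear_combination (-4 : ℤ) * ht]
      ring
    rw [this, show (8 * s + 1) * (8 * t + 1) = 8 * (8 * s * t + s + t) + 1 by ring]
    omega
  by_contra hcon
  push Not at hcon
  have k : ∀ x y : ℤ, (4 : ℤ) ∣ F.at' (x, y) := fun x y => by
    by_contra hne
    exact (hcon (x, y) hne).2 h8
  have k10 := k 1 0
  have k01 := k 0 1
  have k11 := k 1 1
  have k1m := k 1 (-1)
  simp only [Cubic.at'_eq] at k10 k01 k11 k1m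
  ring_nf at k10 k01 k11 k1m
  omega

/-- Within any residue class there is a vector with non-zero Hessian. -/
theorem GoodCubic.exists_hess_ne (h : GoodCubic F Δ) (z : ℤ × ℤ) {n : ℤ} (hn : n ≠ 0) :
    ∃ i j : ℤ, F.hess (z.1 + n * i, z.2 + n * j) ≠ 0 := by
  by_contra hcon
  push Not at hcon
  have h00 := hcon 0 0
  have h10 := hcon 1 0
  have h20 := hcon 2 0
  have h01 := hcon 0 1
  have h02 := hcon 0 2
  have h11 := hcon 1 1
  simp only [Cubic.hess] at h00 h10 h20 h01 h02 h11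
  have hA : F.hA = 0 := by
    have : 2 * n ^ 2 * F.hA = 0 := by linear_combination h20 - 2 * h10 + h00
    simpa [hn] using this
  have hC : F.hC = 0 := by
    have : 2 * n ^ 2 * F.hC = 0 := by linear_combination h02 - 2 * h01 + h00
    simpa [hn] using this
  have hB : F.hB = 0 := by
    have : n ^ 2 * F.hB = 0 := by linear_combination h11 - h10 - h01 + h00
    simpa [hn] using this
  have := F.hess_disc
  rw [hA, hB, hC, h.disc_eq] at this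
  have := h.neg
  omega

theorem at'_congr (F : Cubic) {n : ℤ} {z w : ℤ × ℤ} (h1 : n ∣ z.1 - w.1) (h2 : n ∣ z.2 - w.2) :
    n ∣ F.at' z - F.at' w := by
  rw [Cubic.at'_eq, Cubic.at'_eq]
  have e : F.a * z.1 ^ 3 + F.b * z.1 ^ 2 * z.2 + F.c * z.1 * z.2 ^ 2 + F.d * z.2 ^ 3 -
      (F.a * w.1 ^ 3 + F.b * w.1 ^ 2 * w.2 + F.c * w.1 * w.2 ^ 2 + F.d * w.2 ^ 3) =
      (z.1 - w.1) * (F.a * (z.1 ^ 2 + z.1 * w.1 + w.1 ^ 2) + F.b * (z.1 + w.1) * z.2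
        + F.c * z.2 ^ 2) +
      (z.2 - w.2) * (F.b * w.1 ^ 2 + F.c * w.1 * (z.2 + w.2)
        + F.d * (z.2 ^ 2 + z.2 * w.2 + w.2 ^ 2)) := by ring
  rw [e]
  exact dvd_add (h1.mul_right _) (h2.mul_right _)

/-- For every prime `q ≠ 3` there is a usable vector whose value is prime to `q`
(for `q = 2`: not divisible by `4`, and even only when `Δ ≡ 1 (8)`). -/
theorem GoodCubic.exists_usable (h : GoodCubic F Δ) {q : ℕ} (hq : q.Prime) (hq3 : q ≠ 3) :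
    ∃ z : ℤ × ℤ, Usable F z ∧
      (if q = 2 then ¬ (4 : ℤ) ∣ F.at' z ∧ ((2 : ℤ) ∣ F.at' z → Δ % 8 = 1)
        else ¬ (q : ℤ) ∣ F.at' z) := by
  obtain ⟨u, hu3, hu9⟩ := h.exists_three
  obtain ⟨m, v, hm, hv⟩ : ∃ (m : ℤ) (v : ℤ × ℤ), IsCoprime (9 : ℤ) m ∧
      ∀ z : ℤ × ℤ, m ∣ z.1 - v.1 → m ∣ z.2 - v.2 →
        (if q = 2 then ¬ (4 : ℤ) ∣ F.at' z ∧ ((2 : ℤ) ∣ F.at' z → Δ % 8 = 1)
          else ¬ (q : ℤ) ∣ F.at' z) := by
    by_cases h2 : q = 2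
    · obtain ⟨v, hv4, hv2⟩ := h.exists_two
      refine ⟨4, v, by norm_num, fun z h1 h2' => ?_⟩
      rw [if_pos h2]
      have := at'_congr F h1 h2'
      exact ⟨fun e => hv4 (by omega), fun e => hv2 (by omega)⟩
    · have h5 : 5 ≤ q := by
        have h4 : q ≠ 4 := by rintro rfl; norm_num at hq
        have := hq.two_le
        omega
      obtain ⟨v, hv⟩ := h.exists_prime hq h5
      refine ⟨q, v, ?_, fun z h1 h2' => ?_⟩
      · have : Nat.Coprime (3 ^ 2) q :=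
          Nat.Coprime.pow_left 2 ((Nat.coprime_primes Nat.prime_three hq).2 (Ne.symm hq3))
        exact Int.isCoprime_iff_gcd_eq_one.2 (by simpa [Int.gcd] using this)
      · rw [if_neg h2]
        exact fun e => hv (by simpa using dvd_sub e (at'_congr F h1 h2'))
  obtain ⟨r, s, hrs⟩ := hm
  set z₀ : ℤ × ℤ := (u.1 * (s * m) + v.1 * (r * 9), u.2 * (s * m) + v.2 * (r * 9)) with hz₀
  have hm0 : 9 * m ≠ 0 := by
    intro e
    have : m = 0 := by simpa using e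
    subst this
    omega
  obtain ⟨i, j, hij⟩ := h.exists_hess_ne z₀ hm0
  refine ⟨(z₀.1 + 9 * m * i, z₀.2 + 9 * m * j), ⟨?_, ?_, hij⟩, hv _ ?_ ?_⟩
  · intro e
    apply hu3
    have : F.lam u = F.lam (z₀.1 + 9 * m * i, z₀.2 + 9 * m * j)
        - 3 * (3 * (F.b * ((v.1 - u.1) * r + m * i) - F.c * ((v.2 - u.2) * r + m * j))) := by
      simp only [Cubic.lam, hz₀]
      linear_combination (-(F.b * u.1) + F.c * u.2) * hrs
    rw [this]
    exact dvd_sub e (dvd_mul_right _ _)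
  · intro e
    refine hu9 ?_
    have h9 := at'_congr F (n := 9) (z := (z₀.1 + 9 * m * i, z₀.2 + 9 * m * j)) (w := u)
      ⟨(v.1 - u.1) * r + m * i, by simp only [hz₀]; linear_combination u.1 * hrs⟩
      ⟨(v.2 - u.2) * r + m * j, by simp only [hz₀]; linear_combination u.2 * hrs⟩
    simpa using dvd_sub e h9
  · exact ⟨(u.1 - v.1) * s + 9 * i, by simp only [hz₀]; linear_combination v.1 * hrs⟩
  · exact ⟨(u.2 - v.2) * s + 9 * j, by simp only [hz₀]; linear_combination v.2 * hrs⟩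

end Fermat.Agent.DihedralTwo
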