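import Mathlib

/-!
Positive definite binary quadratic forms of a fundamental discriminant: `SL₂(ℤ)`-action,
primitive vectors with prescribed residues, values prime to a given prime, and the classes
`FormClass Δ`.
-/

set_option autoImplicit false

namespace Fermat.Agent.DihedralTwo

/-- A binary quadratic form. -/
@[ext]
structure BQF where
  a : ℤ
  b : ℤ
  c : ℤ

namespace BQF

/-- The discriminant. -/
def disc (Q : BQF) : ℤ := Q.b ^ 2 - 4 * Q.a * Q.c

/-- The value at `(x, y)`. -/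
def val (Q : BQF) (x y : ℤ) : ℤ := Q.a * x ^ 2 + Q.b * x * y + Q.c * y ^ 2

/-- The form `Q (p x + q y, r x + s y)`. -/
def act (Q : BQF) (p q r s : ℤ) : BQF where
  a := Q.val p r
  b := 2 * Q.a * p * q + Q.b * (p * s + q * r) + 2 * Q.c * r * s
  c := Q.val q s

/-- Proper equivalence. -/
def Equiv (Q Q' : BQF) : Prop := ∃ p q r s : ℤ, p * s - q * r = 1 ∧ Q' = Q.act p q r s

theorem act_one (Q : BQF) : Q.act 1 0 0 1 = Q := by
  ext <;> simp [act, val]

theorem act_act (Q : BQF) (p q r s p' q' r' s' : ℤ) :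
    (Q.act p q r s).act p' q' r' s' =
      Q.act (p * p' + q * r') (p * q' + q * s') (r * p' + s * r') (r * q' + s * s') := by
  ext <;> simp only [act, val] <;> ring

theorem act_disc (Q : BQF) (p q r s : ℤ) :
    (Q.act p q r s).disc = (p * s - q * r) ^ 2 * Q.disc := by
  simp only [act, val, disc]; ring

theorem Equiv.refl (Q : BQF) : Equiv Q Q := ⟨1, 0, 0, 1, by norm_num, (act_one Q).symm⟩

theorem Equiv.symm {Q Q' : BQF} (h : Equiv Q Q') : Equiv Q' Q := by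
  obtain ⟨p, q, r, s, hdet, rfl⟩ := h
  refine ⟨s, -q, -r, p, by linear_combination hdet, ?_⟩
  rw [act_act, show p * s + q * -r = 1 by linear_combination hdet,
    show p * -q + q * p = 0 by ring, show r * s + s * -r = 0 by ring,
    show r * -q + s * p = 1 by linear_combination hdet, act_one]

theorem Equiv.trans {Q Q' Q'' : BQF} (h : Equiv Q Q') (h' : Equiv Q' Q'') : Equiv Q Q'' := by
  obtain ⟨p, q, r, s, hdet, rfl⟩ := h
  obtain ⟨p', q', r', s', hdet', rfl⟩ := h'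
  exact ⟨_, _, _, _, by linear_combination (p' * s' - q' * r') * hdet + hdet',
    act_act _ _ _ _ _ _ _ _ _⟩

theorem four_val (Q : BQF) (x y : ℤ) :
    4 * Q.a * Q.val x y = (2 * Q.a * x + Q.b * y) ^ 2 - Q.disc * y ^ 2 := by
  simp only [val, disc]; ring

/-- A form of discriminant `Δ` with positive leading coefficient. -/
structure IsFormOf (Δ : ℤ) (Q : BQF) : Prop where
  disc_eq : Q.disc = Δ
  pos : 0 < Q.a

variable {Δ : ℤ} {Q Q' : BQF}

theorem IsFormOf.val_pos (h : IsFormOf Δ Q) (hΔ : Δ < 0) {x y : ℤ} (hxy : x ≠ 0 ∨ y ≠ 0) :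
    0 < Q.val x y := by
  have h4 := four_val Q x y
  rw [h.disc_eq] at h4
  have hp := h.pos
  rcases eq_or_ne y 0 with rfl | hy
  · have hx : x ≠ 0 := hxy.resolve_right (not_not.2 rfl)
    simp only [val, mul_zero, add_zero, zero_pow two_ne_zero]
    positivity
  · nlinarith [sq_nonneg (2 * Q.a * x + Q.b * y), mul_pos (neg_pos.2 hΔ) (sq_pos_of_ne_zero hy)]

theorem IsFormOf.act (h : IsFormOf Δ Q) (hΔ : Δ < 0) {p q r s : ℤ} (hdet : p * s - q * r = 1) :
    IsFormOf Δ (Q.act p q r s) := by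
  refine ⟨by rw [act_disc, hdet, h.disc_eq]; ring, h.val_pos hΔ ?_⟩
  by_contra hcon
  push Not at hcon
  rw [hcon.1, hcon.2] at hdet
  norm_num at hdet

end BQF

/-! ### Vectors with prescribed residues -/

/-- A primitive vector congruent to given primitive residues modulo finitely many prime powers. -/
theorem exists_primitive_vec (S : Finset ℕ) (hS : ∀ q ∈ S, Nat.Prime q) (e : ℕ → ℕ)
    (t : ℕ → ℤ × ℤ) (ht : ∀ q ∈ S, ¬ ((q : ℤ) ∣ (t q).1 ∧ (q : ℤ) ∣ (t q).2)) :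
    ∃ v : ℤ × ℤ, IsCoprime v.1 v.2 ∧
      ∀ q ∈ S, (q : ℤ) ^ (e q + 1) ∣ v.1 - (t q).1 ∧ (q : ℤ) ^ (e q + 1) ∣ v.2 - (t q).2 := by
  have crt : ∀ (T : Finset ℕ), (∀ q ∈ T, Nat.Prime q) → ∀ u : ℕ → ℤ,
      ∃ n : ℤ, 0 < n ∧ ∀ q ∈ T, (q : ℤ) ^ (e q + 1) ∣ n - u q := by
    intro T hT u
    have hne : ∀ q ∈ T, q ^ (e q + 1) ≠ 0 := fun q hq => pow_ne_zero _ (hT q hq).ne_zero
    obtain ⟨k, hk⟩ := Nat.chineseRemainderOfFinset
      (fun q => ((u q) % ((q : ℤ) ^ (e q + 1))).toNat) (fun q => q ^ (e q + 1)) T hne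
      (fun a ha b hb hab => Nat.Coprime.pow _ _ ((Nat.coprime_primes (hT a ha) (hT b hb)).2 hab))
    refine ⟨(k : ℤ) + ∏ q ∈ T, (q : ℤ) ^ (e q + 1), ?_, fun q hq => ?_⟩
    · have : 0 < ∏ q ∈ T, (q : ℤ) ^ (e q + 1) :=
        Finset.prod_pos fun q hq => pow_pos (by exact_mod_cast (hT q hq).pos) _
      positivity
    · have hk' := (Int.natCast_modEq_iff.2 (hk q hq)).symm
      rw [Int.modEq_iff_dvd, Int.toNat_of_nonneg
        (Int.emod_nonneg _ (pow_ne_zero _ (by exact_mod_cast (hT q hq).ne_zero)))] at hk'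
      push_cast at hk'
      have hp := Finset.dvd_prod_of_mem (fun q : ℕ => (q : ℤ) ^ (e q + 1)) hq
      have hmod : (q : ℤ) ^ (e q + 1) ∣ u q - u q % (q : ℤ) ^ (e q + 1) :=
        ⟨u q / (q : ℤ) ^ (e q + 1), by
          linear_combination -(Int.emod_add_mul_ediv (u q) ((q : ℤ) ^ (e q + 1)))⟩
      have := dvd_sub (dvd_add hk' hp) hmod
      rwa [show (k : ℤ) - u q % (q : ℤ) ^ (e q + 1) + ∏ q ∈ T, (q : ℤ) ^ (e q + 1) -
        (u q - u q % (q : ℤ) ^ (e q + 1)) = (k : ℤ) + ∏ q ∈ T, (q : ℤ) ^ (e q + 1) - u q by ring]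
        at this
  obtain ⟨x, hx0, hx⟩ := crt S hS fun q => (t q).1
  classical
  obtain ⟨y, -, hy⟩ := crt (S ∪ (x.natAbs.primeFactors \ S))
    (fun q hq => by
      rcases Finset.mem_union.1 hq with h | h
      · exact hS q h
      · exact Nat.prime_of_mem_primeFactors (Finset.mem_sdiff.1 h).1)
    fun q => if q ∈ S then (t q).2 else 1
  refine ⟨(x, y), ?_, fun q hq => ⟨hx q hq, ?_⟩⟩
  · rw [Int.isCoprime_iff_gcd_eq_one]
    by_contra hne
    obtain ⟨q, hq, hqd⟩ := Nat.exists_prime_and_dvd hne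
    have hqx : (q : ℤ) ∣ x := (Int.natCast_dvd_natCast.2 hqd).trans (Int.gcd_dvd_left _ _)
    have hqy : (q : ℤ) ∣ y := (Int.natCast_dvd_natCast.2 hqd).trans (Int.gcd_dvd_right _ _)
    by_cases hqS : q ∈ S
    · have h2 := (dvd_pow_self _ (Nat.succ_ne_zero _)).trans (hy q (Finset.mem_union_left _ hqS))
      simp only [if_pos hqS] at h2
      have h1 := (dvd_pow_self _ (Nat.succ_ne_zero _)).trans (hx q hqS)
      exact ht q hqS ⟨by simpa using dvd_sub hqx h1, by simpa using dvd_sub hqy h2⟩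
    · have hmem : q ∈ x.natAbs.primeFactors :=
        (Nat.mem_primeFactors).2 ⟨hq, Int.natCast_dvd.1 hqx, by omega⟩
      have h2 := (dvd_pow_self _ (Nat.succ_ne_zero _)).trans
        (hy q (Finset.mem_union_right _ (Finset.mem_sdiff.2 ⟨hmem, hqS⟩)))
      simp only [if_neg hqS] at h2
      have h1 : (q : ℤ) ∣ 1 := by simpa using dvd_sub hqy h2
      exact hq.ne_one (by exact_mod_cast Int.eq_one_of_dvd_one (Int.natCast_nonneg q) h1)
  · have := hy q (Finset.mem_union_left _ hq)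
    simpa [hq] using this

namespace BQF

variable {Δ : ℤ} {Q : BQF}

theorem val_congr (Q : BQF) {n : ℤ} {x y x' y' : ℤ} (h1 : n ∣ x - x') (h2 : n ∣ y - y') :
    n ∣ Q.val x y - Q.val x' y' := by
  have e : Q.val x y - Q.val x' y' =
      (x - x') * (Q.a * (x + x') + Q.b * y) + (y - y') * (Q.b * x' + Q.c * (y + y')) := by
    simp only [val]; ring
  rw [e]
  exact dvd_add (h1.mul_right _) (h2.mul_right _)

/-- A fundamental discriminant makes every form primitive at every prime. -/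
theorem IsFormOf.exists_val_not_dvd (h : IsFormOf Δ Q)
    (hfund : ∀ q : ℕ, q.Prime → ∀ e : ℤ, Δ = (q : ℤ) ^ 2 * e → ¬ (e % 4 = 0 ∨ e % 4 = 1))
    {q : ℕ} (hq : q.Prime) :
    ∃ t : ℤ × ℤ, ¬ ((q : ℤ) ∣ t.1 ∧ (q : ℤ) ∣ t.2) ∧ ¬ (q : ℤ) ∣ Q.val t.1 t.2 := by
  have h1 : ¬ (q : ℤ) ∣ 1 := fun e =>
    hq.ne_one (by exact_mod_cast Int.eq_one_of_dvd_one (Int.natCast_nonneg q) e)
  by_cases ha : (q : ℤ) ∣ Q.a
  swap
  · exact ⟨(1, 0), fun e => h1 e.1, by simpa [val] using ha⟩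
  by_cases hc : (q : ℤ) ∣ Q.c
  swap
  · exact ⟨(0, 1), fun e => h1 e.2, by simpa [val] using hc⟩
  refine ⟨(1, 1), fun e => h1 e.1, fun e => ?_⟩
  have hb : (q : ℤ) ∣ Q.b := by
    have := dvd_sub (dvd_sub e ha) hc
    rwa [show Q.val (1, (1 : ℤ)).1 (1, (1 : ℤ)).2 - Q.a - Q.c = Q.b by
      simp only [val]; ring] at this
  obtain ⟨u, hu⟩ := ha
  obtain ⟨v, hv⟩ := hb
  obtain ⟨w, hw⟩ := hc
  refine hfund q hq (v ^ 2 - 4 * u * w) (by rw [← h.disc_eq, disc, hu, hv, hw]; ring) ?_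
  rcases Int.even_or_odd' v with ⟨k, rfl | rfl⟩
  · left
    rw [show (2 * k) ^ 2 - 4 * u * w = 4 * (k ^ 2 - u * w) by ring]
    omega
  · right
    rw [show (2 * k + 1) ^ 2 - 4 * u * w = 4 * (k ^ 2 + k - u * w) + 1 by ring]
    omega

/-- Forms of discriminant `Δ`. -/
abbrev FormOf (Δ : ℤ) := {Q : BQF // IsFormOf Δ Q}

/-- Equivalence of forms of a fixed discriminant. -/
def formSetoid (Δ : ℤ) : Setoid (FormOf Δ) where
  r Q Q' := Equiv Q.1 Q'.1
  iseqv := ⟨fun Q => Equiv.refl Q.1, Equiv.symm, Equiv.trans⟩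

/-- The classes of forms. -/
def FormClass (Δ : ℤ) := Quotient (formSetoid Δ)

/-- The class of a form. -/
def mkClass {Δ : ℤ} (Q : BQF) (h : IsFormOf Δ Q) : FormClass Δ :=
  Quotient.mk (formSetoid Δ) ⟨Q, h⟩

/-- Forms have the same class exactly when they are properly equivalent. -/
theorem mkClass_eq {Δ : ℤ} {Q Q' : BQF} (h : IsFormOf Δ Q) (h' : IsFormOf Δ Q') :
    mkClass Q h = mkClass Q' h' ↔ Equiv Q Q' :=
  ⟨fun e => Quotient.exact e, fun e => Quotient.sound e⟩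

end BQF

end Fermat.Agent.DihedralTwo
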