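import Fermat.Agent.DihedralTwo.Kummer
import Fermat.Agent.DihedralTwo.CubicForm
import Fermat.Agent.DihedralTwo.Forms

/-!
The cubic class character attached to a binary cubic form of fundamental discriminant `Δ`: the
Kummer symbol is a well defined function on the classes of forms of discriminant `Δ`.
-/

set_option autoImplicit false

noncomputable section

namespace Fermat.Agent.DihedralTwo

open BQF

variable {F : Cubic} {Δ : ℤ}

/-- The Kummer element `G + 3 r C √-3`. -/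
def kEl (F : Cubic) (z : ℤ × ℤ) (r : ℤ) : Eis :=
  ⟨F.jac z + 3 * r * F.at' z, 6 * r * F.at' z⟩

/-- The Kummer symbol at `(m, r)`, `r² ≡ Δ (m)`. -/
def X0 (F : Cubic) (z : ℤ × ℤ) (m r : ℤ) : ZMod 3 := symb m.natAbs (kEl F z r)

/-- The primes to be avoided for the parameter `z`. -/
def bad (F : Cubic) (Δ : ℤ) (z : ℤ × ℤ) : ℤ := 6 * Δ * F.at' z * F.hess z

theorem kEl_norm (F : Cubic) (z : ℤ × ℤ) (r : ℤ) :
    (kEl F z r).norm = F.jac z ^ 2 + 27 * r ^ 2 * F.at' z ^ 2 := by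
  rw [eis_norm, kEl]; ring

theorem bad_ne_zero (h : GoodCubic F Δ) {z : ℤ × ℤ} (hz : Usable F z) : bad F Δ z ≠ 0 := by
  refine mul_ne_zero (mul_ne_zero (mul_ne_zero (by norm_num) h.neg.ne) ?_) hz.hess0
  exact fun e => hz.val9 (by rw [e]; exact dvd_zero _)

theorem not_three_dvd_natAbs {m : ℤ} (h : IsCoprime m 3) : ¬ 3 ∣ m.natAbs := fun e =>
  int_prime_not_dvd_of_coprime Nat.prime_three h.symm (Int.natCast_dvd.2 e) dvd_rfl

theorem natAbs_ne_zero_of_coprime {m n : ℤ} (h : IsCoprime m n) (hn : ¬ IsUnit n) :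
    m.natAbs ≠ 0 := fun e => hn (by
  rw [Int.natAbs_eq_zero] at e
  exact isCoprime_zero_left.1 (e ▸ h))

theorem coprime_natAbs_iff {a m : ℤ} : IsCoprime a (m.natAbs : ℤ) ↔ IsCoprime a m := by
  simp [Int.isCoprime_iff_gcd_eq_one, Int.gcd, Int.natAbs_abs]

theorem coprime_of_bad {m : ℤ} {z : ℤ × ℤ} (hm : IsCoprime m (bad F Δ z)) :
    IsCoprime m 2 ∧ IsCoprime m 3 ∧ IsCoprime m (F.hess z) ∧ IsCoprime m (F.at' z) :=
  ⟨hm.of_isCoprime_of_dvd_right ⟨3 * Δ * F.at' z * F.hess z, by rw [bad]; ring⟩,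
    hm.of_isCoprime_of_dvd_right ⟨2 * Δ * F.at' z * F.hess z, by rw [bad]; ring⟩,
    hm.of_isCoprime_of_dvd_right ⟨6 * Δ * F.at' z, by rw [bad]; ring⟩,
    hm.of_isCoprime_of_dvd_right ⟨6 * Δ * F.hess z, by rw [bad]; ring⟩⟩

theorem adm_kEl (h : GoodCubic F Δ) {z : ℤ × ℤ} {m r : ℤ} (hm : IsCoprime m (bad F Δ z))
    (hr : m ∣ r ^ 2 - Δ) : Adm m.natAbs (kEl F z r) := by
  obtain ⟨h2, h3, hH, -⟩ := coprime_of_bad hm
  refine ⟨natAbs_ne_zero_of_coprime h3 (by norm_num [Int.isUnit_iff]), ?_,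
    not_three_dvd_natAbs h3⟩
  rw [coprime_natAbs_iff]
  have hbig : IsCoprime (4 * F.hess z ^ 3) m := by
    rw [show (4 : ℤ) = 2 ^ 2 by norm_num]
    exact (h2.symm.pow_left).mul_left hH.symm.pow_left
  obtain ⟨k, hk⟩ := hr
  rw [kEl_norm, show F.jac z ^ 2 + 27 * r ^ 2 * F.at' z ^ 2 =
    4 * F.hess z ^ 3 + m * (27 * k * F.at' z ^ 2) by
      rw [← F.syzygy z, h.disc_eq]; linear_combination (27 * F.at' z ^ 2) * hk]
  exact hbig.add_mul_left_left _

theorem X0_mul {z : ℤ × ℤ} {m n r : ℤ} (hm : m ≠ 0) (hn : n ≠ 0) :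
    X0 F z (m * n) r = X0 F z m r + X0 F z n r := by
  rw [X0, Int.natAbs_mul]
  exact symb_mul_modulus (Int.natAbs_ne_zero.2 hm) (Int.natAbs_ne_zero.2 hn) _

theorem X0_one {z : ℤ × ℤ} {r : ℤ} : X0 F z 1 r = 0 := symb_one _

theorem kEl_neg (F : Cubic) (z : ℤ × ℤ) (r : ℤ) :
    kEl F z (-r) = starRingEnd Eis (kEl F z r) := by
  apply ext_eis
  · simp [kEl, starRingEnd_apply]; ring
  · simp [kEl, starRingEnd_apply]

theorem X0_neg (h : GoodCubic F Δ) {z : ℤ × ℤ} {m r : ℤ} (hm : IsCoprime m (bad F Δ z))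
    (hr : m ∣ r ^ 2 - Δ) : X0 F z m (-r) = -X0 F z m r := by
  rw [X0, kEl_neg, symb_conj (adm_kEl h hm hr)]
  rfl

theorem X0_congr (h : GoodCubic F Δ) {z : ℤ × ℤ} {m r r' : ℤ} (hm : IsCoprime m (bad F Δ z))
    (hr : m ∣ r ^ 2 - Δ) (hrr : m ∣ r - r') : X0 F z m r' = X0 F z m r := by
  refine symb_congr (adm_kEl h hm hr) ?_
  rw [← Int.cast_natCast]
  refine intCast_dvd_eis ?_ ?_ <;>
    simp only [kEl, QuadraticAlgebra.re_sub, QuadraticAlgebra.im_sub, Int.natAbs_dvd]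
  · rw [show F.jac z + 3 * r * F.at' z - (F.jac z + 3 * r' * F.at' z) =
      (r - r') * (3 * F.at' z) by ring]
    exact hrr.mul_right _
  · rw [show 6 * r * F.at' z - 6 * r' * F.at' z = (r - r') * (6 * F.at' z) by ring]
    exact hrr.mul_right _

/-- The symbol does not depend on the auxiliary vector. -/
theorem X0_eq (h : GoodCubic F Δ) {u z : ℤ × ℤ} {m r : ℤ} (hu : IsCoprime m (bad F Δ u))
    (hz : IsCoprime m (bad F Δ z)) (hr : m ∣ r ^ 2 - Δ) : X0 F z m r = X0 F u m r := by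
  obtain ⟨h2, h3, hHu, -⟩ := coprime_of_bad hu
  have hn3 : ¬ 3 ∣ m.natAbs := not_three_dvd_natAbs h3
  have hm0 : m.natAbs ≠ 0 := natAbs_ne_zero_of_coprime h3 (by norm_num [Int.isUnit_iff])
  have hAu := adm_kEl h hu hr
  have hAz := adm_kEl h hz hr
  set δ := u.1 * z.2 - u.2 * z.1 with hδ
  set L : Eis := ⟨F.polar u z + r * δ, 2 * r * δ⟩ with hL
  set a : ℤ := 2 * F.hess u with ha
  -- the cube identity modulo `m`
  have hdvd : ((m.natAbs : ℕ) : Eis) ∣
      ((a : Eis) * (a : Eis) * (a : Eis)) * kEl F z r - kEl F u r * (L * L * L) := by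
    set I : Ideal Eis := Ideal.span {((m.natAbs : ℕ) : Eis)} with hI
    rw [← Ideal.mem_span_singleton, ← hI, ← Ideal.Quotient.eq_zero_iff_mem, map_sub, sub_eq_zero]
    set π := Ideal.Quotient.mk I with hπ
    set t : Eis ⧸ I := π (⟨r, 2 * r⟩ : Eis) with ht
    have ht2 : t ^ 2 = -3 * ((F.disc : ℤ) : Eis ⧸ I) := by
      rw [ht, ← map_pow, ← map_intCast π, ← map_ofNat π 3, ← map_neg, ← map_mul, hπ,
        Ideal.Quotient.eq, hI, Ideal.mem_span_singleton, h.disc_eq, ← Int.cast_natCast]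
      refine intCast_dvd_eis ?_ ?_
      · have h3 : (-3 : Eis).re = -3 := rfl
        have h4 : (-3 : Eis).im = 0 := rfl
        rw [Int.natAbs_dvd]
        simp only [pow_two, QuadraticAlgebra.re_sub, QuadraticAlgebra.re_mul,
          QuadraticAlgebra.re_intCast, QuadraticAlgebra.im_intCast, h3, h4, Int.cast_id]
        rw [show r * r + -1 * (2 * r) * (2 * r) - (-3 * Δ + -1 * 0 * 0) = (r ^ 2 - Δ) * (-3) by
          ring]
        exact hr.mul_right _
      · have h3 : (-3 : Eis).re = -3 := rfl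
        have h4 : (-3 : Eis).im = 0 := rfl
        simp only [pow_two, QuadraticAlgebra.im_sub, QuadraticAlgebra.im_mul,
          QuadraticAlgebra.re_intCast, QuadraticAlgebra.im_intCast, h3, h4, Int.cast_id]
        exact ⟨0, by ring⟩
    have key := F.cube_identity t ht2 u z
    have hk : ∀ w : ℤ × ℤ, π (kEl F w r) = (F.jac w : Eis ⧸ I) + 3 * t * (F.at' w : Eis ⧸ I) := by
      intro w
      rw [ht, ← map_intCast π, ← map_intCast π, ← map_ofNat π 3, ← map_mul, ← map_mul, ← map_add]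
      congr 1
      have h3 : (3 : Eis).re = 3 := rfl
      have h4 : (3 : Eis).im = 0 := rfl
      apply ext_eis <;>
        simp only [kEl, QuadraticAlgebra.re_add, QuadraticAlgebra.im_add, QuadraticAlgebra.re_mul,
          QuadraticAlgebra.im_mul, QuadraticAlgebra.re_intCast, QuadraticAlgebra.im_intCast, h3, h4,
          Int.cast_id] <;> ring
    have hLπ : π L = (F.polar u z : Eis ⧸ I) + t * ((δ : ℤ) : Eis ⧸ I) := by
      rw [ht, ← map_intCast π, ← map_intCast π, ← map_mul, ← map_add]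
      congr 1
      apply ext_eis <;> simp [hL, QuadraticAlgebra.re_mul, QuadraticAlgebra.im_mul]
    simp only [map_mul, hk, hLπ, map_intCast, ha]
    push_cast
    rw [← pow_three', ← pow_three']
    exact key
  -- admissibility
  have hacop : IsCoprime a (m.natAbs : ℤ) :=
    coprime_natAbs_iff.2 ((h2.symm.mul_left hHu.symm))
  have hAa : Adm m.natAbs (a : Eis) :=
    ⟨hm0, by rw [QuadraticAlgebra.norm_intCast]; exact hacop.pow_left, hn3⟩
  have hmul : ∀ x y : Eis, Adm m.natAbs x → Adm m.natAbs y → Adm m.natAbs (x * y) :=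
    fun x y hx hy => ⟨hm0, by rw [map_mul]; exact hx.2.1.mul_left hy.2.1, hn3⟩
  have hA3 := hmul _ _ (hmul _ _ hAa hAa) hAa
  have hAl := hmul _ _ hA3 hAz
  have hLadm : Adm m.natAbs L := by
    refine ⟨hm0, coprime_of_forall_prime fun q hq hqm hqL => ?_, hn3⟩
    obtain ⟨w, hw⟩ := hdvd
    have hqn : (q : ℤ) ∣ ((a : Eis) * (a : Eis) * (a : Eis) * kEl F z r).norm := by
      have := Fact.mk hq
      obtain ⟨v, hv⟩ := exists_isOmega (Kq q)
      rw [← CharP.intCast_eq_zero_iff (Kq q) q] at hqL ⊢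
      rw [norm_ev hv] at hqL ⊢
      have hm' : ((m.natAbs : ℕ) : Kq q) = 0 := (CharP.cast_eq_zero_iff (Kq q) q _).2 hqm
      have e : ∀ (v' : Kq q) (hv' : IsOmega v'),
          ev v' hv' ((a : Eis) * (a : Eis) * (a : Eis) * kEl F z r) =
            ev v' hv' (kEl F u r) * (ev v' hv' L * ev v' hv' L * ev v' hv' L) := by
        intro v' hv'
        have := congrArg (ev v' hv') hw
        simp only [map_sub, map_mul, map_natCast, hm', zero_mul, sub_eq_zero] at this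
        simpa only [map_mul] using this
      rw [e v hv, e _ hv.sq]
      rcases mul_eq_zero.1 hqL with h0 | h0 <;> rw [h0] <;> ring
    exact int_prime_not_dvd_of_coprime hq hAl.2.1 (Int.natCast_dvd_natCast.2 hqm) hqn
  have hL3 := hmul _ _ (hmul _ _ hLadm hLadm) hLadm
  have e := symb_congr hAl (b := kEl F u r * (L * L * L)) hdvd
  rw [symb_mul hAu hL3, symb_mul (hmul _ _ hLadm hLadm) hLadm, symb_mul hLadm hLadm,
    symb_mul hA3 hAz, symb_mul (hmul _ _ hAa hAa) hAa, symb_mul hAa hAa] at e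
  have h30 : ∀ x : ZMod 3, x + x + x = 0 := by decide
  rw [h30, h30, zero_add, add_zero] at e
  exact e.symm

theorem act_completion {Q : BQF} {p q r s p' q' r' s' : ℤ} (hdet' : p' * s' - q' * r' = 1) :
    Q.act p q r s =
      (Q.act p' q' r' s').act (s' * p - q' * r) (s' * q - q' * s) (p' * r - r' * p)
        (p' * s - r' * q) := by
  rw [act_act]
  congr 1 <;> [linear_combination -p * hdet'; linear_combination -q * hdet';
    linear_combination -r * hdet'; linear_combination -s * hdet']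

theorem not_both_of_det {p q r s : ℤ} (hdet : p * s - q * r = 1) {n : ℕ} (hn : n.Prime)
    (hp : (n : ℤ) ∣ p) (hr : (n : ℤ) ∣ r) : False := by
  have : (n : ℤ) ∣ 1 := hdet ▸ dvd_sub (hp.mul_right s) (hr.mul_left q)
  exact hn.ne_one (by exact_mod_cast Int.eq_one_of_dvd_one (Int.natCast_nonneg n) this)

/-- Moving to an equivalent form by congruence conditions. -/
theorem exists_move (h : GoodCubic F Δ) {Q : BQF} (hQ : IsFormOf Δ Q) {K : ℤ} (hK : K ≠ 0)
    (e : ℕ → ℕ) (T : ℕ → ℤ × ℤ)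
    (hT : ∀ n : ℕ, n.Prime → (n : ℤ) ∣ K → ¬ (n : ℤ) ∣ Q.val (T n).1 (T n).2) :
    ∃ p q r s : ℤ, p * s - q * r = 1 ∧ IsFormOf Δ (Q.act p q r s) ∧
      IsCoprime (Q.act p q r s).a K ∧
      ∀ n : ℕ, n.Prime → (n : ℤ) ∣ K →
        (n : ℤ) ^ (e n + 1) ∣ p - (T n).1 ∧ (n : ℤ) ^ (e n + 1) ∣ r - (T n).2 := by
  have hmem : ∀ {n : ℕ}, n ∈ K.natAbs.primeFactors ↔ n.Prime ∧ (n : ℤ) ∣ K := by
    intro n
    rw [Nat.mem_primeFactors, Int.natCast_dvd]
    exact ⟨fun h => ⟨h.1, h.2.1⟩, fun h => ⟨h.1, h.2, Int.natAbs_ne_zero.2 hK⟩⟩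
  obtain ⟨v, hv, hvS⟩ := exists_primitive_vec K.natAbs.primeFactors
    (fun n hn => (hmem.1 hn).1) e T (fun n hn hd => hT n (hmem.1 hn).1 (hmem.1 hn).2 (by
      simp only [val]
      obtain ⟨⟨x, hx⟩, y, hy⟩ := hd
      exact ⟨Q.a * x * (T n).1 + Q.b * x * (T n).2 + Q.c * y * (T n).2, by
        rw [hx, hy]; ring⟩))
  obtain ⟨a', b', hab⟩ := hv
  have hdet : v.1 * a' - -b' * v.2 = 1 := by linear_combination hab
  refine ⟨v.1, -b', v.2, a', hdet, hQ.act h.neg hdet, ?_, fun n hn hd => hvS n (hmem.2 ⟨hn, hd⟩)⟩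
  rw [← coprime_natAbs_iff]
  refine coprime_of_forall_prime fun n hn hnK hna => ?_
  have hnK' : (n : ℤ) ∣ K := Int.natCast_dvd.2 hnK
  obtain ⟨h1, h2⟩ := hvS n (hmem.2 ⟨hn, hnK'⟩)
  have hc := Q.val_congr ((dvd_pow_self (n : ℤ) (Nat.succ_ne_zero _)).trans h1)
    ((dvd_pow_self (n : ℤ) (Nat.succ_ne_zero _)).trans h2)
  have hna' : (n : ℤ) ∣ Q.val v.1 v.2 := hna
  exact hT n hn hnK' (by simpa using dvd_sub hna' hc)

theorem dvd_disc_sq {Q : BQF} (hQ : IsFormOf Δ Q) : Q.a ∣ Q.b ^ 2 - Δ :=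
  ⟨4 * Q.c, by rw [← hQ.disc_eq, disc]; ring⟩

/-- The basic invariance: a move whose lower-left entry is prime to `3` and divisible by the
prime-to-`3` part of the value. -/
theorem X0_move₀ (h : GoodCubic F Δ) {z : ℤ × ℤ} (hz : Usable F z) {s₁ t : ℤ}
    (hs : F.at' z = s₁ * t) (ht : t = 1 ∨ t = 3)
    {Q : BQF} (hQ : IsFormOf Δ Q) {p q r s : ℤ} (hdet : p * s - q * r = 1)
    (ha : IsCoprime Q.a (bad F Δ z)) (ha' : IsCoprime (Q.act p q r s).a (bad F Δ z))
    (haa : IsCoprime Q.a (Q.act p q r s).a) (hsr : s₁ ∣ r) (hr3 : ¬ (3 : ℤ) ∣ r) :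
    X0 F z (Q.act p q r s).a (Q.act p q r s).b = X0 F z Q.a Q.b := by
  set Q' := Q.act p q r s with hQ'
  have hQ'f : IsFormOf Δ Q' := hQ.act h.neg hdet
  set X := 2 * Q.a * p + Q.b * r with hX
  set M := Q.a * Q'.a with hM
  have hid : X ^ 2 - Δ * r ^ 2 = 4 * M := by
    rw [hX, hM, hQ', ← hQ.disc_eq]
    simp only [BQF.act, val, disc]; ring
  obtain ⟨ha2, ha3, haH, -⟩ := coprime_of_bad ha
  obtain ⟨ha2', ha3', haH', -⟩ := coprime_of_bad ha'
  have hMpos : 0 < M := mul_pos hQ.pos hQ'f.pos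
  have hMcast : (M.natAbs : ℤ) = M := Int.natAbs_of_nonneg hMpos.le
  have hM0 : M.natAbs ≠ 0 := Int.natAbs_ne_zero.2 hMpos.ne'
  have hM3 : ¬ 3 ∣ M.natAbs := not_three_dvd_natAbs (ha3.mul_left ha3')
  have hM6c : IsCoprime (M.natAbs : ℤ) (6 * F.hess z) := by
    rw [hMcast, show (6 : ℤ) = 2 * 3 by norm_num]
    exact (((ha2.mul_left ha2').mul_right (ha3.mul_left ha3')).mul_right (haH.mul_left haH'))
  have hpr : ∀ n : ℕ, n.Prime → (n : ℤ) ∣ r → ¬ (n : ℤ) ∣ M := by
    intro n hn hnr hnM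
    have hp' := Nat.prime_iff_prime_int.1 hn
    have e : Q'.a = Q.a * p ^ 2 + r * (Q.b * p + Q.c * r) := by
      rw [hQ']; simp only [BQF.act, val]; ring
    rcases hp'.dvd_or_dvd hnM with h1 | h1
    · exact int_prime_not_dvd_of_coprime hn haa.symm h1
        (e ▸ dvd_add (h1.mul_right _) (hnr.mul_right _))
    · have : (n : ℤ) ∣ Q.a * p ^ 2 := by
        have := dvd_sub h1 (hnr.mul_right (Q.b * p + Q.c * r))
        rwa [e, add_sub_cancel_right] at this
      rcases hp'.dvd_or_dvd this with h2 | h2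
      · exact int_prime_not_dvd_of_coprime hn haa h1 h2
      · exact not_both_of_det hdet hn (hp'.dvd_of_dvd_pow h2) hnr
  have hrM : IsCoprime r M := by
    rw [← coprime_natAbs_iff]
    exact coprime_of_forall_prime fun n hn hnM hnr => hpr n hn hnr (Int.natCast_dvd.2 hnM)
  set A : Eis := ⟨F.jac z * r + 3 * F.at' z * X, 6 * F.at' z * X⟩ with hA
  -- `A` vanishes by reciprocity
  have hA0 : symb M.natAbs A = 0 := by
    have hj3 := hz.jac3
    have hcast : ∀ x : ℤ, x * (M.natAbs : ℤ) = x * M := fun x => by rw [hMcast]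
    have syz := F.syzygy z
    rw [h.disc_eq] at syz
    have hcopX : ∀ {X' Y' : ℤ} {D ε : ℤ}, X' ^ 2 - D * Y' ^ 2 = ε * M → Y' ∣ r →
        (∀ n : ℕ, n.Prime → (n : ℤ) ∣ ε → (n : ℤ) ∣ Y' → False) → IsCoprime X' Y' := by
      intro X' Y' D ε he hY hε
      rw [Int.isCoprime_iff_gcd_eq_one]
      by_contra hne
      obtain ⟨n, hn, hnd⟩ := Nat.exists_prime_and_dvd hne
      have hx : (n : ℤ) ∣ X' := (Int.natCast_dvd_natCast.2 hnd).trans (Int.gcd_dvd_left _ _)
      have hy : (n : ℤ) ∣ Y' := (Int.natCast_dvd_natCast.2 hnd).trans (Int.gcd_dvd_right _ _)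
      have hεM : (n : ℤ) ∣ ε * M :=
        he ▸ dvd_sub (dvd_pow hx two_ne_zero) ((dvd_pow hy two_ne_zero).mul_left _)
      rcases (Nat.prime_iff_prime_int.1 hn).dvd_or_dvd hεM with h1 | h1
      · exact hε n hn h1 hy
      · exact hpr n hn (hy.trans hY) h1
    have hone : ∀ n : ℕ, n.Prime → ¬ (n : ℤ) ∣ 1 := fun n hn e =>
      hn.ne_one (by exact_mod_cast Int.eq_one_of_dvd_one (Int.natCast_nonneg n) e)
    by_cases hΔ2 : (2 : ℤ) ∣ Δ
    · -- even discriminant
      obtain ⟨D, hD⟩ : (4 : ℤ) ∣ Δ := by have := h.mod_four; omega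
      obtain ⟨X₁, hX₁⟩ : (2 : ℤ) ∣ X := Int.prime_two.dvd_of_dvd_pow (n := 2)
        ⟨2 * M + 2 * D * r ^ 2, by rw [hD] at hid; linear_combination hid⟩
      obtain ⟨G₁, hG₁⟩ : (2 : ℤ) ∣ F.jac z := Int.prime_two.dvd_of_dvd_pow (n := 2)
        ⟨2 * F.hess z ^ 3 - 54 * D * F.at' z ^ 2, by rw [hD] at syz; linear_combination syz⟩
      have he : X₁ ^ 2 - D * r ^ 2 = 1 * M := by
        rw [hX₁, hD] at hid
        exact mul_left_cancel₀ (show (4 : ℤ) ≠ 0 by norm_num) (by linear_combination hid)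
      have key := symb_kummer_eq_zero (G := G₁) (s := F.at' z) (s₁ := s₁) (t := t)
        (c := F.hess z) (Δ := D) (ε := 1) (ε' := 1) (X := X₁) (Y := r) (M := M.natAbs)
        (by rw [hG₁, hD] at syz
            exact mul_left_cancel₀ (show (4 : ℤ) ≠ 0 by norm_num) (by linear_combination syz))
        (fun e => hj3 (hG₁ ▸ e.mul_left _)) hs ht hsr hr3 (by rw [hcast]; exact he)
        (hcopX he dvd_rfl fun n hn h1 _ => hone n hn h1) hM6c hM0 (Or.inl ⟨rfl, Or.inl rfl⟩)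
      have hA2 : A = ((2 : ℤ) : Eis) * ⟨G₁ * r + 3 * F.at' z * X₁, 6 * F.at' z * X₁⟩ := by
        apply ext_eis <;>
          simp only [hA, hX₁, hG₁, QuadraticAlgebra.re_mul, QuadraticAlgebra.im_mul,
                QuadraticAlgebra.re_intCast, QuadraticAlgebra.im_intCast, Int.cast_id] <;> ring
      rw [hA2]
      have h2adm : Adm M.natAbs ((2 : ℤ) : Eis) :=
        ⟨hM0, by rw [QuadraticAlgebra.norm_intCast]
                 exact (coprime_natAbs_iff.2 (ha2.mul_left ha2').symm).pow_left, hM3⟩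
      rw [symb_mul h2adm ⟨hM0, ?_, hM3⟩, key, add_zero,
        symb_intCast (coprime_natAbs_iff.2 (ha2.mul_left ha2').symm) hM3]
      rw [coprime_natAbs_iff, eis_norm]
      have : IsCoprime (F.hess z ^ 3 * r ^ 2) M :=
        (((haH.mul_left haH').symm.pow_left)).mul_left hrM.pow_left
      have e : (G₁ * r + 3 * F.at' z * X₁) ^ 2 - (G₁ * r + 3 * F.at' z * X₁) * (6 * F.at' z * X₁)
          + (6 * F.at' z * X₁) ^ 2 = F.hess z ^ 3 * r ^ 2 + M * (27 * F.at' z ^ 2) := by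
        rw [hG₁, hD] at syz
        refine mul_left_cancel₀ (show (4 : ℤ) ≠ 0 by norm_num) ?_
        linear_combination (r ^ 2) * syz + (4 * 27 * F.at' z ^ 2) * he
      rw [e]
      exact this.add_mul_left_left _
    · have hprod : IsCoprime (4 : ℤ) M := by
        rw [show (4 : ℤ) = 2 ^ 2 by norm_num]; exact (ha2.mul_left ha2').symm.pow_left
      by_cases hr2 : (2 : ℤ) ∣ r
      · obtain ⟨Y₁, hY₁⟩ := hr2
        obtain ⟨X₁, hX₁⟩ : (2 : ℤ) ∣ X := Int.prime_two.dvd_of_dvd_pow (n := 2)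
          ⟨2 * M + 2 * Δ * Y₁ ^ 2, by rw [hY₁] at hid; linear_combination hid⟩
        have he : X₁ ^ 2 - Δ * Y₁ ^ 2 = 1 * M := by
          rw [hX₁, hY₁] at hid
          exact mul_left_cancel₀ (show (4 : ℤ) ≠ 0 by norm_num) (by linear_combination hid)
        have hY3 : ¬ (3 : ℤ) ∣ Y₁ := fun e => hr3 (hY₁ ▸ e.mul_left _)
        have h2adm : Adm M.natAbs ((2 : ℤ) : Eis) :=
          ⟨hM0, by rw [QuadraticAlgebra.norm_intCast]
                   exact (coprime_natAbs_iff.2 (ha2.mul_left ha2').symm).pow_left, hM3⟩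
        have h2symb := symb_intCast (coprime_natAbs_iff.2 (ha2.mul_left ha2').symm) hM3
        have hcop1 := hcopX he ⟨2, by rw [hY₁]; ring⟩ fun n hn h1 _ => hone n hn h1
        by_cases hs2 : (2 : ℤ) ∣ F.at' z
        · -- halve everything twice
          obtain ⟨S, hS⟩ := hs2
          obtain ⟨G₁, hG₁⟩ : (2 : ℤ) ∣ F.jac z := Int.prime_two.dvd_of_dvd_pow (n := 2)
            ⟨2 * F.hess z ^ 3 - 54 * Δ * S ^ 2, by rw [hS] at syz; linear_combination syz⟩
          obtain ⟨s₂, hs₂⟩ : (2 : ℤ) ∣ s₁ := by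
            rcases ht with rfl | rfl <;> omega
          have key := symb_kummer_eq_zero (G := G₁) (s := S) (s₁ := s₂) (t := t)
            (c := F.hess z) (Δ := Δ) (ε := 1) (ε' := 1) (X := X₁) (Y := Y₁) (M := M.natAbs)
            (by rw [hG₁, hS] at syz
                exact mul_left_cancel₀ (show (4 : ℤ) ≠ 0 by norm_num) (by linear_combination syz))
            (fun e => hj3 (hG₁ ▸ e.mul_left _))
            (by rw [hS, hs₂] at hs
                exact mul_left_cancel₀ (show (2 : ℤ) ≠ 0 by norm_num) (by linear_combination hs)) ht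
            (Int.dvd_of_mul_dvd_mul_left two_ne_zero (by rw [← hs₂, ← hY₁]; exact hsr))
            hY3 (by rw [hcast]; exact he) hcop1 hM6c hM0 (Or.inl ⟨rfl, Or.inl rfl⟩)
          have hA2 : A = (((2 : ℤ) : Eis) * ((2 : ℤ) : Eis)) *
              ⟨G₁ * Y₁ + 3 * S * X₁, 6 * S * X₁⟩ := by
            apply ext_eis <;>
              simp only [hA, hX₁, hY₁, hG₁, hS, QuadraticAlgebra.re_mul, QuadraticAlgebra.im_mul,
                QuadraticAlgebra.re_intCast, QuadraticAlgebra.im_intCast, Int.cast_id] <;>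
              ring
          have h4adm : Adm M.natAbs (((2 : ℤ) : Eis) * ((2 : ℤ) : Eis)) :=
            ⟨hM0, by rw [map_mul]; exact h2adm.2.1.mul_left h2adm.2.1, hM3⟩
          rw [hA2, symb_mul h4adm ⟨hM0, ?_, hM3⟩, key, add_zero, symb_mul h2adm h2adm, h2symb,
            add_zero]
          rw [coprime_natAbs_iff, eis_norm]
          have e : (G₁ * Y₁ + 3 * S * X₁) ^ 2 - (G₁ * Y₁ + 3 * S * X₁) * (6 * S * X₁)
              + (6 * S * X₁) ^ 2 = F.hess z ^ 3 * Y₁ ^ 2 + M * (27 * S ^ 2) := by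
            rw [hG₁, hS] at syz
            refine mul_left_cancel₀ (show (4 : ℤ) ≠ 0 by norm_num) ?_
            linear_combination (Y₁ ^ 2) * syz + (4 * 27 * S ^ 2) * he
          rw [e]
          exact (((haH.mul_left haH').symm.pow_left).mul_left
            (hrM.of_isCoprime_of_dvd_left ⟨2, by rw [hY₁]; ring⟩).pow_left).add_mul_left_left _
        · have hs1odd : IsCoprime s₁ 2 :=
            ((Int.prime_two.irreducible.coprime_iff_not_dvd).2
              fun e => hs2 (hs ▸ e.mul_right _)).symm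
          have key := symb_kummer_eq_zero (G := F.jac z) (s := F.at' z) (s₁ := s₁) (t := t)
            (c := F.hess z) (Δ := Δ) (ε := 1) (ε' := 4) (X := X₁) (Y := Y₁) (M := M.natAbs)
            (by linear_combination syz) hj3 hs ht
            (hs1odd.dvd_of_dvd_mul_left (by rw [← hY₁]; exact hsr))
            hY3 (by rw [hcast]; exact he) hcop1 hM6c hM0 (Or.inl ⟨rfl, Or.inr rfl⟩)
          have hA2 : A = ((2 : ℤ) : Eis) *
              ⟨F.jac z * Y₁ + 3 * F.at' z * X₁, 6 * F.at' z * X₁⟩ := by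
            apply ext_eis <;>
              simp only [hA, hX₁, hY₁, QuadraticAlgebra.re_mul, QuadraticAlgebra.im_mul,
                QuadraticAlgebra.re_intCast, QuadraticAlgebra.im_intCast, Int.cast_id] <;> ring
          rw [hA2, symb_mul h2adm ⟨hM0, ?_, hM3⟩, key, add_zero, h2symb]
          rw [coprime_natAbs_iff, eis_norm]
          have e : (F.jac z * Y₁ + 3 * F.at' z * X₁) ^ 2 - (F.jac z * Y₁ + 3 * F.at' z * X₁)
              * (6 * F.at' z * X₁) + (6 * F.at' z * X₁) ^ 2 =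
              4 * F.hess z ^ 3 * Y₁ ^ 2 + M * (27 * F.at' z ^ 2) := by
            linear_combination (Y₁ ^ 2) * syz + (27 * F.at' z ^ 2) * he
          rw [e]
          exact ((hprod.mul_left (haH.mul_left haH').symm.pow_left).mul_left
            (hrM.of_isCoprime_of_dvd_left ⟨2, by rw [hY₁]; ring⟩).pow_left).add_mul_left_left _
      · exact symb_kummer_eq_zero (G := F.jac z) (s := F.at' z) (s₁ := s₁) (t := t)
          (c := F.hess z) (Δ := Δ) (ε := 4) (ε' := 4) (X := X) (Y := r) (M := M.natAbs)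
          (by linear_combination syz) hj3 hs ht hsr hr3 (by rw [hcast]; exact hid)
          (hcopX hid dvd_rfl fun n hn h1 h2 => by
            have h22 : (n : ℤ) ∣ 2 :=
              (Nat.prime_iff_prime_int.1 hn).dvd_of_dvd_pow (n := 2) (by norm_num; exact h1)
            have hn2 : n = 2 :=
              (Nat.prime_dvd_prime_iff_eq hn Nat.prime_two).1 (by exact_mod_cast h22)
            exact hr2 (by rw [hn2] at h2; exact_mod_cast h2))
          hM6c hM0 (Or.inr ⟨rfl, rfl, hr2⟩)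
  -- split the modulus
  have hm0 := Int.natAbs_ne_zero.2 hQ.pos.ne'
  have hm0' := Int.natAbs_ne_zero.2 hQ'f.pos.ne'
  rw [hM, Int.natAbs_mul, symb_mul_modulus hm0 hm0'] at hA0
  have hsplit : ∀ (m : ℤ) (b : ℤ), 0 < m → IsCoprime m (bad F Δ z) → m ∣ M →
      m ∣ b ^ 2 - Δ → m ∣ X - b * r → symb m.natAbs A = X0 F z m b := by
    intro m b hm hmb hmM hb hXb
    have hmr : IsCoprime r (m.natAbs : ℤ) :=
      coprime_natAbs_iff.2 (hrM.of_isCoprime_of_dvd_right hmM)
    have hk := adm_kEl h hmb hb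
    have hr' : Adm m.natAbs (r : Eis) :=
      ⟨hk.1, by rw [QuadraticAlgebra.norm_intCast]; exact hmr.pow_left, hk.2.2⟩
    have hprod : Adm m.natAbs ((r : Eis) * kEl F z b) :=
      ⟨hk.1, by rw [map_mul]; exact hr'.2.1.mul_left hk.2.1, hk.2.2⟩
    rw [symb_congr hprod (b := A) ?_, symb_mul hr' hk, symb_intCast hmr hk.2.2, zero_add]
    · rfl
    rw [← Int.cast_natCast]
    refine intCast_dvd_eis ?_ ?_ <;>
      simp only [hA, kEl, QuadraticAlgebra.re_sub, QuadraticAlgebra.im_sub, Int.natAbs_dvd,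
        QuadraticAlgebra.re_mul, QuadraticAlgebra.im_mul, QuadraticAlgebra.re_intCast,
        QuadraticAlgebra.im_intCast, Int.cast_id]
    · rw [show r * (F.jac z + 3 * b * F.at' z) + -1 * 0 * (6 * b * F.at' z)
        - (F.jac z * r + 3 * F.at' z * X) = (X - b * r) * (-3 * F.at' z) by ring]
      exact hXb.mul_right _
    · rw [show r * (6 * b * F.at' z) + 0 * (F.jac z + 3 * b * F.at' z)
        + -1 * 0 * (6 * b * F.at' z) - 6 * F.at' z * X = (X - b * r) * (-6 * F.at' z) by ring]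
      exact hXb.mul_right _
  rw [hsplit Q.a Q.b hQ.pos ha ⟨Q'.a, hM⟩ (dvd_disc_sq hQ)
      ⟨2 * p, by rw [hX]; ring⟩,
    hsplit Q'.a (-Q'.b) hQ'f.pos ha' ⟨Q.a, by rw [hM]; ring⟩
      (by rw [neg_sq]; exact dvd_disc_sq hQ'f)
      ⟨2 * s, by
        rw [hX, hQ']; simp only [BQF.act, val]
        linear_combination (-2 * Q.a * p - Q.b * r) * hdet⟩,
    X0_neg h ha' (dvd_disc_sq hQ'f)] at hA0
  rw [← sub_eq_add_neg, sub_eq_zero] at hA0
  exact hA0.symm

/-- The invariance for any move with `s₁ ∣ r`. -/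
theorem X0_move (h : GoodCubic F Δ) {z : ℤ × ℤ} (hz : Usable F z) {s₁ t : ℤ}
    (hs : F.at' z = s₁ * t) (ht : t = 1 ∨ t = 3) (hs3 : ¬ (3 : ℤ) ∣ s₁)
    {Q : BQF} (hQ : IsFormOf Δ Q) {p q r s : ℤ} (hdet : p * s - q * r = 1)
    (ha : IsCoprime Q.a (bad F Δ z)) (ha' : IsCoprime (Q.act p q r s).a (bad F Δ z))
    (hsr : s₁ ∣ r) :
    X0 F z (Q.act p q r s).a (Q.act p q r s).b = X0 F z Q.a Q.b := by
  classical
  choose t0 ht1 ht0 using fun (R : BQF) (hR : IsFormOf Δ R) (n : ℕ) (hn : n.Prime) =>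
    hR.exists_val_not_dvd h.fund hn
  have hs0 : s₁ ≠ 0 := fun e => hs3 (by simp [e])
  have hsbad : s₁ ∣ bad F Δ z := ⟨6 * Δ * t * F.hess z, by rw [bad, hs]; ring⟩
  have h3bad : (3 : ℤ) ∣ bad F Δ z := ⟨2 * Δ * F.at' z * F.hess z, by rw [bad]; ring⟩
  have main : ∀ {R : BQF}, IsFormOf Δ R → ∀ {p q r s : ℤ}, p * s - q * r = 1 →
      IsCoprime R.a (bad F Δ z) → IsCoprime (R.act p q r s).a (bad F Δ z) → s₁ ∣ r →
      ∀ u : ℤ × ℤ, ¬ (3 : ℤ) ∣ u.2 → ¬ (3 : ℤ) ∣ R.val u.1 u.2 →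
      ∃ p' q' r' s' : ℤ, p' * s' - q' * r' = 1 ∧ IsFormOf Δ (R.act p' q' r' s') ∧
        IsCoprime (R.act p' q' r' s').a (bad F Δ z) ∧
        X0 F z (R.act p' q' r' s').a (R.act p' q' r' s').b = X0 F z R.a R.b ∧
        s₁ ∣ r' ∧ (3 : ℤ) ∣ p' - u.1 ∧ (3 : ℤ) ∣ r' - u.2 ∧
        IsCoprime (R.act p' q' r' s').a (R.act p q r s).a := by
    intro R hR p q r s hdet ha ha' hsr u hu2 huv
    have hRf := hR.act h.neg hdet
    set K := bad F Δ z * (R.a * (R.act p q r s).a) with hK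
    obtain ⟨p', q', r', s', hd', hf', hK', hcong⟩ := exists_move h hR (K := K)
      (mul_ne_zero (bad_ne_zero h hz) (mul_ne_zero hR.pos.ne' hRf.pos.ne'))
      (fun n => s₁.natAbs.factorization n)
      (fun n => if n = 3 then u else if (n : ℤ) ∣ s₁ then (1, 0)
        else if hn : n.Prime then t0 R hR n hn else (1, 0))
      (by
        intro n hn hnK
        by_cases h3 : n = 3
        · simp only [if_pos h3]; subst h3; simpa using huv
        · simp only [if_neg h3]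
          by_cases hd : (n : ℤ) ∣ s₁
          · simp only [if_pos hd]
            have := int_prime_not_dvd_of_coprime hn ha (hd.trans hsbad)
            simpa [val] using this
          · simp only [if_neg hd, dif_pos hn]
            exact ht0 R hR n hn)
    have hsr' : s₁ ∣ r' := by
      rw [← Int.natAbs_dvd, Int.natCast_dvd, Nat.dvd_iff_prime_pow_dvd_dvd]
      intro n k hn hnk
      rcases Nat.eq_zero_or_pos k with rfl | hk
      · simp
      have hns : (n : ℤ) ∣ s₁ := Int.natCast_dvd.2 ((dvd_pow_self n hk.ne').trans hnk)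
      have h3 : n ≠ 3 := by rintro rfl; exact hs3 hns
      have h2 := (hcong n hn (hns.trans (hsbad.trans (dvd_mul_right _ _)))).2
      simp only [if_neg h3, if_pos hns, sub_zero] at h2
      rw [← Int.natCast_dvd]
      refine dvd_trans ?_ h2
      push_cast
      exact pow_dvd_pow _ (((Nat.Prime.pow_dvd_iff_le_factorization hn
        (Int.natAbs_ne_zero.2 hs0)).1 hnk).trans (Nat.le_succ _))
    have h3c := hcong 3 Nat.prime_three (by exact_mod_cast h3bad.trans (dvd_mul_right _ _))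
    simp only [if_true] at h3c
    have h3p : (3 : ℤ) ∣ p' - u.1 :=
      (dvd_pow_self _ (Nat.succ_ne_zero _)).trans (by exact_mod_cast h3c.1)
    have h3r : (3 : ℤ) ∣ r' - u.2 :=
      (dvd_pow_self _ (Nat.succ_ne_zero _)).trans (by exact_mod_cast h3c.2)
    refine ⟨p', q', r', s', hd', hf', hK'.of_isCoprime_of_dvd_right (dvd_mul_right _ _), ?_, hsr',
      h3p, h3r, hK'.of_isCoprime_of_dvd_right ((dvd_mul_left _ R.a).trans
        (dvd_mul_left _ _))⟩
    refine X0_move₀ h hz hs ht hR hd' ha (hK'.of_isCoprime_of_dvd_right (dvd_mul_right _ _))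
      (hK'.of_isCoprime_of_dvd_right (dvd_mul_of_dvd_right (dvd_mul_right _ _) _)).symm hsr' ?_
    intro e
    exact hu2 (by simpa using dvd_sub e h3r)
  -- moves with `3 ∣ r`
  have hzero : ∀ {R : BQF}, IsFormOf Δ R → ∀ {p q r s : ℤ}, p * s - q * r = 1 →
      IsCoprime R.a (bad F Δ z) → IsCoprime (R.act p q r s).a (bad F Δ z) → s₁ ∣ r →
      (3 : ℤ) ∣ r → X0 F z (R.act p q r s).a (R.act p q r s).b = X0 F z R.a R.b := by
    intro R hR p q r s hdet ha ha' hsr hr3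
    obtain ⟨u, hu2, huv⟩ : ∃ u : ℤ × ℤ, ¬ (3 : ℤ) ∣ u.2 ∧ ¬ (3 : ℤ) ∣ R.val u.1 u.2 := by
      have ha3 : ¬ (3 : ℤ) ∣ R.a := int_prime_not_dvd_of_coprime Nat.prime_three ha h3bad
      by_cases hc : (3 : ℤ) ∣ R.c
      · by_cases hb : (3 : ℤ) ∣ R.a + R.b
        · refine ⟨(-1, 1), by norm_num, fun e => ?_⟩
          simp only [val] at e
          norm_num at e
          omega
        · refine ⟨(1, 1), by norm_num, fun e => ?_⟩
          simp only [val] at e
          norm_num at e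
          omega
      · exact ⟨(0, 1), by norm_num, by simpa [val] using hc⟩
    obtain ⟨p', q', r', s', hd', hf', hb', heq, hsr', hp3, hr3', hco⟩ :=
      main hR hdet ha ha' hsr u hu2 huv
    rw [← heq, act_completion (Q := R) (p := p) (q := q) (r := r) (s := s) hd']
    refine X0_move₀ h hz hs ht hf' (by linear_combination hdet + (p * s - q * r) * hd') hb'
      (by rwa [← act_completion hd']) (by rwa [← act_completion hd'])
      (dvd_sub (hsr.mul_left _) (hsr'.mul_right _)) ?_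
    intro e
    have hrp : (3 : ℤ) ∣ r' * p := by
      have := dvd_sub (hr3.mul_left p') e
      rwa [sub_sub_cancel] at this
    rcases Int.prime_three.dvd_or_dvd hrp with h1 | h1
    · exact hu2 (by simpa using dvd_sub h1 hr3')
    · exact not_both_of_det hdet Nat.prime_three h1 hr3
  by_cases hr3 : (3 : ℤ) ∣ r
  · exact hzero hQ hdet ha ha' hsr hr3
  · have hv : ¬ (3 : ℤ) ∣ Q.val p r := int_prime_not_dvd_of_coprime Nat.prime_three ha' h3bad
    obtain ⟨p', q', r', s', hd', hf', hb', heq, hsr', hp3, hr3', -⟩ :=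
      main hQ hdet ha ha' hsr (p, r) hr3 hv
    rw [← heq, act_completion (Q := Q) (p := p) (q := q) (r := r) (s := s) hd']
    refine hzero hf' (by linear_combination hdet + (p * s - q * r) * hd') hb'
      (by rwa [← act_completion hd']) (dvd_sub (hsr.mul_left _) (hsr'.mul_right _)) ?_
    rw [show p' * r - r' * p = (p' - p) * r - (r' - r) * p by ring]
    exact dvd_sub (hp3.mul_right r) (hr3'.mul_right p)

theorem exists_split (z : ℤ × ℤ) (hz : ¬ (9 : ℤ) ∣ F.at' z) :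
    ∃ s₁ t : ℤ, F.at' z = s₁ * t ∧ (t = 1 ∨ t = 3) ∧ ¬ (3 : ℤ) ∣ s₁ := by
  by_cases h3 : (3 : ℤ) ∣ F.at' z
  · obtain ⟨u, hu⟩ := h3
    exact ⟨u, 3, by rw [hu]; ring, Or.inr rfl, fun e => hz (by rw [hu]; omega)⟩
  · exact ⟨F.at' z, 1, by ring, Or.inl rfl, h3⟩

/-- Invariance modulo `g`, away from finitely many primes. -/
def Inv (F : Cubic) (Δ : ℤ) (z₀ : ℤ × ℤ) (g : ℕ) : Prop :=
  ∃ K : ℤ, K ≠ 0 ∧ bad F Δ z₀ ∣ K ∧ ∀ Q : BQF, IsFormOf Δ Q → ∀ p q r s : ℤ,
    p * s - q * r = 1 → IsCoprime Q.a K → IsCoprime (Q.act p q r s).a K → (g : ℤ) ∣ r →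
    X0 F z₀ (Q.act p q r s).a (Q.act p q r s).b = X0 F z₀ Q.a Q.b

theorem inv_of_usable (h : GoodCubic F Δ) {z₀ z : ℤ × ℤ} (h₀ : Usable F z₀) (hz : Usable F z)
    {s₁ t : ℤ} (hs : F.at' z = s₁ * t) (ht : t = 1 ∨ t = 3) (hs3 : ¬ (3 : ℤ) ∣ s₁) :
    Inv F Δ z₀ s₁.natAbs := by
  refine ⟨bad F Δ z₀ * bad F Δ z, mul_ne_zero (bad_ne_zero h h₀) (bad_ne_zero h hz),
    dvd_mul_right _ _, fun Q hQ p q r s hdet ha ha' hr => ?_⟩
  rw [IsCoprime.mul_right_iff] at ha ha'
  rw [X0_eq h ha'.2 ha'.1 (dvd_disc_sq (hQ.act h.neg hdet)),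
    X0_eq h ha.2 ha.1 (dvd_disc_sq hQ)]
  exact X0_move h hz hs ht hs3 hQ hdet ha.2 ha'.2 (Int.natAbs_dvd.1 hr)

theorem Inv.gcd (h : GoodCubic F Δ) {z₀ : ℤ × ℤ} {g g' : ℕ} (hg : g ≠ 0) (hg' : g' ≠ 0)
    (H : Inv F Δ z₀ g) (H' : Inv F Δ z₀ g') : Inv F Δ z₀ (Nat.gcd g g') := by
  classical
  obtain ⟨K, hK0, hKb, hK⟩ := H
  obtain ⟨K', hK0', -, hK'⟩ := H'
  have hgg : (g : ℤ) * g' ≠ 0 := by positivity
  refine ⟨K * K' * (g * g'), mul_ne_zero (mul_ne_zero hK0 hK0') hgg,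
    hKb.trans ⟨K' * (g * g'), by ring⟩, fun Q hQ p q r s hdet ha ha' hr => ?_⟩
  obtain ⟨p', q', r', s', hd', hf', hc', hcong⟩ := exists_move h hQ
    (K := K * K' * (g * g')) (mul_ne_zero (mul_ne_zero hK0 hK0') hgg)
    (fun n => g.factorization n + g'.factorization n)
    (fun n => if g'.factorization n ≤ g.factorization n then (1, 0) else (p, r))
    (fun n hn hnK => by
      by_cases hle : g'.factorization n ≤ g.factorization n
      · simp only [if_pos hle]
        simpa [val] using int_prime_not_dvd_of_coprime hn ha hnK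
      · simp only [if_neg hle]
        exact int_prime_not_dvd_of_coprime hn ha' hnK)
  have hpow : ∀ {n : ℕ}, n.Prime →
      ((n ^ min (g.factorization n) (g'.factorization n) : ℕ) : ℤ) ∣ r :=
    fun {n} hn => (Int.natCast_dvd_natCast.2 (Nat.dvd_gcd
      ((pow_dvd_pow n (min_le_left _ _)).trans (Nat.ordProj_dvd g n))
      ((pow_dvd_pow n (min_le_right _ _)).trans (Nat.ordProj_dvd g' n)))).trans hr
  have hg1 : (g : ℤ) ∣ r' := by
    rw [Int.natCast_dvd, Nat.dvd_iff_prime_pow_dvd_dvd]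
    intro n k hn hnk
    rcases Nat.eq_zero_or_pos k with rfl | hk
    · simp
    rw [← Int.natCast_dvd]
    have hkle : k ≤ g.factorization n := (Nat.Prime.pow_dvd_iff_le_factorization hn hg).1 hnk
    have hnK : (n : ℤ) ∣ K * K' * (g * g') :=
      dvd_mul_of_dvd_right
        ((Int.natCast_dvd_natCast.2 ((dvd_pow_self n hk.ne').trans hnk)).mul_right _) _
    have h2 := (hcong n hn hnK).2
    by_cases hle : g'.factorization n ≤ g.factorization n
    · simp only [if_pos hle, sub_zero] at h2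
      refine dvd_trans ?_ h2
      push_cast
      exact pow_dvd_pow _ (by omega)
    · simp only [if_neg hle] at h2
      have e1 : ((n ^ k : ℕ) : ℤ) ∣ r' - r := by
        refine dvd_trans ?_ h2; push_cast; exact pow_dvd_pow _ (by omega)
      have e2 : ((n ^ k : ℕ) : ℤ) ∣ r := by
        refine dvd_trans ?_ (hpow hn)
        push_cast
        exact pow_dvd_pow _ (by omega)
      simpa using dvd_add e1 e2
  have hg2 : (g' : ℤ) ∣ p' * r - r' * p := by
    rw [Int.natCast_dvd, Nat.dvd_iff_prime_pow_dvd_dvd]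
    intro n k hn hnk
    rcases Nat.eq_zero_or_pos k with rfl | hk
    · simp
    rw [← Int.natCast_dvd]
    have hkle : k ≤ g'.factorization n := (Nat.Prime.pow_dvd_iff_le_factorization hn hg').1 hnk
    have hnK : (n : ℤ) ∣ K * K' * (g * g') :=
      dvd_mul_of_dvd_right
        ((Int.natCast_dvd_natCast.2 ((dvd_pow_self n hk.ne').trans hnk)).mul_left _) _
    obtain ⟨h1, h2⟩ := hcong n hn hnK
    have hbig : ((n ^ k : ℕ) : ℤ) ∣ (n : ℤ) ^ (g.factorization n + g'.factorization n + 1) := by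
      push_cast; exact pow_dvd_pow _ (by omega)
    by_cases hle : g'.factorization n ≤ g.factorization n
    · simp only [if_pos hle, sub_zero] at h1 h2
      have e2 : ((n ^ k : ℕ) : ℤ) ∣ r := by
        refine dvd_trans ?_ (hpow hn)
        push_cast
        exact pow_dvd_pow _ (by omega)
      exact dvd_sub (e2.mul_left _) ((hbig.trans h2).mul_right _)
    · simp only [if_neg hle] at h1 h2
      rw [show p' * r - r' * p = (p' - p) * r - (r' - r) * p by ring]
      exact dvd_sub ((hbig.trans h1).mul_right r) ((hbig.trans h2).mul_right p)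
  have hsub : ∀ {x : ℤ}, IsCoprime x (K * K' * (g * g')) → IsCoprime x K ∧ IsCoprime x K' :=
    fun hx => ⟨hx.of_isCoprime_of_dvd_right ⟨K' * (g * g'), by ring⟩,
      hx.of_isCoprime_of_dvd_right ⟨K * (g * g'), by ring⟩⟩
  rw [← hK Q hQ p' q' r' s' hd' (hsub ha).1 (hsub hc').1 hg1, act_completion (Q := Q) (p := p)
    (q := q) (r := r) (s := s) hd']
  exact hK' _ hf' _ _ _ _ (by linear_combination hdet + (p * s - q * r) * hd') (hsub hc').2
    (by rw [← act_completion hd']; exact (hsub ha').2) hg2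

/-- Full invariance away from finitely many primes. -/
theorem exists_invariant (h : GoodCubic F Δ) {z₀ : ℤ × ℤ} (h₀ : Usable F z₀) :
    ∃ K : ℤ, K ≠ 0 ∧ bad F Δ z₀ ∣ K ∧ ∀ Q : BQF, IsFormOf Δ Q → ∀ p q r s : ℤ,
      p * s - q * r = 1 → IsCoprime Q.a K → IsCoprime (Q.act p q r s).a K →
      X0 F z₀ (Q.act p q r s).a (Q.act p q r s).b = X0 F z₀ Q.a Q.b := by
  obtain ⟨s₁, t, hs, ht, hs3⟩ := exists_split z₀ h₀.val9
  have hex : ∃ g, g ≠ 0 ∧ ¬ 3 ∣ g ∧ Inv F Δ z₀ g :=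
    ⟨s₁.natAbs, fun e => hs3 (by rw [Int.natAbs_eq_zero.1 e]; exact dvd_zero _),
      fun e => hs3 (Int.natCast_dvd.2 e), inv_of_usable h h₀ h₀ hs ht hs3⟩
  classical
  obtain ⟨hg0, hg3, hg⟩ := Nat.find_spec hex
  set g := Nat.find hex
  have hsmall : ∀ q : ℕ, q.Prime → q ∣ g → q = 2 ∧ ¬ 4 ∣ g ∧ Δ % 8 = 1 := by
    intro q hq hqg
    have hq3 : q ≠ 3 := fun e => hg3 (e ▸ hqg)
    obtain ⟨z, hz, hval⟩ := h.exists_usable hq hq3
    obtain ⟨u, t', hu, ht', hu3⟩ := exists_split z hz.val9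
    have hgcd := Inv.gcd h hg0 (fun e => hu3 (by rw [Int.natAbs_eq_zero.1 e]; exact dvd_zero _))
      hg (inv_of_usable h h₀ hz hu ht' hu3)
    have hmin := Nat.find_min' hex ⟨Nat.gcd_ne_zero_left hg0,
      fun e => hg3 (e.trans (Nat.gcd_dvd_left _ _)), hgcd⟩
    have heq : Nat.gcd g u.natAbs = g :=
      le_antisymm (Nat.le_of_dvd (Nat.pos_of_ne_zero hg0) (Nat.gcd_dvd_left _ _)) hmin
    have hgu : (g : ℤ) ∣ F.at' z := by
      rw [hu]
      exact (Int.natCast_dvd.2 (heq ▸ Nat.gcd_dvd_right g u.natAbs)).mul_right _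
    by_cases h2 : q = 2
    · rw [if_pos h2] at hval
      subst h2
      exact ⟨rfl, fun e => hval.1 ((Int.natCast_dvd_natCast.2 e).trans hgu),
        hval.2 ((Int.natCast_dvd_natCast.2 hqg).trans hgu)⟩
    · rw [if_neg h2] at hval
      exact absurd ((Int.natCast_dvd_natCast.2 hqg).trans hgu) hval
  obtain ⟨K, hK0, hKb, hK⟩ := hg
  refine ⟨K * 2, mul_ne_zero hK0 (by norm_num), hKb.trans (dvd_mul_right _ _),
    fun Q hQ p q r s hdet ha ha' => hK Q hQ p q r s hdet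
      (ha.of_isCoprime_of_dvd_right (dvd_mul_right _ _))
      (ha'.of_isCoprime_of_dvd_right (dvd_mul_right _ _)) ?_⟩
  rw [Int.natCast_dvd, Nat.dvd_iff_prime_pow_dvd_dvd]
  intro n k hn hnk
  rcases Nat.eq_zero_or_pos k with rfl | hk
  · simp
  obtain ⟨rfl, h4, h8⟩ := hsmall n hn ((dvd_pow_self n hk.ne').trans hnk)
  obtain rfl : k = 1 := by
    by_contra hk1
    exact h4 ((pow_dvd_pow 2 (show 2 ≤ k by omega)).trans hnk)
  rw [pow_one, ← Int.natCast_dvd]
  have a2 : ¬ (2 : ℤ) ∣ Q.a :=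
    int_prime_not_dvd_of_coprime Nat.prime_two ha (dvd_mul_left _ _)
  have a2' : ¬ (2 : ℤ) ∣ Q.val p r :=
    int_prime_not_dvd_of_coprime Nat.prime_two ha' (dvd_mul_left _ _)
  have hd := hQ.disc_eq
  simp only [disc] at hd
  obtain ⟨b, hb⟩ : ∃ b, Q.b = 2 * b + 1 := by
    rcases Int.even_or_odd' Q.b with ⟨b, hb | hb⟩
    · exfalso; rw [hb, show (2 * b) ^ 2 = 4 * b ^ 2 by ring] at hd
      have : (4 : ℤ) ∣ Δ := ⟨b ^ 2 - Q.a * Q.c, by linear_combination -hd⟩
      omega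
    · exact ⟨b, hb⟩
  have hbb : (2 : ℤ) ∣ b * b + b := by
    rcases Int.even_or_odd' b with ⟨u, rfl | rfl⟩
    · exact ⟨2 * u * u + u, by ring⟩
    · exact ⟨2 * u * u + 3 * u + 1, by ring⟩
  have hc2 : (2 : ℤ) ∣ Q.a * Q.c := by
    rw [hb, show (2 * b + 1) ^ 2 = 4 * (b * b + b) + 1 by ring, mul_assoc] at hd
    generalize Q.a * Q.c = w at hd ⊢
    generalize b * b + b = v at hd hbb
    omega
  have hc : (2 : ℤ) ∣ Q.c := (Int.prime_two.dvd_or_dvd hc2).resolve_left a2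
  by_contra hr
  simp only [Nat.cast_ofNat] at hr
  apply a2'
  simp only [val]
  have hp2 : (2 : ℤ) ∣ p * (Q.a * p + Q.b * r) := by
    by_cases hp : (2 : ℤ) ∣ p
    · exact hp.mul_right _
    · refine dvd_mul_of_dvd_right ?_ _
      have o1 : Q.a * p % 2 = 1 := by
        rw [Int.mul_emod, show Q.a % 2 = 1 by omega, show p % 2 = 1 by omega]; rfl
      have o2 : Q.b * r % 2 = 1 := by
        rw [Int.mul_emod, show Q.b % 2 = 1 by omega, show r % 2 = 1 by omega]; rfl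
      omega
  rw [show Q.a * p ^ 2 + Q.b * p * r + Q.c * r ^ 2 = p * (Q.a * p + Q.b * r) + Q.c * r ^ 2 by ring]
  exact dvd_add hp2 (hc.mul_right _)

/-- The class character: one function on classes giving every Kummer symbol. -/
theorem exists_classChar (h : GoodCubic F Δ) :
    ∃ f : FormClass Δ → ZMod 3, ∀ (z : ℤ × ℤ), Usable F z → ∀ (Q : BQF) (hQ : IsFormOf Δ Q),
      IsCoprime Q.a (bad F Δ z) → f (mkClass Q hQ) = X0 F z Q.a Q.b := by
  classical
  obtain ⟨z₀, h₀, -⟩ := h.exists_usable Nat.prime_five (by norm_num)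
  obtain ⟨K, hK0, hKb, hK⟩ := exists_invariant h h₀
  choose t0 _ht1 ht0 using fun (R : BQF) (hR : IsFormOf Δ R) (n : ℕ) (hn : n.Prime) =>
    hR.exists_val_not_dvd h.fund hn
  have hrep : ∀ C : FormClass Δ, ∃ Q : BQF, ∃ hQ : IsFormOf Δ Q,
      IsCoprime Q.a K ∧ mkClass Q hQ = C := by
    intro C
    obtain ⟨⟨Q, hQ⟩, rfl⟩ := Quotient.exists_rep C
    obtain ⟨p, q, r, s, hd, hf, hc, -⟩ := exists_move h hQ hK0 (fun _ => 0)
      (fun n => if hn : n.Prime then t0 Q hQ n hn else (1, 0))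
      (fun n hn _ => by simp only [dif_pos hn]; exact ht0 Q hQ n hn)
    exact ⟨_, hf, hc, (mkClass_eq hf hQ).2 (BQF.Equiv.symm ⟨p, q, r, s, hd, rfl⟩)⟩
  choose rep hrf hrc hre using hrep
  refine ⟨fun C => X0 F z₀ (rep C).a (rep C).b, fun z hz Q hQ ha => ?_⟩
  obtain ⟨s₁, t, hs, ht, hs3⟩ := exists_split z hz.val9
  have hs0 : s₁ ≠ 0 := fun e => hs3 (by simp [e])
  have hKK : K * bad F Δ z ≠ 0 := mul_ne_zero hK0 (bad_ne_zero h hz)
  obtain ⟨p, q, r, s, hd, hf, hc, hcong⟩ := exists_move h hQ hKK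
    (fun n => s₁.natAbs.factorization n)
    (fun n => if (n : ℤ) ∣ s₁ then (1, 0) else if hn : n.Prime then t0 Q hQ n hn else (1, 0))
    (fun n hn _ => by
      by_cases hns : (n : ℤ) ∣ s₁
      · simp only [if_pos hns]
        simpa [val] using int_prime_not_dvd_of_coprime hn ha
          (hns.trans ⟨6 * Δ * t * F.hess z, by rw [bad, hs]; ring⟩)
      · simp only [if_neg hns, dif_pos hn]
        exact ht0 Q hQ n hn)
  have hsr : s₁ ∣ r := by
    rw [← Int.natAbs_dvd, Int.natCast_dvd, Nat.dvd_iff_prime_pow_dvd_dvd]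
    intro n k hn hnk
    rcases Nat.eq_zero_or_pos k with rfl | hk
    · simp
    have hns : (n : ℤ) ∣ s₁ := Int.natCast_dvd.2 ((dvd_pow_self n hk.ne').trans hnk)
    have h2 := (hcong n hn (hns.trans ⟨K * (6 * Δ * t * F.hess z), by rw [bad, hs]; ring⟩)).2
    simp only [if_pos hns, sub_zero] at h2
    rw [← Int.natCast_dvd]
    refine dvd_trans ?_ h2
    push_cast
    exact pow_dvd_pow _ (((Nat.Prime.pow_dvd_iff_le_factorization hn
      (Int.natAbs_ne_zero.2 hs0)).1 hnk).trans (Nat.le_succ _))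
  set C := mkClass Q hQ
  have hCe : BQF.Equiv (rep C) (Q.act p q r s) :=
    ((mkClass_eq (hrf C) hQ).1 (hre C)).trans ⟨p, q, r, s, hd, rfl⟩
  obtain ⟨p', q', r', s', hd', he'⟩ := hCe
  have hz' : IsCoprime (Q.act p q r s).a (bad F Δ z) :=
    hc.of_isCoprime_of_dvd_right (dvd_mul_left _ _)
  have hK' : IsCoprime (Q.act p q r s).a K := hc.of_isCoprime_of_dvd_right (dvd_mul_right _ _)
  have e1 := X0_move h hz hs ht hs3 hQ hd ha hz' hsr
  have e2 : X0 F z₀ (Q.act p q r s).a (Q.act p q r s).b = X0 F z₀ (rep C).a (rep C).b := by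
    rw [he']
    exact hK _ (hrf C) p' q' r' s' hd' (hrc C) (by rw [← he']; exact hK')
  show X0 F z₀ (rep C).a (rep C).b = _
  rw [← e1, ← e2]
  exact X0_eq h hz' (hK'.of_isCoprime_of_dvd_right hKb) (dvd_disc_sq hf)

end Fermat.Agent.DihedralTwo

end
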