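import Mathlib

/-!
The Eisenstein integers `ℤ[ω]` and the cubic residue symbol `cubicSymbol q z ∈ ℤ/3` of an
Eisenstein integer modulo a rational prime `q ≠ 3` (for split `q` the product over the two
primes above `q`).
-/

set_option autoImplicit false

noncomputable section

namespace Fermat.Agent.DihedralTwo

/-- The Eisenstein integers, `ω² = -1 - ω`. -/
abbrev Eis := QuadraticAlgebra ℤ (-1) (-1)

/-- The cube root of unity in `Eis`. -/
def omg : Eis := ⟨0, 1⟩

theorem eis_norm (z : Eis) : z.norm = z.re ^ 2 - z.re * z.im + z.im ^ 2 := by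
  rw [QuadraticAlgebra.norm_def]; ring

theorem norm_eq_mul_conj (z : Eis) : ((z.norm : ℤ) : Eis) = z * starRingEnd Eis z := by
  rw [starRingEnd_apply, ← QuadraticAlgebra.algebraMap_norm_eq_mul_star, eq_intCast]

/-- A root of `X² + X + 1`. -/
def IsOmega {R : Type*} [Ring R] (w : R) : Prop := w * w = -1 - w

section Eval

variable {R : Type*} [CommRing R] {w : R}

/-- Evaluation `ω ↦ w`. -/
def ev (w : R) (hw : IsOmega w) : Eis →+* R :=
  (QuadraticAlgebra.lift (R := ℤ) (a := -1) (b := -1) ⟨w, by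
    rw [hw]; simp [sub_eq_add_neg]⟩).toRingHom

theorem ev_apply (hw : IsOmega w) (z : Eis) : ev w hw z = (z.re : R) + (z.im : R) * w := by
  show z.re • (1 : R) + z.im • w = _
  rw [zsmul_eq_mul, zsmul_eq_mul, mul_one]

@[simp] theorem ev_omg (hw : IsOmega w) : ev w hw omg = w := by simp [ev_apply, omg]

theorem IsOmega.sq (hw : IsOmega w) : IsOmega (w ^ 2) := by
  unfold IsOmega at *
  linear_combination (w ^ 2 - w + 1) * hw

theorem IsOmega.cube (hw : IsOmega w) : w ^ 3 = 1 := by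
  unfold IsOmega at hw
  linear_combination (w - 1) * hw

theorem IsOmega.sq_sq (hw : IsOmega w) : (w ^ 2) ^ 2 = w := by
  rw [← pow_mul, show 2 * 2 = 3 + 1 from rfl, pow_succ, hw.cube, one_mul]

theorem ev_conj (hw : IsOmega w) (z : Eis) :
    ev w hw (starRingEnd Eis z) = ev (w ^ 2) hw.sq z := by
  simp only [ev_apply, starRingEnd_apply, QuadraticAlgebra.re_star, QuadraticAlgebra.im_star,
    show w ^ 2 = -1 - w by rw [pow_two, hw]]
  push_cast; ring

theorem ev_sq_conj (hw : IsOmega w) (z : Eis) :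
    ev (w ^ 2) hw.sq (starRingEnd Eis z) = ev w hw z := by
  rw [ev_conj]
  simp only [ev_apply, hw.sq_sq]

theorem IsOmega.pow_add (hw : IsOmega w) (i j : ZMod 3) :
    w ^ (i + j).val = w ^ i.val * w ^ j.val := by
  rw [← _root_.pow_add, ZMod.val_add, ← pow_eq_pow_mod _ hw.cube]

theorem IsOmega.pow_neg (hw : IsOmega w) (i : ZMod 3) :
    w ^ (-i).val = (w ^ 2) ^ i.val := by
  rw [← pow_mul]
  have h : (-i).val % 3 = (2 * i.val) % 3 := by revert i; decide
  rw [pow_eq_pow_mod _ hw.cube, h, ← pow_eq_pow_mod _ hw.cube]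

theorem IsOmega.pow_natCast (hw : IsOmega w) (n : ℕ) : w ^ (n : ZMod 3).val = w ^ n := by
  rw [ZMod.val_natCast, ← pow_eq_pow_mod _ hw.cube]

end Eval

section Field

variable {k : Type*} [Field k] {w : k}

theorem IsOmega.ne_one (hw : IsOmega w) (h3 : (3 : k) ≠ 0) : w ≠ 1 := by
  rintro rfl
  unfold IsOmega at hw
  exact h3 (by linear_combination hw)

theorem IsOmega.ne_zero (hw : IsOmega w) : w ≠ 0 := by
  rintro rfl
  exact zero_ne_one ((zero_pow three_ne_zero).symm.trans hw.cube)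

theorem IsOmega.sub_ne_zero (hw : IsOmega w) (h3 : (3 : k) ≠ 0) : w - w ^ 2 ≠ 0 := by
  intro h
  rw [sub_eq_zero, pow_two] at h
  exact hw.ne_one h3 (mul_left_cancel₀ hw.ne_zero (by rw [mul_one]; exact h.symm))

theorem IsOmega.eq_pow_of_cube_eq_one (hw : IsOmega w) {x : k} (hx : x ^ 3 = 1) :
    ∃ i : ZMod 3, x = w ^ i.val := by
  have h : (x - 1) * ((x - w) * (x - w ^ 2)) = 0 := by
    unfold IsOmega at hw
    linear_combination hx + (-x ^ 2 + w * x - w + 1) * hw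
  rcases mul_eq_zero.1 h with h | h
  · exact ⟨0, by simpa using sub_eq_zero.1 h⟩
  rcases mul_eq_zero.1 h with h | h
  · exact ⟨1, by simpa [ZMod.val_one] using sub_eq_zero.1 h⟩
  · exact ⟨2, sub_eq_zero.1 h⟩

theorem IsOmega.pow_val_injective (hw : IsOmega w) (h3 : (3 : k) ≠ 0) {i j : ZMod 3}
    (h : w ^ i.val = w ^ j.val) : i = j := by
  have h1 := hw.ne_one h3
  have h2 : w ^ 2 ≠ 1 := fun e => hw.sq.ne_one h3 e
  have h4 : w ^ 2 ≠ w := fun e => hw.sub_ne_zero h3 (sub_eq_zero.2 e.symm)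
  fin_cases i <;> fin_cases j <;> first
    | rfl
    | (exfalso; simp only [ZMod.val] at h; revert h; simp [h1, h2, h4, Ne.symm h1, Ne.symm h2,
        Ne.symm h4])

end Field

/-! ### The symbol -/

/-- The element whose residue modulo `q` is the symbol. -/
def symbBase (q : ℕ) (z : Eis) : Eis :=
  if q % 3 = 1 then (z * (starRingEnd Eis z) ^ 2) ^ ((q - 1) / 3) else z ^ ((q ^ 2 - 1) / 3)

open Classical in
/-- Cubic residue symbol modulo a rational prime (junk `0` when undefined). -/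
def cubicSymbol (q : ℕ) (z : Eis) : ZMod 3 :=
  if h : ∃ i : ZMod 3, (q : Eis) ∣ symbBase q z - omg ^ i.val then h.choose else 0

variable {q : ℕ} [hq : Fact q.Prime]

theorem natCast_dvd_iff_ev {k : Type*} [Field k] [CharP k q] {w : k} (hw : IsOmega w)
    (h3 : q ≠ 3) (z : Eis) :
    (q : Eis) ∣ z ↔ ev w hw z = 0 ∧ ev (w ^ 2) hw.sq z = 0 := by
  constructor
  · rintro ⟨t, rfl⟩
    simp [CharP.cast_eq_zero]
  · rintro ⟨h1, h2⟩
    rw [ev_apply] at h1 h2
    have h30 : (3 : k) ≠ 0 := by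
      intro h
      have := (CharP.cast_eq_zero_iff k q 3).1 (by exact_mod_cast h)
      exact h3 ((Nat.prime_dvd_prime_iff_eq hq.out Nat.prime_three).1 this)
    have him : (z.im : k) = 0 := by
      have : (z.im : k) * (w - w ^ 2) = 0 := by linear_combination h1 - h2
      exact (mul_eq_zero.1 this).resolve_right (hw.sub_ne_zero h30)
    rw [him, zero_mul, add_zero] at h1
    obtain ⟨a, ha⟩ := (CharP.intCast_eq_zero_iff k q _).1 h1
    obtain ⟨b, hb⟩ := (CharP.intCast_eq_zero_iff k q _).1 him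
    refine ⟨⟨a, b⟩, ?_⟩
    ext <;> simp [ha, hb]

theorem norm_ev {k : Type*} [CommRing k] {w : k} (hw : IsOmega w) (z : Eis) :
    ((z.norm : ℤ) : k) = ev w hw z * ev (w ^ 2) hw.sq z := by
  rw [← ev_conj hw, ← map_mul, ← norm_eq_mul_conj, map_intCast]

omit hq in
theorem ev_ne_zero_of_not_dvd_norm {k : Type*} [CommRing k] [CharP k q] {w : k}
    (hw : IsOmega w) {z : Eis} (hz : ¬ (q : ℤ) ∣ z.norm) : ev w hw z ≠ 0 := fun h =>
  hz ((CharP.intCast_eq_zero_iff k q _).1 (by rw [norm_ev hw, h, zero_mul]))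

/-- An algebraically closed field of characteristic `q`. -/
abbrev Kq (q : ℕ) [Fact q.Prime] := AlgebraicClosure (ZMod q)

theorem exists_isOmega (k : Type*) [Field k] [IsAlgClosed k] : ∃ w : k, IsOmega w := by
  obtain ⟨w, hw⟩ := IsAlgClosed.exists_root
    (Polynomial.X ^ 2 + Polynomial.X + 1 : Polynomial k) (by
      rw [show (Polynomial.X ^ 2 + Polynomial.X + 1 : Polynomial k).degree = 2 by compute_degree!]
      decide)
  refine ⟨w, ?_⟩
  have : w ^ 2 + w + 1 = 0 := by simpa using hw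
  unfold IsOmega
  linear_combination this

theorem pow_sub_one_eq_one_of_pow_eq {k : Type*} [Field k] {x : k} {n : ℕ} (hn : 0 < n)
    (hx : x ≠ 0) (h : x ^ n = x) : x ^ (n - 1) = 1 := by
  have : x ^ (n - 1) * x = 1 * x := by
    rw [← pow_succ, Nat.sub_add_cancel hn, h, one_mul]
  exact mul_right_cancel₀ hx this

theorem ev_pow_char {k : Type*} [Field k] [CharP k q] {w : k} (hw : IsOmega w) (z : Eis) :
    ev w hw z ^ q = (z.re : k) + (z.im : k) * w ^ q := by
  rw [ev_apply, add_pow_char, mul_pow, ← frobenius_def, ← frobenius_def q (z.im : k),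
    map_intCast, map_intCast]

/-- The defining divisibility of the symbol. -/
theorem cubicSymbol_spec (h3 : q ≠ 3) {z : Eis} (hz : ¬ (q : ℤ) ∣ z.norm) :
    (q : Eis) ∣ symbBase q z - omg ^ (cubicSymbol q z).val := by
  suffices h : ∃ i : ZMod 3, (q : Eis) ∣ symbBase q z - omg ^ i.val by
    rw [cubicSymbol, dif_pos h]
    exact h.choose_spec
  obtain ⟨w, hw⟩ := exists_isOmega (Kq q)
  set x := ev w hw z with hx
  set y := ev (w ^ 2) hw.sq z with hy
  have hx0 : x ≠ 0 := ev_ne_zero_of_not_dvd_norm hw hz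
  have hy0 : y ≠ 0 := ev_ne_zero_of_not_dvd_norm hw.sq hz
  have hmod : q % 3 = 1 ∨ q % 3 = 2 := by
    have : q % 3 ≠ 0 := fun h => h3
      ((Nat.prime_dvd_prime_iff_eq Nat.prime_three hq.out).1 (Nat.dvd_of_mod_eq_zero h)).symm
    omega
  have hxq := ev_pow_char (q := q) hw z
  have hyq := ev_pow_char (q := q) hw.sq z
  rw [← hx] at hxq
  rw [← hy] at hyq
  rw [pow_eq_pow_mod q hw.cube] at hxq
  rw [pow_eq_pow_mod q hw.sq.cube] at hyq
  rcases hmod with hm | hm
  · rw [hm, pow_one, ← ev_apply hw z, ← hx] at hxq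
    rw [hm, pow_one, ← ev_apply hw.sq z, ← hy] at hyq
    have hk : 3 * ((q - 1) / 3) = q - 1 := Nat.mul_div_cancel' (by omega)
    set n := (q - 1) / 3 with hn
    have hxn : (x ^ n) ^ 3 = 1 := by
      rw [← pow_mul, mul_comm, hk]; exact pow_sub_one_eq_one_of_pow_eq hq.out.pos hx0 hxq
    have hyn : (y ^ n) ^ 3 = 1 := by
      rw [← pow_mul, mul_comm, hk]; exact pow_sub_one_eq_one_of_pow_eq hq.out.pos hy0 hyq
    obtain ⟨i, hi⟩ := hw.eq_pow_of_cube_eq_one (x := (x * y ^ 2) ^ n)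
      (by rw [show ((x * y ^ 2) ^ n) ^ 3 = (x ^ n) ^ 3 * ((y ^ n) ^ 3) ^ 2 by ring, hxn, hyn,
        one_pow, one_mul])
    refine ⟨i, (natCast_dvd_iff_ev (k := Kq q) hw h3 _).2 ⟨?_, ?_⟩⟩
    · simp only [symbBase, if_pos hm, map_sub, map_pow, map_mul, ev_omg, ev_conj hw, ← hx, ← hy]
      rw [← hn, hi, sub_self]
    · simp only [symbBase, if_pos hm, map_sub, map_pow, map_mul, ev_omg, ev_sq_conj hw, ← hx, ← hy]
      rw [← hn, sub_eq_zero]
      have : (w ^ i.val) * ((y * x ^ 2) ^ n) = 1 := by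
        rw [← hi, ← mul_pow, show x * y ^ 2 * (y * x ^ 2) = (x * y) ^ 3 by ring, ← pow_mul,
          mul_comm 3 n, pow_mul, mul_pow, mul_pow, hxn, hyn, one_mul]
      have h2 : (w ^ 2) ^ i.val * w ^ i.val = 1 := by
        rw [← mul_pow, ← pow_succ, hw.cube, one_pow]
      calc (y * x ^ 2) ^ n = (w ^ 2) ^ i.val * (w ^ i.val * (y * x ^ 2) ^ n) := by
            rw [← mul_assoc, h2, one_mul]
        _ = (w ^ 2) ^ i.val := by rw [this, mul_one]
  · rw [hm, ← ev_apply hw.sq z, ← hy] at hxq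
    rw [hm, hw.sq_sq, ← ev_apply hw z, ← hx] at hyq
    obtain ⟨m, hm'⟩ : ∃ m, q ^ 2 - 1 = 3 * m := by
      refine Nat.dvd_of_mod_eq_zero ?_
      have h1 : q ^ 2 % 3 = 1 := by rw [Nat.pow_mod, hm]
      omega
    have hxx : x ^ (q ^ 2) = x := by rw [pow_two, pow_mul, hxq, hyq]
    obtain ⟨i, hi⟩ := hw.eq_pow_of_cube_eq_one (x := x ^ m)
      (by rw [← pow_mul, mul_comm, ← hm']
          exact pow_sub_one_eq_one_of_pow_eq (pow_pos hq.out.pos 2) hx0 hxx)
    have hdiv : (q ^ 2 - 1) / 3 = m := by omega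
    refine ⟨i, (natCast_dvd_iff_ev (k := Kq q) hw h3 _).2 ⟨?_, ?_⟩⟩
    · simp only [symbBase, hm, hdiv, if_neg (show ¬ (2 : ℕ) = 1 by norm_num), map_sub, map_pow,
        ev_omg, ← hx]
      rw [hi, sub_self]
    · simp only [symbBase, hm, hdiv, if_neg (show ¬ (2 : ℕ) = 1 by norm_num), map_sub, map_pow,
        ev_omg, ← hy]
      rw [← hxq, ← pow_mul, mul_comm q m, pow_mul, hi, ← pow_mul, mul_comm, pow_mul,
        pow_eq_pow_mod q hw.cube, hm, sub_self]

theorem ev_symbBase (h3 : q ≠ 3) {z : Eis} (hz : ¬ (q : ℤ) ∣ z.norm) {k : Type*} [Field k]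
    [CharP k q] {w : k} (hw : IsOmega w) :
    ev w hw (symbBase q z) = w ^ (cubicSymbol q z).val := by
  have := ((natCast_dvd_iff_ev hw h3 _).1 (cubicSymbol_spec h3 hz)).1
  rwa [map_sub, map_pow, ev_omg, sub_eq_zero] at this

omit hq in
theorem symbBase_mul (a b : Eis) : symbBase q (a * b) = symbBase q a * symbBase q b := by
  unfold symbBase
  split_ifs
  · rw [← mul_pow, map_mul]; ring
  · rw [mul_pow]

theorem three_ne_zero_Kq (h3 : q ≠ 3) : (3 : Kq q) ≠ 0 := fun h =>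
  h3 ((Nat.prime_dvd_prime_iff_eq hq.out Nat.prime_three).1
    ((CharP.cast_eq_zero_iff (Kq q) q 3).1 (by exact_mod_cast h)))

/-- A sufficient condition for the value of the symbol. -/
theorem cubicSymbol_eq (h3 : q ≠ 3) {z : Eis} (hz : ¬ (q : ℤ) ∣ z.norm) (i : ZMod 3)
    {w : Kq q} (hw : IsOmega w) (h : ev w hw (symbBase q z) = w ^ i.val) :
    cubicSymbol q z = i :=
  hw.pow_val_injective (three_ne_zero_Kq h3) (by rw [← ev_symbBase h3 hz hw, h])

theorem not_dvd_norm_mul {a b : Eis} (ha : ¬ (q : ℤ) ∣ a.norm) (hb : ¬ (q : ℤ) ∣ b.norm) :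
    ¬ (q : ℤ) ∣ (a * b).norm := by
  rw [map_mul]
  exact fun h => ((Nat.prime_iff_prime_int.1 hq.out).dvd_or_dvd h).elim ha hb

theorem cubicSymbol_mul (h3 : q ≠ 3) {a b : Eis} (ha : ¬ (q : ℤ) ∣ a.norm)
    (hb : ¬ (q : ℤ) ∣ b.norm) :
    cubicSymbol q (a * b) = cubicSymbol q a + cubicSymbol q b := by
  obtain ⟨w, hw⟩ := exists_isOmega (Kq q)
  refine cubicSymbol_eq h3 (not_dvd_norm_mul ha hb) _ hw ?_
  rw [symbBase_mul, map_mul, ev_symbBase h3 ha hw, ev_symbBase h3 hb hw, hw.pow_add]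

theorem cubicSymbol_congr (h3 : q ≠ 3) {a b : Eis} (ha : ¬ (q : ℤ) ∣ a.norm)
    (h : (q : Eis) ∣ a - b) : cubicSymbol q b = cubicSymbol q a := by
  obtain ⟨w, hw⟩ := exists_isOmega (Kq q)
  obtain ⟨he, he'⟩ := (natCast_dvd_iff_ev hw h3 _).1 h
  rw [map_sub, sub_eq_zero] at he he'
  have hb : ¬ (q : ℤ) ∣ b.norm := by
    rw [← CharP.intCast_eq_zero_iff (Kq q) q, norm_ev hw] at ha ⊢
    rwa [← he, ← he']
  refine cubicSymbol_eq h3 hb _ hw ?_
  rw [← ev_symbBase h3 ha hw]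
  simp only [symbBase]
  split_ifs <;> simp only [map_pow, map_mul, ev_conj hw, he, he']

theorem cubicSymbol_conj (h3 : q ≠ 3) {a : Eis} (ha : ¬ (q : ℤ) ∣ a.norm) :
    cubicSymbol q (starRingEnd Eis a) = -cubicSymbol q a := by
  obtain ⟨w, hw⟩ := exists_isOmega (Kq q)
  refine cubicSymbol_eq h3 (by rwa [starRingEnd_apply, QuadraticAlgebra.norm_star]) _ hw ?_
  rw [hw.pow_neg, ← ev_symbBase h3 ha hw.sq, ← ev_conj hw]
  congr 1
  simp only [symbBase]
  split_ifs <;> simp [map_mul, map_pow]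

theorem cubicSymbol_intCast (h3 : q ≠ 3) {n : ℤ} (hn : ¬ (q : ℤ) ∣ n) :
    cubicSymbol q (n : Eis) = 0 := by
  obtain ⟨w, hw⟩ := exists_isOmega (Kq q)
  have hn' : ¬ (q : ℤ) ∣ ((n : Eis)).norm := by
    rw [QuadraticAlgebra.norm_intCast]
    exact fun h => hn ((Nat.prime_iff_prime_int.1 hq.out).dvd_of_dvd_pow h)
  have h0 : (n : Kq q) ≠ 0 := by rwa [Ne, CharP.intCast_eq_zero_iff (Kq q) q]
  have hfix : (n : Kq q) ^ q = n := by
    have : ExpChar (Kq q) q := ExpChar.prime hq.out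
    rw [← frobenius_def, map_intCast]
  have h1 : (n : Kq q) ^ (q - 1) = 1 := pow_sub_one_eq_one_of_pow_eq hq.out.pos h0 hfix
  refine cubicSymbol_eq h3 hn' _ hw ?_
  rw [ZMod.val_zero, pow_zero]
  simp only [symbBase]
  split_ifs with hm
  · rw [map_pow, map_mul, map_pow, map_intCast (starRingEnd Eis), map_intCast, ← pow_succ',
      ← pow_mul, Nat.mul_div_cancel' (by omega : 3 ∣ q - 1), h1]
  · rw [map_pow, map_intCast]
    have hm2 : q % 3 = 2 := by
      have : q % 3 ≠ 0 := fun h => h3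
        ((Nat.prime_dvd_prime_iff_eq Nat.prime_three hq.out).1 (Nat.dvd_of_mod_eq_zero h)).symm
      omega
    obtain ⟨m, hmq⟩ : 3 ∣ q + 1 := by omega
    have : (q ^ 2 - 1) / 3 = (q - 1) * m := by
      have : q ^ 2 - 1 = (q - 1) * (q + 1) := by
        simpa [mul_comm] using Nat.sq_sub_sq q 1
      rw [this, hmq, mul_left_comm, Nat.mul_div_cancel_left _ (by norm_num)]
    rw [this, pow_mul, h1, one_pow]

end Fermat.Agent.DihedralTwo

end
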