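import Mathlib

/-!
A quadratic ring of integers as `ℤ + ℤθ`, and the splitting facts needed to read residues of the
square root of the discriminant at degree-one primes.
-/

set_option autoImplicit false

noncomputable section

namespace Fermat.Agent.DihedralTwo

open Ideal

/-- A quadratic ring with `ℤ`-basis `1, θ`, where `θ² = t θ - n` and `t² - 4n = D`. -/
structure QuadData (O : Type*) [CommRing O] (D : ℤ) where
  θ : O
  t : ℤ
  n : ℤ
  sq : θ * θ = (t : O) * θ - (n : O)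
  basis : Module.Basis (Fin 2) ℤ O
  basis0 : basis 0 = 1
  basis1 : basis 1 = θ
  disc : t ^ 2 - 4 * n = D

namespace QuadData

variable {O : Type*} [CommRing O] {D : ℤ} (q : QuadData O D)

/-- `√D`. -/
def sd : O := 2 * q.θ - (q.t : O)

theorem sd_sq : q.sd * q.sd = (D : O) := by
  have h := congrArg (Int.cast : ℤ → O) q.disc
  push_cast at h
  rw [sd]
  linear_combination 4 * q.sq + h

theorem exists_eq (α : O) : ∃ x y : ℤ, α = (x : O) + (y : O) * q.θ := by
  refine ⟨q.basis.repr α 0, q.basis.repr α 1, ?_⟩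
  conv_lhs => rw [← q.basis.sum_repr α]
  rw [Fin.sum_univ_two, q.basis0, q.basis1]
  simp [zsmul_eq_mul]

theorem repr_add_mul (x y : ℤ) :
    q.basis.repr ((x : O) + (y : O) * q.θ) 0 = x ∧
      q.basis.repr ((x : O) + (y : O) * q.θ) 1 = y := by
  have : (x : O) + (y : O) * q.θ = x • q.basis 0 + y • q.basis 1 := by
    rw [q.basis0, q.basis1]; simp [zsmul_eq_mul]
  rw [this]
  simp [-zsmul_eq_mul]

theorem norm_eq (x y : ℤ) :
    Algebra.norm ℤ ((x : O) + (y : O) * q.θ) = x ^ 2 + q.t * x * y + q.n * y ^ 2 := by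
  rw [Algebra.norm_eq_matrix_det q.basis, Matrix.det_fin_two]
  have h0 : ((x : O) + (y : O) * q.θ) * q.basis 0 = (x : O) + (y : O) * q.θ := by
    rw [q.basis0, mul_one]
  have h1 : ((x : O) + (y : O) * q.θ) * q.basis 1 =
      ((-(y * q.n) : ℤ) : O) + ((x + y * q.t : ℤ) : O) * q.θ := by
    rw [q.basis1]
    push_cast
    linear_combination (y : O) * q.sq
  simp only [Algebra.leftMulMatrix_eq_repr_mul]
  rw [h0, h1, (q.repr_add_mul x y).1, (q.repr_add_mul x y).2, (q.repr_add_mul _ _).1,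
    (q.repr_add_mul _ _).2]
  ring

variable [IsDedekindDomain O] [Module.Free ℤ O] [Module.Finite ℤ O]

theorem absNorm_span (x y : ℤ) :
    absNorm (span {((x : O) + (y : O) * q.θ)}) =
      (x ^ 2 + q.t * x * y + q.n * y ^ 2).natAbs := by
  rw [absNorm_span_singleton, q.norm_eq]

theorem absNorm_natCast (q : QuadData O D) (p : ℕ) : absNorm (span {((p : ℕ) : O)}) = p ^ 2 := by
  have := q.absNorm_span (p : ℤ) 0
  simpa [Int.natAbs_pow] using this

theorem absNorm_intCast (q : QuadData O D) (g : ℤ) : absNorm (span {(g : O)}) = g.natAbs ^ 2 := by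
  have := q.absNorm_span g 0
  simpa [Int.natAbs_pow] using this

/-- A nonzero prime has norm `p` or `p²`. -/
theorem prime_absNorm (q : QuadData O D) {P : Ideal O} [hP : P.IsPrime] (h0 : P ≠ ⊥) :
    ∃ p : ℕ, p.Prime ∧ (p : O) ∈ P ∧ (absNorm P = p ∨ absNorm P = p ^ 2) := by
  have hmem := absNorm_mem P
  have hN : absNorm P ≠ 0 := fun e => h0 (absNorm_eq_zero_iff.1 e)
  have hN1 : absNorm P ≠ 1 := fun e => hP.ne_top (absNorm_eq_one_iff.1 e)
  obtain ⟨p, hp, hpP⟩ : ∃ p : ℕ, p.Prime ∧ (p : O) ∈ P := by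
    have key : ∀ m : ℕ, m ≠ 0 → (m : O) ∈ P → ∃ p : ℕ, p.Prime ∧ (p : O) ∈ P := by
      intro m
      induction m using Nat.recOnMul with
      | zero => exact fun h => absurd rfl h
      | one => intro _ h; rw [Nat.cast_one] at h; exact absurd ((eq_top_iff_one P).2 h) hP.ne_top
      | prime p hp => exact fun _ h => ⟨p, hp, h⟩
      | mul a b iha ihb =>
        intro h hm
        rw [Nat.cast_mul] at hm
        rcases hP.mem_or_mem hm with h' | h'
        · exact iha (left_ne_zero_of_mul h) h'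
        · exact ihb (right_ne_zero_of_mul h) h'
    exact key _ hN hmem
  refine ⟨p, hp, hpP, ?_⟩
  have hdvd : absNorm P ∣ p ^ 2 := by
    rw [← q.absNorm_natCast p]
    exact absNorm_dvd_absNorm_of_le ((span_singleton_le_iff_mem _).2 hpP)
  obtain ⟨i, hi, he⟩ := (Nat.dvd_prime_pow hp).1 hdvd
  interval_cases i
  · exact absurd (by simpa using he) hN1
  · exact Or.inl (by simpa using he)
  · exact Or.inr he

omit [Module.Finite ℤ O] in
/-- In a degree-one prime `√D` is congruent to an integer. -/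
theorem exists_residue {P : Ideal O} {p : ℕ} (hp : p.Prime) (hN : absNorm P = p) :
    ∃ r : ℤ, q.sd - (r : O) ∈ P := by
  have := Fact.mk hp
  have hfin : Nat.card (O ⧸ P) = p := by
    rw [← hN, absNorm_apply, Submodule.cardQuot_apply]
  have hpP : (p : O) ∈ P := hN ▸ absNorm_mem P
  have : Finite (O ⧸ P) := Nat.finite_of_card_ne_zero (by rw [hfin]; exact hp.ne_zero)
  have : Nontrivial (O ⧸ P) := Finite.one_lt_card_iff_nontrivial.1 (by rw [hfin]; exact hp.one_lt)
  have : CharP (O ⧸ P) p := by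
    refine (CharP.charP_iff_prime_eq_zero hp).2 ?_
    rw [← map_natCast (Ideal.Quotient.mk P), Ideal.Quotient.eq_zero_iff_mem]
    exact hpP
  obtain ⟨z, hz⟩ : ∃ z : ZMod p, ZMod.castHom dvd_rfl (O ⧸ P) z = Ideal.Quotient.mk P q.sd :=
    ((ZMod.castHom_injective (O ⧸ P)).bijective_of_nat_card_le
      (by rw [hfin, Nat.card_zmod])).2 _
  refine ⟨(z.val : ℤ), ?_⟩
  rw [← Ideal.Quotient.eq_zero_iff_mem, map_sub, ← hz, map_intCast, ← ZMod.natCast_zmod_val z,
    map_natCast, ZMod.natCast_zmod_val]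
  simp

omit [Module.Finite ℤ O] in
/-- An integer lies in a degree-one prime only if it is divisible by its norm. -/
theorem dvd_of_intCast_mem {P : Ideal O} {p : ℕ} (hp : p.Prime) (hN : absNorm P = p) {m : ℤ}
    (hm : (m : O) ∈ P) : (p : ℤ) ∣ m := by
  by_contra h
  obtain ⟨a, b, hab⟩ : IsCoprime (p : ℤ) m :=
    (Prime.coprime_iff_not_dvd (Nat.prime_iff_prime_int.1 hp)).2 h
  have hpP : ((p : ℤ) : O) ∈ P := by rw [Int.cast_natCast]; exact hN ▸ absNorm_mem P
  have h1 : (1 : O) ∈ P := by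
    have := congrArg (Int.cast : ℤ → O) hab
    push_cast at this
    rw [← this]
    exact P.add_mem (P.mul_mem_left _ (by exact_mod_cast hpP)) (P.mul_mem_left _ hm)
  have : absNorm P = 1 := absNorm_eq_one_iff.2 ((eq_top_iff_one P).2 h1)
  exact hp.ne_one (hN.symm.trans this)

omit [Module.Finite ℤ O] in
theorem dvd_sq_sub {P : Ideal O} {p : ℕ} (hp : p.Prime) (hN : absNorm P = p) {r : ℤ}
    (hr : q.sd - (r : O) ∈ P) : (p : ℤ) ∣ r ^ 2 - D := by
  refine dvd_of_intCast_mem hp hN ?_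
  have := P.mul_mem_left (-(q.sd + (r : O))) hr
  convert this using 1
  push_cast
  linear_combination q.sd_sq

omit [Module.Finite ℤ O] in
theorem residue_congr {P : Ideal O} {p : ℕ} (hp : p.Prime) (hN : absNorm P = p) {r r' : ℤ}
    (hr : q.sd - (r : O) ∈ P) (hr' : q.sd - (r' : O) ∈ P) : (p : ℤ) ∣ r - r' := by
  refine dvd_of_intCast_mem hp hN ?_
  have := P.sub_mem hr' hr
  convert this using 1
  push_cast
  ring

end QuadData

open NumberField in
/-- The ring of integers of a quadratic field carries a `QuadData`. -/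
theorem exists_quadData (K : Type*) [Field K] [NumberField K] (h2 : Module.finrank ℚ K = 2) :
    Nonempty (QuadData (𝓞 K) (discr K)) := by
  have hr : Module.finrank ℤ (𝓞 K) = 2 := by rw [RingOfIntegers.rank, h2]
  let b : Module.Basis (Fin 2) ℤ (𝓞 K) := Module.finBasisOfFinrankEq ℤ (𝓞 K) hr
  set u := b.repr 1 0
  set v := b.repr 1 1
  have h1 : (1 : 𝓞 K) = (u : 𝓞 K) * b 0 + (v : 𝓞 K) * b 1 := by
    conv_lhs => rw [← b.sum_repr 1]
    rw [Fin.sum_univ_two]
    simp [zsmul_eq_mul, u, v]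
  obtain ⟨s, r, hsr⟩ : IsCoprime u v := by
    rw [Int.isCoprime_iff_gcd_eq_one]
    obtain ⟨cu, hcu⟩ := Int.gcd_dvd_left u v
    obtain ⟨cv, hcv⟩ := Int.gcd_dvd_right u v
    set g := Int.gcd u v
    have hx : (1 : 𝓞 K) = (g : 𝓞 K) * ((cu : 𝓞 K) * b 0 + (cv : 𝓞 K) * b 1) := by
      rw [h1, hcu, hcv]; push_cast; ring
    have hn := congrArg (Algebra.norm ℤ) hx
    rw [map_one, map_mul, show ((g : ℕ) : 𝓞 K) = algebraMap ℤ (𝓞 K) (g : ℤ) by simp,
      Algebra.norm_algebraMap, hr] at hn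
    have hd : ((g : ℤ)) ∣ 1 := by
      rw [hn, pow_two, mul_assoc]; exact dvd_mul_right _ _
    exact Nat.dvd_one.1 (by exact_mod_cast hd)
  set θ : 𝓞 K := -(r : 𝓞 K) * b 0 + (s : 𝓞 K) * b 1
  have hsrO : (s : 𝓞 K) * u + r * v = 1 := by exact_mod_cast hsr
  have hspan : ⊤ ≤ Submodule.span ℤ (Set.range ![(1 : 𝓞 K), θ]) := by
    rw [← b.span_eq, Submodule.span_le]
    rintro _ ⟨i, rfl⟩
    have e0 : b 0 = s • (1 : 𝓞 K) + (-v) • θ := by
      simp only [θ, zsmul_eq_mul]; push_cast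
      linear_combination (-(b 0)) * hsrO - (s : 𝓞 K) * h1
    have e1 : b 1 = r • (1 : 𝓞 K) + u • θ := by
      simp only [θ, zsmul_eq_mul]
      linear_combination (-(b 1)) * hsrO - (r : 𝓞 K) * h1
    have m0 : (1 : 𝓞 K) ∈ Submodule.span ℤ (Set.range ![(1 : 𝓞 K), θ]) :=
      Submodule.subset_span ⟨0, rfl⟩
    have m1 : θ ∈ Submodule.span ℤ (Set.range ![(1 : 𝓞 K), θ]) :=
      Submodule.subset_span ⟨1, rfl⟩
    fin_cases i
    · exact e0 ▸ add_mem (Submodule.smul_mem _ _ m0) (Submodule.smul_mem _ _ m1)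
    · exact e1 ▸ add_mem (Submodule.smul_mem _ _ m0) (Submodule.smul_mem _ _ m1)
  let B : Module.Basis (Fin 2) ℤ (𝓞 K) :=
    basisOfTopLeSpanOfCardEqFinrank ![(1 : 𝓞 K), θ] hspan (by simp [hr])
  have hB : ∀ i, B i = ![(1 : 𝓞 K), θ] i := fun i => by
    simp [B, coe_basisOfTopLeSpanOfCardEqFinrank]
  have hB0 : B 0 = 1 := hB 0
  have hB1 : B 1 = θ := hB 1
  set t := B.repr (θ * θ) 1
  set n := -(B.repr (θ * θ) 0)
  have hsq : θ * θ = (t : 𝓞 K) * θ - (n : 𝓞 K) := by
    conv_lhs => rw [← B.sum_repr (θ * θ)]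
    rw [Fin.sum_univ_two, hB0, hB1]
    simp [zsmul_eq_mul, t, n]
    ring
  have htr : ∀ x y : ℤ, Algebra.trace ℤ (𝓞 K) ((x : 𝓞 K) + (y : 𝓞 K) * θ) = 2 * x + y * t := by
    intro x y
    have hrep : ∀ x y : ℤ, B.repr ((x : 𝓞 K) + (y : 𝓞 K) * θ) 0 = x ∧
        B.repr ((x : 𝓞 K) + (y : 𝓞 K) * θ) 1 = y := fun x y => by
      rw [show (x : 𝓞 K) + (y : 𝓞 K) * θ = x • B 0 + y • B 1 by
        rw [hB0, hB1]; simp [zsmul_eq_mul]]
      simp [-zsmul_eq_mul]
    rw [Algebra.trace_eq_matrix_trace B, Matrix.trace_fin_two]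
    simp only [Algebra.leftMulMatrix_eq_repr_mul]
    rw [hB0, hB1, mul_one, (hrep x y).1,
      show ((x : 𝓞 K) + (y : 𝓞 K) * θ) * θ = ((-(y * n) : ℤ) : 𝓞 K) + ((x + y * t : ℤ) : 𝓞 K) * θ by
        push_cast; linear_combination (y : 𝓞 K) * hsq, (hrep _ _).2]
    ring
  refine ⟨⟨θ, t, n, hsq, B, hB0, hB1, ?_⟩⟩
  rw [← discr_eq_discr K B, Algebra.discr_def, Matrix.det_fin_two]
  simp only [Algebra.traceMatrix_apply, Algebra.traceForm_apply, hB0, hB1, one_mul, mul_one]
  have a := htr 1 0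
  have c := htr 0 1
  have d := htr (-n) t
  simp only [Int.cast_one, Int.cast_zero, zero_mul, one_mul, add_zero, zero_add] at a c
  rw [show ((-n : ℤ) : 𝓞 K) + (t : 𝓞 K) * θ = θ * θ by rw [hsq]; push_cast; ring] at d
  rw [a, c, d]
  ring

end Fermat.Agent.DihedralTwo
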