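import Fermat.Agent.DihedralTwo.ClassChar

/-!
The cubic Kummer symbol at a good prime vanishes exactly when the binary cubic has a zero on the
projective line over the prime field.
-/

set_option autoImplicit false

noncomputable section

namespace Fermat.Agent.DihedralTwo

namespace Cubic

/-- A zero on the projective line over `ZMod p`. -/
def HasRoot (F : Cubic) (p : ℕ) : Prop :=
  ∃ x y : ZMod p, (x ≠ 0 ∨ y ≠ 0) ∧ F.val x y = 0

/-- Derivative in the first variable. -/
def dx (F : Cubic) (z : ℤ × ℤ) : ℤ :=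
  3 * F.a * z.1 ^ 2 + 2 * F.b * z.1 * z.2 + F.c * z.2 ^ 2

/-- Derivative in the second variable. -/
def dy (F : Cubic) (z : ℤ × ℤ) : ℤ :=
  F.b * z.1 ^ 2 + 2 * F.c * z.1 * z.2 + 3 * F.d * z.2 ^ 2

/-- The depressed cubic attached to `z`. -/
theorem depressed {R : Type*} [CommRing R] (F : Cubic) (z : ℤ × ℤ) (x y : R) :
    27 * (F.at' z : R) ^ 2 * F.val x y =
      ((F.dx z : R) * x + (F.dy z : R) * y) ^ 3
        - 3 * (F.hess z : R) * ((F.dx z : R) * x + (F.dy z : R) * y)
            * ((z.1 : R) * y - (z.2 : R) * x) ^ 2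
        + (F.jac z : R) * ((z.1 : R) * y - (z.2 : R) * x) ^ 3 := by
  simp only [at'_eq, val, dx, dy, hess, jac, hA, hB, hC]
  push_cast
  ring

theorem euler (F : Cubic) (z : ℤ × ℤ) :
    z.1 * F.dx z + z.2 * F.dy z = 3 * F.at' z := by
  simp only [at'_eq, dx, dy]; ring

/-- Zeros correspond to roots of the depressed cubic. -/
theorem hasRoot_iff_depressed (F : Cubic) {p : ℕ} [Fact p.Prime] (z : ℤ × ℤ)
    (h3 : (3 : ZMod p) ≠ 0) (hC : (F.at' z : ZMod p) ≠ 0) :
    F.HasRoot p ↔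
      ∃ t : ZMod p, t ^ 3 - 3 * (F.hess z : ZMod p) * t + (F.jac z : ZMod p) = 0 := by
  have hE : (z.1 : ZMod p) * F.dx z + z.2 * F.dy z = 3 * F.at' z := by
    have := congrArg (Int.cast : ℤ → ZMod p) (F.euler z)
    push_cast at this
    exact this
  have h3C : (3 : ZMod p) * F.at' z ≠ 0 := mul_ne_zero h3 hC
  constructor
  · rintro ⟨x, y, hxy, hv⟩
    have hid := F.depressed z x y
    rw [hv, mul_zero] at hid
    set T := (F.dx z : ZMod p) * x + (F.dy z : ZMod p) * y with hT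
    set D := (z.1 : ZMod p) * y - (z.2 : ZMod p) * x with hD
    have hD0 : D ≠ 0 := by
      intro e
      rw [e] at hid
      have hT0 : T = 0 := eq_zero_of_pow_eq_zero (n := 3) (by linear_combination -hid)
      have hx : x * (3 * (F.at' z : ZMod p)) = 0 := by
        linear_combination (-x) * hE + (z.1 : ZMod p) * hT0 - (F.dy z : ZMod p) * e
          + (z.1 : ZMod p) * hT - (F.dy z : ZMod p) * hD
      have hy : y * (3 * (F.at' z : ZMod p)) = 0 := by
        linear_combination (-y) * hE + (z.2 : ZMod p) * hT0 + (F.dx z : ZMod p) * e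
          + (z.2 : ZMod p) * hT + (F.dx z : ZMod p) * hD
      rcases hxy with h | h
      · exact h ((mul_eq_zero.1 hx).resolve_right h3C)
      · exact h ((mul_eq_zero.1 hy).resolve_right h3C)
    refine ⟨T / D, ?_⟩
    have : ((T / D) ^ 3 - 3 * (F.hess z : ZMod p) * (T / D) + (F.jac z : ZMod p)) * D ^ 3 = 0 := by
      field_simp
      linear_combination -hid
    exact (mul_eq_zero.1 this).resolve_right (pow_ne_zero 3 hD0)
  · rintro ⟨t, ht⟩
    set x := t * z.1 - F.dy z with hx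
    set y := t * z.2 + F.dx z with hy
    have e1 : (F.dx z : ZMod p) * x + F.dy z * y = 3 * F.at' z * t := by
      rw [hx, hy]; linear_combination t * hE
    have e2 : (z.1 : ZMod p) * y - z.2 * x = 3 * F.at' z := by
      rw [hx, hy]; linear_combination hE
    refine ⟨x, y, ?_, ?_⟩
    · by_contra h
      push Not at h
      rw [h.1, h.2] at e2
      exact h3C (by linear_combination -e2)
    · have hid := F.depressed z x y
      rw [e1, e2] at hid
      have hz : (27 : ZMod p) * (F.at' z : ZMod p) ^ 2 ≠ 0 := by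
        rw [show (27 : ZMod p) = 3 ^ 3 by norm_num]
        exact mul_ne_zero (pow_ne_zero 3 h3) (pow_ne_zero 2 hC)
      refine (mul_eq_zero.1 ?_).resolve_left hz
      linear_combination hid + (3 * (F.at' z : ZMod p)) ^ 3 * ht

end Cubic

/-! ### Roots of `t³ - 3 H t + G` and a semilinear map -/

section Cardano

variable {k : Type*} [Field k] {w α β H G : k}

/-- The root attached to a cube root of unity. -/
def cardano (α β u : k) : k := -(α * u + β * u ^ 2)

theorem cardano_isRoot (hab : α * β = H) (hG : α ^ 3 + β ^ 3 = G) {u : k} (hu : u ^ 3 = 1) :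
    cardano α β u ^ 3 - 3 * H * cardano α β u + G = 0 := by
  simp only [cardano]
  linear_combination (-3 * α * u - 3 * β * u ^ 2) * hab - hG
    + (-(α ^ 3) - β ^ 3 * (u ^ 3 + 1) - 3 * α ^ 2 * β * u - 3 * α * β ^ 2 * u ^ 2) * hu

theorem exists_cardano (hw : IsOmega w) (hab : α * β = H) (hG : α ^ 3 + β ^ 3 = G) {t : k}
    (ht : t ^ 3 - 3 * H * t + G = 0) : ∃ u : k, u ^ 3 = 1 ∧ t = cardano α β u := by
  have hprod : (t - cardano α β 1) * (t - cardano α β w) * (t - cardano α β (w ^ 2)) = 0 := by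
    have key : (t - cardano α β 1) * (t - cardano α β w) * (t - cardano α β (w ^ 2)) =
        t ^ 3 - 3 * (α * β) * t + (α ^ 3 + β ^ 3) := by
      unfold IsOmega at hw
      simp only [cardano]
      grobner
    rw [key, hab, hG]
    exact ht
  rcases mul_eq_zero.1 hprod with h | h
  · rcases mul_eq_zero.1 h with h | h
    · exact ⟨1, one_pow 3, sub_eq_zero.1 h⟩
    · exact ⟨w, hw.cube, sub_eq_zero.1 h⟩
  · exact ⟨w ^ 2, hw.sq.cube, sub_eq_zero.1 h⟩

theorem cardano_injective (hne : α ^ 3 ≠ β ^ 3) {u v : k} (hu : u ^ 3 = 1) (hv : v ^ 3 = 1)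
    (h : cardano α β u = cardano α β v) : u = v := by
  by_contra huv
  have h0 : u - v ≠ 0 := sub_ne_zero.2 huv
  have h1 : α + β * (u + v) = 0 := by
    refine (mul_eq_zero.1 (show (u - v) * (α + β * (u + v)) = 0 from ?_)).resolve_left h0
    simp only [cardano] at h
    linear_combination -h
  have h2 : (u + v) ^ 3 = -1 := by
    have hq : u ^ 2 + u * v + v ^ 2 = 0 :=
      (mul_eq_zero.1 (show (u - v) * (u ^ 2 + u * v + v ^ 2) = 0 by
        linear_combination hu - hv)).resolve_left h0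
    linear_combination (2 * u + v) * hq - hu
  exact hne (by linear_combination (α ^ 2 - α * β * (u + v) + β ^ 2 * (u + v) ^ 2) * h1
    - β ^ 3 * h2)

variable {σ : k →+* k} {ζ : k}

theorem fix_unique_same (hw : IsOmega w) (hab : α * β = H) (hG : α ^ 3 + β ^ 3 = G)
    (hne : α ^ 3 ≠ β ^ 3) (hσw : σ w = w) (ha : σ α = α * ζ) (hb : σ β = β * ζ ^ 2)
    (hζ : ζ ^ 3 = 1) :
    (∃ t, t ^ 3 - 3 * H * t + G = 0 ∧ σ t = t) ↔ ζ = 1 := by
  constructor
  · rintro ⟨t, ht, hfix⟩
    obtain ⟨u, hu, rfl⟩ := exists_cardano hw hab hG ht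
    have hσu : σ u = u := by
      obtain ⟨i, rfl⟩ := hw.eq_pow_of_cube_eq_one hu
      rw [map_pow, hσw]
    have e : σ (cardano α β u) = cardano α β (ζ * u) := by
      simp only [cardano, map_neg, map_add, map_mul, map_pow, hσu, ha, hb]; ring
    rw [e] at hfix
    have := cardano_injective hne (by rw [mul_pow, hζ, hu, one_mul]) hu hfix
    have hu0 : u ≠ 0 := fun e => by simp [e] at hu
    exact mul_right_cancel₀ hu0 (by rw [this, one_mul])
  · rintro rfl
    refine ⟨cardano α β 1, cardano_isRoot hab hG (one_pow 3), ?_⟩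
    simp only [cardano, map_neg, map_add, map_mul, map_pow, map_one, ha, hb]; ring

theorem fix_unique_swap (hw : IsOmega w) (hab : α * β = H) (hG : α ^ 3 + β ^ 3 = G)
    (hne : α ^ 3 ≠ β ^ 3) (hσw : σ w = w ^ 2) (ha : σ α = β * ζ) (hb : σ β = α * ζ ^ 2)
    (hζ : ζ ^ 3 = 1) :
    (∃ t, t ^ 3 - 3 * H * t + G = 0 ∧ σ t = t) ↔ ζ = 1 := by
  constructor
  · rintro ⟨t, ht, hfix⟩
    obtain ⟨u, hu, rfl⟩ := exists_cardano hw hab hG ht
    have hσu : σ u = u ^ 2 := by
      obtain ⟨i, rfl⟩ := hw.eq_pow_of_cube_eq_one hu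
      rw [map_pow, hσw, ← pow_mul, ← pow_mul, mul_comm]
    have e : σ (cardano α β u) = cardano α β (ζ ^ 2 * u) := by
      simp only [cardano, map_neg, map_add, map_mul, map_pow, hσu, ha, hb]
      linear_combination (β * ζ * u ^ 2) * hζ - (α * ζ ^ 2 * u) * hu
    rw [e] at hfix
    have := cardano_injective hne
      (by rw [mul_pow, ← pow_mul, mul_comm 2, pow_mul, hζ, hu, one_pow, one_mul]) hu hfix
    have hu0 : u ≠ 0 := fun e => by simp [e] at hu
    have h2 : ζ ^ 2 = 1 := mul_right_cancel₀ hu0 (by rw [this, one_mul])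
    linear_combination hζ - ζ * h2
  · rintro rfl
    refine ⟨cardano α β 1, cardano_isRoot hab hG (one_pow 3), ?_⟩
    simp only [cardano, map_neg, map_add, map_mul, map_pow, map_one, ha, hb]; ring

theorem fix_exists_same (hab : α * β = H) (hG : α ^ 3 + β ^ 3 = G) (ha : σ α = β * ζ)
    (hb : σ β = α * ζ ^ 2) (hζ : ζ ^ 3 = 1) (hσζ : σ ζ = ζ) :
    ∃ t, t ^ 3 - 3 * H * t + G = 0 ∧ σ t = t := by
  refine ⟨cardano α β ζ, cardano_isRoot hab hG hζ, ?_⟩
  simp only [cardano, map_neg, map_add, map_mul, map_pow, hσζ, ha, hb]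
  linear_combination (-α * ζ) * hζ

theorem fix_exists_swap (hab : α * β = H) (hG : α ^ 3 + β ^ 3 = G) (ha : σ α = α * ζ)
    (hb : σ β = β * ζ ^ 2) (hζ : ζ ^ 3 = 1) (hσζ : σ ζ = ζ ^ 2) :
    ∃ t, t ^ 3 - 3 * H * t + G = 0 ∧ σ t = t := by
  refine ⟨cardano α β (ζ ^ 2), cardano_isRoot hab hG
    (by rw [← pow_mul, mul_comm, pow_mul, hζ, one_pow]), ?_⟩
  simp only [cardano, map_neg, map_add, map_mul, map_pow, hσζ, ha, hb]
  linear_combination (-α * ζ ^ 2 - β * ζ ^ 4 * (ζ ^ 3 + 1)) * hζ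

end Cardano

/-! ### The criterion -/

variable {F : Cubic} {Δ : ℤ}

/-- The standing hypotheses at a good prime. -/
structure GoodAt (F : Cubic) (Δ : ℤ) (z : ℤ × ℤ) (p : ℕ) : Prop where
  prime : p.Prime
  disc_eq : F.disc = Δ
  two : p ≠ 2
  three : p ≠ 3
  disc0 : ¬ (p : ℤ) ∣ Δ
  val0 : ¬ (p : ℤ) ∣ F.at' z
  hess0 : ¬ (p : ℤ) ∣ F.hess z

theorem exists_zmod_eq {p : ℕ} [Fact p.Prime] {k : Type*} [Field k] [CharP k p] {x : k}
    (h : x ^ p = x) : ∃ a : ZMod p, (ZMod.castHom dvd_rfl k) a = x := by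
  have hb : x ∈ (⊥ : Subfield k) := (Subfield.mem_bot_iff_pow_eq_self k p).2 h
  have hle : (⊥ : Subfield k) ≤ (ZMod.castHom (dvd_refl p) k).fieldRange := bot_le
  exact hle hb

theorem root_zmod_iff {p : ℕ} [hp : Fact p.Prime] {k : Type*} [Field k] [CharP k p]
    [ExpChar k p] (H G : ℤ) :
    (∃ t : ZMod p, t ^ 3 - 3 * (H : ZMod p) * t + (G : ZMod p) = 0) ↔
      ∃ t : k, t ^ 3 - 3 * (H : k) * t + (G : k) = 0 ∧ frobenius k p t = t := by
  constructor
  · rintro ⟨t, ht⟩
    refine ⟨ZMod.castHom dvd_rfl k t, ?_, ?_⟩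
    · have := congrArg (ZMod.castHom dvd_rfl k) ht
      simpa only [map_add, map_sub, map_mul, map_pow, map_intCast, map_ofNat, map_zero] using this
    · rw [frobenius_def, ← map_pow, ZMod.pow_card]
  · rintro ⟨t, ht, hfix⟩
    rw [frobenius_def] at hfix
    obtain ⟨a, rfl⟩ := exists_zmod_eq hfix
    refine ⟨a, (ZMod.castHom dvd_rfl k).injective ?_⟩
    simpa only [map_add, map_sub, map_mul, map_pow, map_intCast, map_ofNat, map_zero] using ht

section Criterion

variable {p : ℕ} {z : ℤ × ℤ}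

theorem GoodAt.field_facts (hg : GoodAt F Δ z p) {k : Type*} [Field k] [CharP k p] :
    (2 : k) ≠ 0 ∧ (3 : k) ≠ 0 ∧ (F.at' z : k) ≠ 0 ∧ (F.hess z : k) ≠ 0 ∧ (Δ : k) ≠ 0 := by
  refine ⟨fun e => hg.two ?_, fun e => hg.three ?_, ?_, ?_, ?_⟩
  · exact (Nat.prime_dvd_prime_iff_eq hg.prime Nat.prime_two).1
      ((CharP.cast_eq_zero_iff k p 2).1 (by exact_mod_cast e))
  · exact (Nat.prime_dvd_prime_iff_eq hg.prime Nat.prime_three).1
      ((CharP.cast_eq_zero_iff k p 3).1 (by exact_mod_cast e))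
  all_goals rw [Ne, CharP.intCast_eq_zero_iff k p]
  · exact hg.val0
  · exact hg.hess0
  · exact hg.disc0

/-- Cardano data over an algebraically closed field of characteristic `p`. -/
structure CardanoData (F : Cubic) (Δ : ℤ) (z : ℤ × ℤ) (k : Type*) [Field k] where
  w : k
  hw : IsOmega w
  ρ : k
  hρ : ρ ^ 2 = Δ
  α : k
  β : k
  hab : α * β = F.hess z
  hα : 2 * α ^ 3 = F.jac z + 3 * ρ * F.at' z * (1 + 2 * w)
  hβ : 2 * β ^ 3 = F.jac z - 3 * ρ * F.at' z * (1 + 2 * w)

variable {k : Type*} [Field k] [CharP k p]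

theorem CardanoData.hG (d : CardanoData F Δ z k) (hg : GoodAt F Δ z p) :
    d.α ^ 3 + d.β ^ 3 = F.jac z :=
  mul_left_cancel₀ (hg.field_facts (k := k)).1 (by linear_combination d.hα + d.hβ)

theorem CardanoData.hne (d : CardanoData F Δ z k) (hg : GoodAt F Δ z p) :
    d.α ^ 3 ≠ d.β ^ 3 := by
  obtain ⟨h2, h3, hC, -, hD⟩ := hg.field_facts (k := k)
  intro e
  have h0 : (2 : k) * 3 * d.ρ * F.at' z * (1 + 2 * d.w) = 0 := by
    linear_combination -d.hα + d.hβ + 2 * e
  have hρ0 : d.ρ ≠ 0 := fun e => hD (by rw [← d.hρ, e]; ring)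
  have hs : (1 + 2 * d.w : k) ≠ 0 := fun e => d.hw.sub_ne_zero h3 (by
    have h := d.hw
    unfold IsOmega at h
    linear_combination e - h)
  exact mul_ne_zero (mul_ne_zero (mul_ne_zero (mul_ne_zero h2 h3) hρ0) hC) hs h0

theorem CardanoData.hα0 (d : CardanoData F Δ z k) (hg : GoodAt F Δ z p) :
    d.α ≠ 0 ∧ d.β ≠ 0 := by
  have h := d.hab
  constructor <;> intro e <;> rw [e] at h <;>
    exact (hg.field_facts (k := k)).2.2.2.1 (by simpa using h.symm)

theorem exists_cardanoData [IsAlgClosed k] (hg : GoodAt F Δ z p) (ρ : k)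
    (hρ : ρ ^ 2 = (Δ : k)) : ∃ d : CardanoData F Δ z k, d.ρ = ρ := by
  obtain ⟨h2, h3, hC, hH, hD⟩ := hg.field_facts (k := k)
  obtain ⟨w, hw⟩ := exists_isOmega k
  obtain ⟨α, hα⟩ := IsAlgClosed.exists_pow_nat_eq
    (((F.jac z : k) + 3 * ρ * F.at' z * (1 + 2 * w)) / 2) (n := 3) (by norm_num)
  set x := (F.jac z : k) + 3 * ρ * F.at' z * (1 + 2 * w)
  set y := (F.jac z : k) - 3 * ρ * F.at' z * (1 + 2 * w)
  have hxy : x * y = 4 * (F.hess z : k) ^ 3 := by
    have hs := congrArg (Int.cast : ℤ → k) (F.syzygy z)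
    rw [hg.disc_eq] at hs
    push_cast at hs
    have h := hw
    unfold IsOmega at h
    simp only [x, y]
    linear_combination hs - 9 * ρ ^ 2 * (F.at' z : k) ^ 2 * 4 * h
      + 27 * (F.at' z : k) ^ 2 * hρ
  have hα' : 2 * α ^ 3 = x := by rw [hα]; field_simp
  have hα0 : α ≠ 0 := by
    intro e
    have hx : x = 0 := by rw [← hα', e]; ring
    rw [hx, zero_mul, show (4 : k) = 2 * 2 by norm_num] at hxy
    exact mul_ne_zero (mul_ne_zero h2 h2) (pow_ne_zero 3 hH) hxy.symm
  refine ⟨⟨w, hw, ρ, hρ, α, F.hess z / α, by field_simp, hα', ?_⟩, rfl⟩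
  show 2 * ((F.hess z : k) / α) ^ 3 = y
  field_simp
  exact mul_left_cancel₀ h2 (by linear_combination (-y) * hα' - hxy)

omit [CharP k p] in
theorem frob_omega {w : k} (hw : IsOmega w) [ExpChar k p] :
    frobenius k p w = w ^ (p % 3) := by
  rw [frobenius_def, pow_eq_pow_mod p hw.cube]

theorem exists_zeta {a b : k} (hb : b ≠ 0) (h : a ^ 3 = b ^ 3) :
    ∃ ζ : k, ζ ^ 3 = 1 ∧ a = b * ζ := by
  refine ⟨a / b, ?_, by field_simp⟩
  rw [div_pow, h, div_self (pow_ne_zero 3 hb)]

theorem mod_three (hg : GoodAt F Δ z p) : p % 3 = 1 ∨ p % 3 = 2 := by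
  have : p % 3 ≠ 0 := fun h => hg.three
    ((Nat.prime_dvd_prime_iff_eq Nat.prime_three hg.prime).1 (Nat.dvd_of_mod_eq_zero h)).symm
  omega

theorem cubicSymbol_iff_aux [IsAlgClosed k] [Fact p.Prime] (hg : GoodAt F Δ z p) {r : ℤ}
    (hr : (p : ℤ) ∣ r ^ 2 - Δ) : cubicSymbol p (kEl F z r) = 0 ↔ F.HasRoot p := by
  obtain ⟨h2, h3, hC, hH, hD⟩ := hg.field_facts (k := k)
  obtain ⟨z2, z3, zC, -, -⟩ := hg.field_facts (k := ZMod p)
  have hρ : ((r : ℤ) : k) ^ 2 = (Δ : k) := by
    rw [← sub_eq_zero, ← Int.cast_pow, ← Int.cast_sub, CharP.intCast_eq_zero_iff k p]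
    exact hr
  obtain ⟨⟨w, hw, ρ, hρ', α, β, hab, hα, hβ⟩, hd⟩ := exists_cardanoData hg (r : k) hρ
  simp only at hd
  subst hd
  let d : CardanoData F Δ z k := ⟨w, hw, _, hρ', α, β, hab, hα, hβ⟩
  have hG := d.hG hg
  have hne := d.hne hg
  obtain ⟨hα0, hβ0⟩ := d.hα0 hg
  rw [F.hasRoot_iff_depressed z z3 zC, root_zmod_iff (k := k)]
  have hnorm : ¬ (p : ℤ) ∣ (kEl F z r).norm := by
    rw [← CharP.intCast_eq_zero_iff k p, kEl_norm]
    have hs := congrArg (Int.cast : ℤ → k) (F.syzygy z)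
    rw [hg.disc_eq] at hs
    push_cast at hs ⊢
    intro e
    have : (2 : k) * 2 * (F.hess z : k) ^ 3 = 0 := by
      linear_combination e - hs - 27 * (F.at' z : k) ^ 2 * hρ'
    exact mul_ne_zero (mul_ne_zero h2 h2) (pow_ne_zero 3 hH) this
  have hbase := ev_symbBase hg.three hnorm hw
  have hzero : cubicSymbol p (kEl F z r) = 0 ↔ ev w hw (symbBase p (kEl F z r)) = 1 := by
    rw [hbase]
    refine ⟨fun e => by rw [e, ZMod.val_zero, pow_zero], fun e => ?_⟩
    exact hw.pow_val_injective h3 (by rw [e, ZMod.val_zero, pow_zero])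
  rw [hzero]
  have hx : ev w hw (kEl F z r) = 2 * α ^ 3 := by
    rw [ev_apply, hα, kEl]; push_cast; ring
  have hy : ev w hw (starRingEnd Eis (kEl F z r)) = 2 * β ^ 3 := by
    rw [ev_conj hw, ev_apply, hβ, kEl]
    have h := hw
    unfold IsOmega at h
    push_cast
    linear_combination 6 * (r : k) * (F.at' z : k) * h
  set σ := frobenius k p with hσ
  have h2p : (2 : k) ^ (p - 1) = 1 := by
    refine pow_sub_one_eq_one_of_pow_eq hg.prime.pos h2 ?_
    rw [← frobenius_def, map_ofNat]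
  have hσH : σ (F.hess z : k) = F.hess z := map_intCast σ _
  rcases mod_three hg with hm | hm
  · have hσw : σ w = w := by rw [frob_omega hw, hm, pow_one]
    have hα3 : σ α ^ 3 = α ^ 3 := by
      refine mul_left_cancel₀ h2 ?_
      have e := congrArg σ hα
      simp only [map_mul, map_add, map_pow, map_ofNat, map_intCast, map_one, hσw] at e
      rw [e, hα]
    obtain ⟨ζ, hζ, hαζ⟩ := exists_zeta hα0 hα3
    have hζ0 : ζ ≠ 0 := fun e => by simp [e] at hζ
    have hβζ : σ β = β * ζ ^ 2 := by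
      refine mul_left_cancel₀ (mul_ne_zero hα0 hζ0) ?_
      have e := congrArg σ hab
      rw [map_mul, hσH, hαζ] at e
      linear_combination e - hab - α * β * hζ
    rw [fix_unique_same hw hab hG hne hσw hαζ hβζ hζ]
    obtain ⟨n, hn⟩ : ∃ n, p - 1 = 3 * n := ⟨(p - 1) / 3, by omega⟩
    have hA : (α ^ 3) ^ n = ζ := by
      rw [← pow_mul, ← hn]
      refine mul_left_cancel₀ hα0 ?_
      rw [← pow_succ', Nat.sub_add_cancel hg.prime.one_le, ← frobenius_def, hαζ]
    have hB : (β ^ 3) ^ n = ζ ^ 2 := by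
      rw [← pow_mul, ← hn]
      refine mul_left_cancel₀ hβ0 ?_
      rw [← pow_succ', Nat.sub_add_cancel hg.prime.one_le, ← frobenius_def, hβζ]
    have hval : ev w hw (symbBase p (kEl F z r)) = ζ ^ 2 := by
      rw [symbBase, if_pos hm, show (p - 1) / 3 = n by omega, map_pow, map_mul, map_pow, hx, hy,
        mul_pow (2 * α ^ 3), ← pow_mul (2 * β ^ 3), mul_comm 2 n, pow_mul (2 * β ^ 3), mul_pow,
        mul_pow, hA, hB]
      have hn2 : ((2 : k) ^ n) ^ 3 = 1 := by rw [← pow_mul, mul_comm, ← hn, h2p]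
      linear_combination (ζ ^ 5) * hn2 + ζ ^ 2 * hζ
    rw [hval]
    exact ⟨fun e => by linear_combination hζ - ζ * e, fun e => by rw [e, one_pow]⟩
  · have hσw : σ w = w ^ 2 := by rw [frob_omega hw, hm]
    have hα3 : σ α ^ 3 = β ^ 3 := by
      refine mul_left_cancel₀ h2 ?_
      have e := congrArg σ hα
      simp only [map_mul, map_add, map_pow, map_ofNat, map_intCast, map_one, hσw] at e
      have h := hw
      unfold IsOmega at h
      linear_combination e - hβ + 6 * (r : k) * (F.at' z : k) * h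
    obtain ⟨ζ, hζ, hαζ⟩ := exists_zeta hβ0 hα3
    have hζ0 : ζ ≠ 0 := fun e => by simp [e] at hζ
    have hβζ : σ β = α * ζ ^ 2 := by
      refine mul_left_cancel₀ (mul_ne_zero hβ0 hζ0) ?_
      have e := congrArg σ hab
      rw [map_mul, hσH, hαζ] at e
      linear_combination e - hab - α * β * hζ
    rw [fix_unique_swap hw hab hG hne hσw hαζ hβζ hζ]
    obtain ⟨n, hn⟩ : ∃ n, p + 1 = 3 * n := ⟨(p + 1) / 3, by omega⟩
    obtain ⟨m, hm'⟩ : ∃ m, p ^ 2 - 1 = 3 * m ∧ m = (p - 1) * n := by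
      refine ⟨(p - 1) * n, ?_, rfl⟩
      rw [show 3 * ((p - 1) * n) = (3 * n) * (p - 1) by ring, ← hn, ← Nat.sq_sub_sq, one_pow]
    have hσσ : σ (σ α) = α * ζ := by
      have hσζ : σ ζ = ζ ^ 2 := by
        obtain ⟨i, rfl⟩ := hw.eq_pow_of_cube_eq_one hζ
        rw [map_pow, hσw, ← pow_mul, ← pow_mul, mul_comm]
      rw [hαζ, map_mul, hβζ, hσζ]
      linear_combination α * ζ * hζ
    have hA : (α ^ 3) ^ m = ζ := by
      rw [← pow_mul, ← hm'.1]
      refine mul_left_cancel₀ hα0 ?_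
      rw [← pow_succ', Nat.sub_add_cancel (Nat.one_le_pow _ _ hg.prime.pos), pow_two, pow_mul,
        ← frobenius_def, ← frobenius_def, hσσ]
    have hval : ev w hw (symbBase p (kEl F z r)) = ζ := by
      rw [symbBase, if_neg (by omega), show (p ^ 2 - 1) / 3 = m by omega, map_pow, hx, mul_pow, hA,
        hm'.2, pow_mul, h2p, one_pow, one_mul]
    rw [hval]

theorem hasRoot_aux [IsAlgClosed k] [Fact p.Prime] (hg : GoodAt F Δ z p)
    (hns : ¬ IsSquare (Δ : ZMod p)) : F.HasRoot p := by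
  obtain ⟨h2, h3, hC, hH, hD⟩ := hg.field_facts (k := k)
  obtain ⟨z2, z3, zC, -, -⟩ := hg.field_facts (k := ZMod p)
  obtain ⟨ρ, hρ⟩ := IsAlgClosed.exists_pow_nat_eq ((Δ : ℤ) : k) (n := 2) (by norm_num)
  have hσρ : frobenius k p ρ = -ρ := by
    have e : frobenius k p ρ ^ 2 = ρ ^ 2 := by rw [← map_pow, hρ, map_intCast]
    rcases sq_eq_sq_iff_eq_or_eq_neg.1 e with h | h
    · refine absurd ?_ hns
      rw [frobenius_def] at h
      obtain ⟨a, ha⟩ := exists_zmod_eq h
      refine ⟨a, (ZMod.castHom dvd_rfl k).injective ?_⟩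
      rw [map_intCast, map_mul, ha, ← pow_two, hρ]
    · exact h
  obtain ⟨⟨w, hw, ρ', hρ', α, β, hab, hα, hβ⟩, hd⟩ := exists_cardanoData hg ρ hρ
  simp only at hd
  subst hd
  let d : CardanoData F Δ z k := ⟨w, hw, _, hρ', α, β, hab, hα, hβ⟩
  have hG := d.hG hg
  obtain ⟨hα0, hβ0⟩ := d.hα0 hg
  rw [F.hasRoot_iff_depressed z z3 zC, root_zmod_iff (k := k)]
  set σ := frobenius k p with hσ
  have hσH : σ (F.hess z : k) = F.hess z := map_intCast σ _
  have h := hw
  unfold IsOmega at h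
  rcases mod_three hg with hm | hm
  · have hσw : σ w = w := by rw [frob_omega hw, hm, pow_one]
    have hα3 : σ α ^ 3 = β ^ 3 := by
      refine mul_left_cancel₀ h2 ?_
      have e := congrArg σ hα
      simp only [map_mul, map_add, map_pow, map_ofNat, map_intCast, map_one, hσw, hσρ] at e
      linear_combination e - hβ
    obtain ⟨ζ, hζ, hαζ⟩ := exists_zeta hβ0 hα3
    have hζ0 : ζ ≠ 0 := fun e => by simp [e] at hζ
    have hβζ : σ β = α * ζ ^ 2 := by
      refine mul_left_cancel₀ (mul_ne_zero hβ0 hζ0) ?_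
      have e := congrArg σ hab
      rw [map_mul, hσH, hαζ] at e
      linear_combination e - hab - α * β * hζ
    refine fix_exists_same hab hG hαζ hβζ hζ ?_
    obtain ⟨i, rfl⟩ := hw.eq_pow_of_cube_eq_one hζ
    rw [map_pow, hσw]
  · have hσw : σ w = w ^ 2 := by rw [frob_omega hw, hm]
    have hα3 : σ α ^ 3 = α ^ 3 := by
      refine mul_left_cancel₀ h2 ?_
      have e := congrArg σ hα
      simp only [map_mul, map_add, map_pow, map_ofNat, map_intCast, map_one, hσw, hσρ] at e
      linear_combination e - hα - 6 * ρ' * (F.at' z : k) * h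
    obtain ⟨ζ, hζ, hαζ⟩ := exists_zeta hα0 hα3
    have hζ0 : ζ ≠ 0 := fun e => by simp [e] at hζ
    have hβζ : σ β = β * ζ ^ 2 := by
      refine mul_left_cancel₀ (mul_ne_zero hα0 hζ0) ?_
      have e := congrArg σ hab
      rw [map_mul, hσH, hαζ] at e
      linear_combination e - hab - α * β * hζ
    refine fix_exists_swap hab hG hαζ hβζ hζ ?_
    obtain ⟨i, rfl⟩ := hw.eq_pow_of_cube_eq_one hζ
    rw [map_pow, hσw, ← pow_mul, ← pow_mul, mul_comm]

end Criterion

section Final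

variable {p : ℕ} {z : ℤ × ℤ}

/-- The Kummer symbol vanishes exactly when the cubic has a zero modulo `p`. -/
theorem cubicSymbol_eq_zero_iff [Fact p.Prime] (hg : GoodAt F Δ z p) {r : ℤ}
    (hr : (p : ℤ) ∣ r ^ 2 - Δ) : cubicSymbol p (kEl F z r) = 0 ↔ F.HasRoot p :=
  cubicSymbol_iff_aux (k := Kq p) hg hr

/-- At an inert prime the cubic has a zero. -/
theorem hasRoot_of_not_isSquare [Fact p.Prime] (hg : GoodAt F Δ z p)
    (hns : ¬ IsSquare (Δ : ZMod p)) : F.HasRoot p :=
  hasRoot_aux (k := Kq p) hg hns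

theorem symb_prime (hp : p.Prime) (x : Eis) : symb p x = cubicSymbol p x := by
  simp [symb, Nat.primeFactorsList_prime hp]

/-- For every good prime some usable vector is good at it. -/
theorem GoodCubic.exists_goodAt (h : GoodCubic F Δ) (hp : p.Prime) (h5 : 5 ≤ p)
    (hD : ¬ (p : ℤ) ∣ Δ) : ∃ z : ℤ × ℤ, Usable F z ∧ GoodAt F Δ z p := by
  have := Fact.mk hp
  obtain ⟨v, hv⟩ : ∃ v : ℤ × ℤ, ((F.at' v * F.hess v : ℤ) : ZMod p) ≠ 0 := by
    by_contra hcon
    push Not at hcon
    open Polynomial in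
    let P : Polynomial (ZMod p) :=
      (C (F.a : ZMod p) * X ^ 3 + C (F.b : ZMod p) * X ^ 2 + C (F.c : ZMod p) * X
        + C (F.d : ZMod p)) *
      (C (F.hA : ZMod p) * X ^ 2 + C (F.hB : ZMod p) * X + C (F.hC : ZMod p))
    have heval : ∀ t : ZMod p, P.eval t = 0 := by
      intro t
      have := hcon ((t.val : ℤ), 1)
      simp only [Cubic.at'_eq, Cubic.hess] at this
      push_cast at this
      rw [ZMod.natCast_zmod_val] at this
      simp only [P, Polynomial.eval_mul, Polynomial.eval_add, Polynomial.eval_pow,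
        Polynomial.eval_C, Polynomial.eval_X]
      linear_combination this
    have htop : (F.a : ZMod p) * (F.hA : ZMod p) = 0 := by
      have := hcon (1, 0)
      simp only [Cubic.at'_eq, Cubic.hess] at this
      push_cast at this
      linear_combination this
    have hdeg5 : P.natDegree ≤ 5 := by
      simp only [P]
      compute_degree
    have hcoeff : P.coeff 5 = 0 := by
      simp only [P]
      rw [Polynomial.coeff_mul_add_eq_of_natDegree_le (df := 3) (dg := 2) (by compute_degree)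
        (by compute_degree)]
      simpa [Polynomial.coeff_C, Polynomial.coeff_X, Polynomial.coeff_C_mul, -map_intCast,
        -eq_intCast] using htop
    have hdeg4 : P.natDegree ≤ 4 := by
      by_contra hne
      have h5' : P.natDegree = 5 := by omega
      have : P ≠ 0 := fun e => by simp [e] at h5'
      exact Polynomial.leadingCoeff_ne_zero.2 this (by rw [Polynomial.leadingCoeff, h5', hcoeff])
    have hP : P = 0 := Polynomial.eq_zero_of_natDegree_lt_card_of_eval_eq_zero P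
      Function.injective_id heval (by rw [ZMod.card]; omega)
    apply hD
    rw [← CharP.intCast_eq_zero_iff (ZMod p), ← h.disc_eq]
    rcases mul_eq_zero.1 hP with e | e
    · have c3 := congrArg (fun q => Polynomial.coeff q 3) e
      have c2 := congrArg (fun q => Polynomial.coeff q 2) e
      have c1 := congrArg (fun q => Polynomial.coeff q 1) e
      have c0 := congrArg (fun q => Polynomial.coeff q 0) e
      norm_num [Polynomial.coeff_add, Polynomial.coeff_C_mul, Polynomial.coeff_X_pow,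
        Polynomial.coeff_C, Polynomial.coeff_X, -map_intCast, -eq_intCast] at c3 c2 c1 c0
      simp [Cubic.disc, c3, c2, c1, c0]
    · have c2 := congrArg (fun q => Polynomial.coeff q 2) e
      have c1 := congrArg (fun q => Polynomial.coeff q 1) e
      have c0 := congrArg (fun q => Polynomial.coeff q 0) e
      norm_num [Polynomial.coeff_add, Polynomial.coeff_C_mul, Polynomial.coeff_X_pow,
        Polynomial.coeff_C, Polynomial.coeff_X, -map_intCast, -eq_intCast] at c2 c1 c0
      have hd := congrArg (Int.cast : ℤ → ZMod p) F.hess_disc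
      push_cast at hd
      rw [c2, c1, c0] at hd
      have z3 : p ≠ 3 := by omega
      have h3 : (3 : ZMod p) ≠ 0 := fun e => z3
        ((Nat.prime_dvd_prime_iff_eq hp Nat.prime_three).1
          ((CharP.cast_eq_zero_iff (ZMod p) p 3).1 (by exact_mod_cast e)))
      exact (mul_eq_zero.1 (show (-3 : ZMod p) * (F.disc : ZMod p) = 0 by
        linear_combination -hd)).resolve_left (neg_ne_zero.2 h3)
  obtain ⟨u, hu3, hu9⟩ := h.exists_three
  obtain ⟨r, s, hrs⟩ : IsCoprime (9 : ℤ) p := by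
    have : Nat.Coprime (3 ^ 2) p :=
      Nat.Coprime.pow_left 2 ((Nat.coprime_primes Nat.prime_three hp).2 (by omega))
    exact Int.isCoprime_iff_gcd_eq_one.2 (by simpa [Int.gcd] using this)
  set z : ℤ × ℤ := (u.1 * (s * p) + v.1 * (r * 9), u.2 * (s * p) + v.2 * (r * 9)) with hz
  have e1 : ((z.1 : ℤ) : ZMod p) = v.1 := by
    have := congrArg (Int.cast : ℤ → ZMod p) hrs
    simp only [hz]
    push_cast at this ⊢
    simp only [CharP.cast_eq_zero, mul_zero, add_zero] at this ⊢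
    linear_combination (v.1 : ZMod p) * this
  have e2 : ((z.2 : ℤ) : ZMod p) = v.2 := by
    have := congrArg (Int.cast : ℤ → ZMod p) hrs
    simp only [hz]
    push_cast at this ⊢
    simp only [CharP.cast_eq_zero, mul_zero, add_zero] at this ⊢
    linear_combination (v.2 : ZMod p) * this
  have hv' : ((F.at' z : ℤ) : ZMod p) ≠ 0 ∧ ((F.hess z : ℤ) : ZMod p) ≠ 0 := by
    push_cast at hv
    refine mul_ne_zero_iff.1 ?_
    simp only [Cubic.at'_eq, Cubic.hess] at hv ⊢
    push_cast at hv ⊢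
    rwa [e1, e2]
  rw [Ne, Ne, CharP.intCast_eq_zero_iff (ZMod p) p, CharP.intCast_eq_zero_iff (ZMod p) p] at hv'
  refine ⟨z, ⟨?_, ?_, fun e => hv'.2 (e ▸ dvd_zero _)⟩,
    ⟨hp, h.disc_eq, by omega, by omega, hD, hv'.1, hv'.2⟩⟩
  · intro e
    apply hu3
    have : F.lam u = F.lam z
        - 3 * (3 * (F.b * ((v.1 - u.1) * r) - F.c * ((v.2 - u.2) * r))) := by
      simp only [Cubic.lam, hz]
      linear_combination (-(F.b * u.1) + F.c * u.2) * hrs
    rw [this]
    exact dvd_sub e (dvd_mul_right _ _)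
  · intro e
    refine hu9 ?_
    have h9 := at'_congr F (n := 9) (z := z) (w := u)
      ⟨(v.1 - u.1) * r, by simp only [hz]; linear_combination u.1 * hrs⟩
      ⟨(v.2 - u.2) * r, by simp only [hz]; linear_combination u.2 * hrs⟩
    simpa using dvd_sub e h9

end Final

end Fermat.Agent.DihedralTwo
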