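import Fermat.Agent.DihedralTwo.ClassChar
import Fermat.Agent.DihedralTwo.QuadOrder
import Fermat.Agent.DihedralTwo.RootCriterion

/-!
The cubic class character as a homomorphism on the ideal class group of the quadratic field, with
its value at degree-one primes read off from the roots of the binary cubic.
-/

set_option autoImplicit false

noncomputable section

namespace Fermat.Agent.DihedralTwo

open Ideal UniqueFactorizationMonoid
open scoped nonZeroDivisors

variable {O : Type*} [CommRing O] [IsDedekindDomain O] [Module.Free ℤ O]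
  {F : Cubic} {Δ : ℤ} (q : QuadData O Δ)

open Classical in
/-- The symbol at a prime. -/
def primeSymb (F : Cubic) (z : ℤ × ℤ) (P : Ideal O) : ZMod 3 :=
  if h : (absNorm P).Prime then X0 F z (absNorm P) (q.exists_residue h rfl).choose else 0

/-- The symbol of an ideal. -/
def idealSymb (F : Cubic) (z : ℤ × ℤ) (I : Ideal O) : ZMod 3 :=
  ((normalizedFactors I).map (primeSymb q F z)).sum

/-- An ideal prime to the bad primes of `z`. -/
def GoodIdeal (F : Cubic) (Δ : ℤ) (z : ℤ × ℤ) (I : Ideal O) : Prop :=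
  I ≠ 0 ∧ IsCoprime (absNorm I : ℤ) (bad F Δ z)

theorem primeSymb_eq (h : GoodCubic F Δ) {z : ℤ × ℤ} {P : Ideal O} {p : ℕ} (hp : p.Prime)
    (hN : absNorm P = p) (hco : IsCoprime (p : ℤ) (bad F Δ z)) {r : ℤ}
    (hr : q.sd - (r : O) ∈ P) : primeSymb q F z P = X0 F z p r := by
  have hpr : (absNorm P).Prime := hN ▸ hp
  rw [primeSymb, dif_pos hpr]
  have hc := (q.exists_residue hpr rfl).choose_spec
  generalize (q.exists_residue hpr rfl).choose = r' at hc ⊢
  rw [hN]
  exact X0_congr h hco (q.dvd_sq_sub hp hN hr) (q.residue_congr hp hN hr hc)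

theorem idealSymb_mul {z : ℤ × ℤ} {I J : Ideal O} (hI : I ≠ 0) (hJ : J ≠ 0) :
    idealSymb q F z (I * J) = idealSymb q F z I + idealSymb q F z J := by
  simp [idealSymb, normalizedFactors_mul hI hJ]

theorem idealSymb_one {z : ℤ × ℤ} : idealSymb q F z (1 : Ideal O) = 0 := by
  rw [idealSymb, normalizedFactors_one]
  simp

theorem idealSymb_prime {z : ℤ × ℤ} {P : Ideal O} [hP : P.IsPrime] (h0 : P ≠ 0) :
    idealSymb q F z P = primeSymb q F z P := by
  have hirr : Irreducible P := (Ideal.prime_of_isPrime h0 hP).irreducible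
  simp [idealSymb, normalizedFactors_irreducible hirr]

omit [Module.Free ℤ O] in
theorem normalizedFactors_data {I : Ideal O} {P : Ideal O}
    (hP : P ∈ normalizedFactors I) : P.IsPrime ∧ P ≠ ⊥ ∧ I ≤ P :=
  have hp := prime_of_normalized_factor P hP
  ⟨Ideal.isPrime_of_prime hp, hp.ne_zero, Ideal.dvd_iff_le.1 (dvd_of_mem_normalizedFactors hP)⟩

theorem GoodIdeal.mul_iff {z : ℤ × ℤ} {I J : Ideal O} :
    GoodIdeal F Δ z (I * J) ↔ GoodIdeal F Δ z I ∧ GoodIdeal F Δ z J := by
  simp only [GoodIdeal, mul_ne_zero_iff, map_mul, Nat.cast_mul, IsCoprime.mul_left_iff]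
  tauto

theorem eq_top_of_absNorm_mul {P J : Ideal O} (hP : absNorm P ≠ 0)
    (h : absNorm (P * J) = absNorm P) : J = ⊤ := by
  rw [map_mul] at h
  exact absNorm_eq_one_iff.1 ((mul_eq_left₀ hP).1 h)

variable [Module.Finite ℤ O]

/-- The symbol of a rational prime ideal vanishes. -/
theorem idealSymb_natPrime (h : GoodCubic F Δ) {z : ℤ × ℤ} {p : ℕ} (hp : p.Prime)
    (hco : IsCoprime (p : ℤ) (bad F Δ z)) : idealSymb q F z (span {(p : O)}) = 0 := by
  obtain ⟨h2, h3, -, -⟩ := coprime_of_bad hco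
  have hpz := Nat.prime_iff_prime_int.1 hp
  rw [idealSymb]
  by_cases hsplit : ∃ P ∈ normalizedFactors (span {(p : O)}), (absNorm P).Prime
  · obtain ⟨P, hPm, hPp⟩ := hsplit
    obtain ⟨hPpr, hP0, hle⟩ := normalizedFactors_data hPm
    obtain ⟨J, hJ⟩ := Ideal.dvd_iff_le.2 hle
    have hNP : absNorm P = p := by
      have hd : absNorm P ∣ p ^ 2 := q.absNorm_natCast p ▸ absNorm_dvd_absNorm_of_le hle
      exact (Nat.prime_dvd_prime_iff_eq hPp hp).1 (hPp.dvd_of_dvd_pow hd)
    have hNJ : absNorm J = p := by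
      have hmul := congrArg absNorm hJ
      rw [q.absNorm_natCast, map_mul, hNP, pow_two] at hmul
      exact (Nat.eq_of_mul_eq_mul_left hp.pos hmul).symm
    have hJ0 : J ≠ 0 := fun e => by rw [e] at hNJ; simp [eq_comm, hp.ne_zero] at hNJ
    have : J.IsPrime := isPrime_of_irreducible_absNorm (by rw [hNJ]; exact hp)
    have := hPpr
    show idealSymb q F z (span {(p : O)}) = 0
    rw [hJ, idealSymb_mul q hP0 hJ0, idealSymb_prime q hP0, idealSymb_prime q hJ0]
    obtain ⟨r, hr⟩ := q.exists_residue hp hNP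
    obtain ⟨r', hr'⟩ := q.exists_residue hp hNJ
    have hd := q.dvd_sq_sub hp hNP hr
    have hd' := q.dvd_sq_sub hp hNJ hr'
    have hpD : ¬ (p : ℤ) ∣ Δ := fun e => by
      have hu := hco.of_isCoprime_of_dvd_right
        (show Δ ∣ bad F Δ z from ⟨6 * F.at' z * F.hess z, by rw [bad]; ring⟩)
      exact hpz.not_isUnit (hu.isUnit_of_dvd' dvd_rfl e)
    have hsum : (p : ℤ) ∣ r' - -r := by
      have : (p : ℤ) ∣ (r' - r) * (r' + r) := by
        rw [show (r' - r) * (r' + r) = (r' ^ 2 - Δ) - (r ^ 2 - Δ) by ring]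
        exact dvd_sub hd' hd
      rcases hpz.dvd_or_dvd this with e | e
      · exfalso
        have hrJ : q.sd - (r : O) ∈ J := by
          obtain ⟨c, hc⟩ := e
          have hpJ : (p : O) ∈ J := hNJ ▸ absNorm_mem J
          have := J.add_mem hr' (J.mul_mem_right (c : O) hpJ)
          convert this using 1
          have hc' := congrArg (Int.cast : ℤ → O) hc
          push_cast at hc'
          linear_combination hc'
        have hmem := Ideal.mul_mem_mul hr hrJ
        rw [← hJ, Ideal.mem_span_singleton] at hmem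
        obtain ⟨γ, hγ⟩ := hmem
        obtain ⟨u, v, rfl⟩ := q.exists_eq γ
        have hlhs : (q.sd - (r : O)) * (q.sd - (r : O)) =
            ((Δ + r ^ 2 + 2 * r * q.t : ℤ) : O) + ((-4 * r : ℤ) : O) * q.θ := by
          push_cast
          have hsd : q.sd = 2 * q.θ - (q.t : O) := rfl
          linear_combination q.sd_sq + (-2 * (r : O)) * hsd
        rw [hlhs, show (p : O) * ((u : O) + (v : O) * q.θ) =
          (((p : ℤ) * u : ℤ) : O) + (((p : ℤ) * v : ℤ) : O) * q.θ by push_cast; ring] at hγ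
        have h4 := congrArg (fun a => q.basis.repr a 1) hγ
        simp only [(q.repr_add_mul _ _).2] at h4
        have h4r : (p : ℤ) ∣ 2 * (2 * r) := ⟨-v, by linear_combination -h4⟩
        have hpr : (p : ℤ) ∣ r := by
          rcases hpz.dvd_or_dvd h4r with e | e
          · exact absurd (h2.isUnit_of_dvd' dvd_rfl e) hpz.not_isUnit
          · rcases hpz.dvd_or_dvd e with e | e
            · exact absurd (h2.isUnit_of_dvd' dvd_rfl e) hpz.not_isUnit
            · exact e
        exact hpD (by simpa using dvd_sub (dvd_pow hpr two_ne_zero) hd)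
      · rwa [sub_neg_eq_add]
    rw [primeSymb_eq q h hp hNP hco hr, primeSymb_eq q h hp hNJ hco hr',
      X0_congr h hco (r := -r) (r' := r') (by simpa using hd) (by
        rw [← dvd_neg, neg_sub]; exact hsum),
      X0_neg h hco hd, add_neg_cancel]
  · push Not at hsplit
    refine Multiset.sum_eq_zero fun x hx => ?_
    obtain ⟨P, hP, rfl⟩ := Multiset.mem_map.1 hx
    rw [primeSymb, dif_neg (hsplit P hP)]

theorem idealSymb_natCast (h : GoodCubic F Δ) {z : ℤ × ℤ} {m : ℕ} (hm : m ≠ 0)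
    (hco : IsCoprime (m : ℤ) (bad F Δ z)) : idealSymb q F z (span {(m : O)}) = 0 := by
  induction m using Nat.recOnMul with
  | zero => exact absurd rfl hm
  | one => simp [← Ideal.one_eq_top, idealSymb_one q]
  | prime p hp => exact idealSymb_natPrime q h hp hco
  | mul a b iha ihb =>
    have ha := left_ne_zero_of_mul hm
    have hb := right_ne_zero_of_mul hm
    have hne : ∀ c : ℕ, c ≠ 0 → span {(c : O)} ≠ 0 := fun c hc e => by
      have := q.absNorm_natCast c
      rw [e, Ideal.zero_eq_bot, Ideal.absNorm_bot] at this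
      exact pow_ne_zero 2 hc this.symm
    rw [Nat.cast_mul] at hco
    rw [Nat.cast_mul, ← Ideal.span_singleton_mul_span_singleton,
      idealSymb_mul q (hne a ha) (hne b hb), iha ha hco.of_mul_left_left,
      ihb hb hco.of_mul_left_right, add_zero]

omit [Module.Finite ℤ O] in
theorem X0_prod (h : GoodCubic F Δ) {z : ℤ × ℤ} {b : ℤ} (M : Multiset (Ideal O))
    (hM : ∀ P ∈ M, ∃ p : ℕ, p.Prime ∧ absNorm P = p ∧ IsCoprime (p : ℤ) (bad F Δ z) ∧
      q.sd - (b : O) ∈ P) :
    X0 F z ((M.map absNorm).prod : ℕ) b = (M.map (primeSymb q F z)).sum ∧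
      (M.map absNorm).prod ≠ 0 := by
  induction M using Multiset.induction_on with
  | empty => simp [X0_one]
  | cons P M ih =>
    obtain ⟨p, hp, hN, hco, hb⟩ := hM P (Multiset.mem_cons_self _ _)
    obtain ⟨ih1, ih2⟩ := ih fun Q hQ => hM Q (Multiset.mem_cons_of_mem hQ)
    simp only [Multiset.map_cons, Multiset.prod_cons, Multiset.sum_cons, hN, Nat.cast_mul]
    refine ⟨?_, mul_ne_zero hp.ne_zero ih2⟩
    rw [X0_mul (by exact_mod_cast hp.ne_zero) (by exact_mod_cast ih2), ih1,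
      primeSymb_eq q h hp hN hco hb]

/-- The symbol of a principal ideal with primitive generator vanishes. -/
theorem idealSymb_primitive (h : GoodCubic F Δ) {z : ℤ × ℤ} (hz : Usable F z) {x y : ℤ}
    (hxy : IsCoprime x y) (hg : GoodIdeal F Δ z (span {((x : O) + (y : O) * q.θ)})) :
    idealSymb q F z (span {((x : O) + (y : O) * q.θ)}) = 0 := by
  obtain ⟨hI0, hco⟩ := hg
  set I := span {((x : O) + (y : O) * q.θ)} with hI
  obtain ⟨f, hf⟩ := exists_classChar h
  obtain ⟨s', q'', hsq⟩ := hxy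
  set q' := -q'' with hq'
  have hdet : x * s' - q' * y = 1 := by rw [hq']; linear_combination hsq
  set Q0 : BQF := ⟨1, q.t, q.n⟩ with hQ0
  have hQ0f : BQF.IsFormOf Δ Q0 :=
    ⟨by simp only [BQF.disc, hQ0]; linear_combination q.disc, by norm_num [hQ0]⟩
  set Q1 := Q0.act x q' y s' with hQ1
  have hQ1f : BQF.IsFormOf Δ Q1 := hQ0f.act h.neg hdet
  have ha : (absNorm I : ℤ) = Q1.a := by
    rw [hI, q.absNorm_span, Int.natAbs_of_nonneg]
    · simp only [hQ1, hQ0, BQF.act, BQF.val]; ring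
    · have := hQ1f.pos
      simp only [hQ1, hQ0, BQF.act, BQF.val] at this
      linarith
  have hsd : q.sd - (Q1.b : O) ∈ I := by
    rw [hI, Ideal.mem_span_singleton]
    refine ⟨-(2 * ((q' : O) + (s' : O) * (q.t : O)) - 2 * (s' : O) * q.θ), ?_⟩
    have hd := congrArg (Int.cast : ℤ → O) hdet
    simp only [hQ1, hQ0, BQF.act, QuadData.sd]
    push_cast at hd ⊢
    linear_combination (-2 * (y : O) * s') * q.sq + (2 * q.θ - (q.t : O)) * (-hd)
  have hM : ∀ P ∈ normalizedFactors I, ∃ p : ℕ, p.Prime ∧ absNorm P = p ∧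
      IsCoprime (p : ℤ) (bad F Δ z) ∧ q.sd - (Q1.b : O) ∈ P := by
    intro P hP
    obtain ⟨hPpr, hP0, hle⟩ := normalizedFactors_data hP
    obtain ⟨p, hp, hpP, hN⟩ := q.prime_absNorm hP0
    have hN1 : absNorm P = p := by
      refine hN.resolve_right fun e => ?_
      obtain ⟨J, hJ⟩ := Ideal.dvd_iff_le.2 ((span_singleton_le_iff_mem _).2 hpP)
      have hJ1 : J = ⊤ := eq_top_of_absNorm_mul (by rw [e]; exact pow_ne_zero 2 hp.ne_zero)
        (by rw [← hJ, q.absNorm_natCast, e])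
      rw [hJ1, Ideal.mul_top] at hJ
      have hmem : (x : O) + (y : O) * q.θ ∈ span {(p : O)} :=
        hJ ▸ hle (Ideal.mem_span_singleton_self _)
      obtain ⟨γ, hγ⟩ := Ideal.mem_span_singleton.1 hmem
      obtain ⟨u, v, rfl⟩ := q.exists_eq γ
      rw [show (p : O) * ((u : O) + (v : O) * q.θ) =
        (((p : ℤ) * u : ℤ) : O) + (((p : ℤ) * v : ℤ) : O) * q.θ by push_cast; ring] at hγ
      have e0 := congrArg (fun a => q.basis.repr a 0) hγ
      have e1 := congrArg (fun a => q.basis.repr a 1) hγ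
      simp only [(q.repr_add_mul _ _).1] at e0
      simp only [(q.repr_add_mul _ _).2] at e1
      have hu : IsCoprime x y := ⟨s', q'', hsq⟩
      exact (Nat.prime_iff_prime_int.1 hp).not_isUnit (hu.isUnit_of_dvd' ⟨u, e0⟩ ⟨v, e1⟩)
    refine ⟨p, hp, hN1, hco.of_isCoprime_of_dvd_left ?_, hle hsd⟩
    rw [← hN1]
    exact_mod_cast absNorm_dvd_absNorm_of_le hle
  obtain ⟨hX, -⟩ := X0_prod q h (normalizedFactors I) hM
  have hprod : ((normalizedFactors I).map absNorm).prod = absNorm I := by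
    conv_rhs => rw [← Ideal.prod_normalizedFactors_eq_self hI0, map_multiset_prod]
  rw [idealSymb, ← hX, hprod, ha, ← hf z hz Q1 hQ1f (ha ▸ hco),
    show BQF.mkClass Q1 hQ1f = BQF.mkClass Q0 hQ0f from
      ((BQF.mkClass_eq hQ0f hQ1f).2 ⟨x, q', y, s', hdet, hQ1⟩).symm,
    hf z hz Q0 hQ0f isCoprime_one_left]
  exact X0_one

/-- The symbol of a good principal ideal vanishes. -/
theorem idealSymb_principal (h : GoodCubic F Δ) {z : ℤ × ℤ} (hz : Usable F z) {I : Ideal O}
    (hI : I.IsPrincipal) (hg : GoodIdeal F Δ z I) : idealSymb q F z I = 0 := by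
  obtain ⟨α, rfl⟩ := hI
  obtain ⟨x, y, rfl⟩ := q.exists_eq α
  change GoodIdeal F Δ z (span {_}) at hg
  change idealSymb q F z (span {_}) = 0
  have hne : Int.gcd x y ≠ 0 := by
    intro e
    obtain ⟨rfl, rfl⟩ := Int.gcd_eq_zero_iff.1 e
    exact hg.1 (by simp)
  obtain ⟨x', y', hco, hx, hy⟩ := Int.exists_gcd_one (Nat.pos_of_ne_zero hne)
  set g := Int.gcd x y with hgdef
  have hfac : span {((x : O) + (y : O) * q.θ)} =
      span {(g : O)} * span {((x' : O) + (y' : O) * q.θ)} := by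
    rw [Ideal.span_singleton_mul_span_singleton, hx, hy]
    push_cast
    ring_nf
  rw [hfac] at hg ⊢
  obtain ⟨hgg, hgp⟩ := GoodIdeal.mul_iff.1 hg
  have hgco : IsCoprime (g : ℤ) (bad F Δ z) := by
    refine hgg.2.of_isCoprime_of_dvd_left ?_
    rw [q.absNorm_natCast]
    exact ⟨(g : ℤ), by push_cast; ring⟩
  rw [idealSymb_mul q hgg.1 hgp.1, idealSymb_natCast q h hne hgco,
    idealSymb_primitive q h hz (Int.isCoprime_iff_gcd_eq_one.2 hco) hgp, add_zero]

/-- Every class contains an ideal of norm prime to a given integer. -/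
theorem exists_coprime_rep (q : QuadData O Δ) {N : ℤ} (hN : N.natAbs ≠ 1) (hN0 : N ≠ 0)
    (C : ClassGroup O) :
    ∃ J : Ideal O, ∃ hJ : J ≠ 0, IsCoprime (absNorm J : ℤ) N ∧
      ClassGroup.mk0 ⟨J, mem_nonZeroDivisors_of_ne_zero hJ⟩ = C := by
  obtain ⟨⟨I, hI⟩, hIC⟩ := ClassGroup.mk0_surjective C⁻¹
  have hI0 : I ≠ 0 := nonZeroDivisors.ne_zero hI
  set S := span {(N : O)} with hS
  have hSN : absNorm S = N.natAbs ^ 2 := q.absNorm_intCast N
  have hS0 : S ≠ 0 := fun e => by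
    rw [e, Ideal.zero_eq_bot, Ideal.absNorm_bot] at hSN
    exact pow_ne_zero 2 (Int.natAbs_ne_zero.2 hN0) hSN.symm
  obtain ⟨α, hα⟩ := IsDedekindDomain.exists_sup_span_eq (Ideal.mul_le_left : I * S ≤ I)
    (mul_ne_zero hI0 hS0)
  have hle : span {α} ≤ I := le_sup_right.trans hα.le
  obtain ⟨J, hJ⟩ := Ideal.dvd_iff_le.2 hle
  have hcop : S ⊔ J = ⊤ := by
    rw [hJ, ← Ideal.mul_sup] at hα
    exact mul_left_cancel₀ hI0 (by rw [hα, Ideal.mul_top])
  have hJ0 : J ≠ 0 := by
    intro e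
    rw [e, Ideal.zero_eq_bot, sup_bot_eq] at hcop
    rw [absNorm_eq_one_iff.2 hcop] at hSN
    exact hN ((Nat.pow_eq_one.1 hSN.symm).resolve_right (by norm_num))
  refine ⟨J, hJ0, ?_, ?_⟩
  · refine (Int.isCoprime_iff_gcd_eq_one.2 ?_)
    by_contra hne
    obtain ⟨l, hl, hld⟩ := Nat.exists_prime_and_dvd hne
    have hlJ : l ∣ absNorm J := Int.natCast_dvd_natCast.1
      ((Int.natCast_dvd_natCast.2 hld).trans (Int.gcd_dvd_left _ _))
    have hlN : (l : ℤ) ∣ N := (Int.natCast_dvd_natCast.2 hld).trans (Int.gcd_dvd_right _ _)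
    have hprod : ((normalizedFactors J).map absNorm).prod = absNorm J := by
      conv_rhs => rw [← Ideal.prod_normalizedFactors_eq_self hJ0, map_multiset_prod]
    rw [← hprod] at hlJ
    obtain ⟨a, ha, hla⟩ := Prime.exists_mem_multiset_dvd hl.prime hlJ
    obtain ⟨P, hP, rfl⟩ := Multiset.mem_map.1 ha
    obtain ⟨hPpr, hP0, hPle⟩ := normalizedFactors_data hP
    obtain ⟨p, hp, hpP, hNP⟩ := q.prime_absNorm hP0
    have hlp : l = p := by
      rcases hNP with e | e <;> rw [e] at hla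
      · exact (Nat.prime_dvd_prime_iff_eq hl hp).1 hla
      · exact (Nat.prime_dvd_prime_iff_eq hl hp).1 (hl.dvd_of_dvd_pow hla)
    have hNmem : (N : O) ∈ P := by
      obtain ⟨c, rfl⟩ := hlN
      push_cast
      exact P.mul_mem_right _ (hlp ▸ hpP)
    have : S ⊔ J ≤ P := sup_le ((span_singleton_le_iff_mem _).2 hNmem) hPle
    exact hPpr.ne_top (eq_top_iff.2 (hcop ▸ this))
  · have hprin : ClassGroup.mk0 (⟨I, hI⟩ * ⟨J, mem_nonZeroDivisors_of_ne_zero hJ0⟩) = 1 :=
      (ClassGroup.mk0_eq_one_iff (mul_mem hI (mem_nonZeroDivisors_of_ne_zero hJ0))).2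
        ⟨α, hJ.symm⟩
    rw [map_mul, hIC, inv_mul_eq_one] at hprin
    exact hprin.symm

theorem natAbs_bad_ne_one (F : Cubic) (Δ : ℤ) (z : ℤ × ℤ) (K : ℤ) :
    (bad F Δ z * K).natAbs ≠ 1 := by
  intro e
  have h2 : (2 : ℤ) ∣ bad F Δ z * K := ⟨3 * Δ * F.at' z * F.hess z * K, by rw [bad]; ring⟩
  omega

/-- The character attached to a usable vector. -/
theorem exists_idealHom (h : GoodCubic F Δ) {z : ℤ × ℤ} (hz : Usable F z) :
    ∃ X : ClassGroup O →* Multiplicative (ZMod 3), ∀ (I : Ideal O) (hI : I ≠ 0),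
      GoodIdeal F Δ z I →
        X (ClassGroup.mk0 ⟨I, mem_nonZeroDivisors_of_ne_zero hI⟩) =
          Multiplicative.ofAdd (idealSymb q F z I) := by
  classical
  have hb := bad_ne_zero h hz
  have hrep : ∀ C : ClassGroup O, ∃ J : Ideal O, ∃ hJ : J ≠ 0, GoodIdeal F Δ z J ∧
      ClassGroup.mk0 ⟨J, mem_nonZeroDivisors_of_ne_zero hJ⟩ = C := fun C => by
    obtain ⟨J, hJ0, hco, hC⟩ :=
      exists_coprime_rep q (by simpa using natAbs_bad_ne_one F Δ z 1) hb C
    exact ⟨J, hJ0, ⟨hJ0, hco⟩, hC⟩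
  choose rep hr0 hrg hrC using hrep
  -- two ideals with inverse classes
  have key : ∀ (I J : Ideal O) (hI : I ≠ 0) (hJ : J ≠ 0), GoodIdeal F Δ z I →
      GoodIdeal F Δ z J →
      ClassGroup.mk0 ⟨I, mem_nonZeroDivisors_of_ne_zero hI⟩ *
        ClassGroup.mk0 ⟨J, mem_nonZeroDivisors_of_ne_zero hJ⟩ = 1 →
      idealSymb q F z I + idealSymb q F z J = 0 := by
    intro I J hI hJ hgI hgJ e
    rw [← map_mul, ClassGroup.mk0_eq_one_iff] at e
    rw [← idealSymb_mul q hI hJ]
    exact idealSymb_principal q h hz e (GoodIdeal.mul_iff.2 ⟨hgI, hgJ⟩)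
  let g : ClassGroup O → ZMod 3 := fun C => idealSymb q F z (rep C)
  have hg : ∀ (I : Ideal O) (hI : I ≠ 0), GoodIdeal F Δ z I →
      g (ClassGroup.mk0 ⟨I, mem_nonZeroDivisors_of_ne_zero hI⟩) = idealSymb q F z I := by
    intro I hI hgI
    set C := ClassGroup.mk0 ⟨I, mem_nonZeroDivisors_of_ne_zero hI⟩
    have e1 := key I (rep C⁻¹) hI (hr0 _) hgI (hrg _) (by rw [hrC, mul_inv_cancel])
    have e2 := key (rep C) (rep C⁻¹) (hr0 _) (hr0 _) (hrg _) (hrg _)
      (by rw [hrC, hrC, mul_inv_cancel])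
    exact add_right_cancel (e2.trans e1.symm)
  have hmul : ∀ A B : ClassGroup O, g (A * B) = g A + g B := by
    intro A B
    have hAB : rep A * rep B ≠ 0 := mul_ne_zero (hr0 A) (hr0 B)
    have hC : ClassGroup.mk0 ⟨rep A * rep B, mem_nonZeroDivisors_of_ne_zero hAB⟩ = A * B := by
      conv_rhs => rw [← hrC A, ← hrC B, ← map_mul]
      rfl
    rw [← hC, hg _ hAB (GoodIdeal.mul_iff.2 ⟨hrg A, hrg B⟩), idealSymb_mul q (hr0 A) (hr0 B)]
  refine ⟨MonoidHom.mk' (fun C => Multiplicative.ofAdd (g C)) fun A B => ?_, fun I hI hgI => ?_⟩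
  · rw [hmul, ofAdd_add]
  · simp only [MonoidHom.mk'_apply, hg I hI hgI]

omit [Module.Finite ℤ O] in
/-- Different usable vectors give the same symbol on ideals good for both. -/
theorem idealSymb_congr (h : GoodCubic F Δ) {u z : ℤ × ℤ} {I : Ideal O} (hu : GoodIdeal F Δ u I)
    (hz : GoodIdeal F Δ z I) : idealSymb q F u I = idealSymb q F z I := by
  refine congrArg Multiset.sum (Multiset.map_congr rfl fun P hP => ?_)
  obtain ⟨hPpr, hP0, hle⟩ := normalizedFactors_data hP
  unfold primeSymb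
  split_ifs with hp
  · have hd : (absNorm P : ℤ) ∣ (absNorm I : ℤ) := by
      exact_mod_cast absNorm_dvd_absNorm_of_le hle
    exact X0_eq h (hz.2.of_isCoprime_of_dvd_left hd) (hu.2.of_isCoprime_of_dvd_left hd)
      (q.dvd_sq_sub hp rfl (q.exists_residue hp rfl).choose_spec)
  · rfl

/-- The cubic character of the class group: trivial at a good degree-one prime exactly when the
cubic has a zero modulo that prime. -/
theorem exists_classGroupChar (h : GoodCubic F Δ) (q : QuadData O Δ) :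
    ∃ X : ClassGroup O →* Multiplicative (ZMod 3),
      ∀ (P : Ideal O) (hP0 : P ≠ 0) (p : ℕ), p.Prime → absNorm P = p → ¬ (p : ℤ) ∣ 6 * Δ →
        (X (ClassGroup.mk0 ⟨P, mem_nonZeroDivisors_of_ne_zero hP0⟩) = 1 ↔ F.HasRoot p) := by
  obtain ⟨z₀, h₀, -⟩ := h.exists_usable Nat.prime_five (by norm_num)
  obtain ⟨X, hX⟩ := exists_idealHom q h h₀
  refine ⟨X, fun P hP0 p hp hN hpD => ?_⟩
  have := Fact.mk hp
  have hpz := Nat.prime_iff_prime_int.1 hp
  have h5 : 5 ≤ p := by
    have h2 : p ≠ 2 := fun e => hpD (e ▸ ⟨3 * Δ, by push_cast; ring⟩)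
    have h3 : p ≠ 3 := fun e => hpD (e ▸ ⟨2 * Δ, by push_cast; ring⟩)
    have h4 : p ≠ 4 := fun e => by subst e; norm_num at hp
    have := hp.two_le
    omega
  obtain ⟨z, hz, hga⟩ := h.exists_goodAt hp h5 fun e => hpD (e.mul_left 6)
  obtain ⟨Xz, hXz⟩ := exists_idealHom q h hz
  have heq : X = Xz := by
    ext C
    obtain ⟨J, hJ0, hco, rfl⟩ := exists_coprime_rep q (natAbs_bad_ne_one F Δ z₀ (bad F Δ z))
      (mul_ne_zero (bad_ne_zero h h₀) (bad_ne_zero h hz)) C
    rw [IsCoprime.mul_right_iff] at hco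
    rw [hX J hJ0 ⟨hJ0, hco.1⟩, hXz J hJ0 ⟨hJ0, hco.2⟩,
      idealSymb_congr q h ⟨hJ0, hco.1⟩ ⟨hJ0, hco.2⟩]
  have hbad : IsCoprime (p : ℤ) (bad F Δ z) := by
    rw [Prime.coprime_iff_not_dvd hpz, bad]
    intro e
    rcases hpz.dvd_or_dvd e with e | e
    · rcases hpz.dvd_or_dvd e with e | e
      · exact hpD e
      · exact hga.val0 e
    · exact hga.hess0 e
  obtain ⟨r, hr⟩ := q.exists_residue hp hN
  have : P.IsPrime := isPrime_of_irreducible_absNorm (by rw [hN]; exact hp)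
  rw [heq, hXz P hP0 ⟨hP0, by rwa [hN]⟩, idealSymb_prime q hP0,
    primeSymb_eq q h hp hN hbad hr, ofAdd_eq_one, X0, Int.natAbs_natCast, symb_prime hp,
    cubicSymbol_eq_zero_iff hga (q.dvd_sq_sub hp hN hr)]

end Fermat.Agent.DihedralTwo
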