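import Fermat.Agent.DihedralTwo.Reciprocity

/-!
Cubic Jacobi symbols over a rational modulus, their duals, and the reciprocity law
`(A / m)₃ = (m / A)₃` for a primitive primary `A` and a rational `m`.
-/

set_option autoImplicit false

noncomputable section

namespace Fermat.Agent.DihedralTwo

/-- The Jacobi symbol `(z / m)₃` for a rational modulus `m`. -/
def symb (m : ℕ) (z : Eis) : ZMod 3 :=
  (m.primeFactorsList.map fun q => cubicSymbol q z).sum

/-- The symbol `(n / A)₃` read in `ℤ[ω]/A ≅ ℤ/N`, `ω ↦ w`. -/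
def dualSymb (N : ℕ) (w : ℤ) (n : ℤ) : ZMod 3 :=
  (N.primeFactorsList.map fun p => resSymbol p (w : ZMod p) n).sum

theorem int_prime_not_dvd_of_coprime {q : ℕ} (hq : q.Prime) {a b : ℤ} (h : IsCoprime a b)
    (hb : (q : ℤ) ∣ b) : ¬ (q : ℤ) ∣ a := fun ha => by
  have := h.isUnit_of_dvd' ha hb
  rw [Int.isUnit_iff_natAbs_eq, Int.natAbs_natCast] at this
  exact hq.ne_one this

theorem sum_map_add {l : List ℕ} {f g h : ℕ → ZMod 3} (he : ∀ x ∈ l, f x = g x + h x) :
    (l.map f).sum = (l.map g).sum + (l.map h).sum := by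
  induction l with
  | nil => simp
  | cons a t ih =>
    simp only [List.map_cons, List.sum_cons, he a (by simp),
      ih fun x hx => he x (List.mem_cons_of_mem _ hx)]
    ring

theorem sum_map_eq_zero {l : List ℕ} {f : ℕ → ZMod 3} (he : ∀ x ∈ l, f x = 0) :
    (l.map f).sum = 0 := by
  induction l with
  | nil => simp
  | cons a t ih =>
    simp [he a (by simp), ih fun x hx => he x (List.mem_cons_of_mem _ hx)]

/-- Conditions on a modulus `m` and an element `z` for the symbol to be meaningful. -/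
def Adm (m : ℕ) (z : Eis) : Prop := m ≠ 0 ∧ IsCoprime z.norm (m : ℤ) ∧ ¬ 3 ∣ m

theorem Adm.prime {m : ℕ} {z : Eis} (h : Adm m z) {q : ℕ} (hq : q ∈ m.primeFactorsList) :
    q.Prime ∧ q ≠ 3 ∧ ¬ (q : ℤ) ∣ z.norm := by
  obtain ⟨hp, hd⟩ := (Nat.mem_primeFactorsList h.1).1 hq
  exact ⟨hp, fun h3 => h.2.2 (h3 ▸ hd),
    int_prime_not_dvd_of_coprime hp h.2.1 (Int.natCast_dvd_natCast.2 hd)⟩

theorem symb_mul {m : ℕ} {a b : Eis} (ha : Adm m a) (hb : Adm m b) :
    symb m (a * b) = symb m a + symb m b := by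
  refine sum_map_add fun q hq => ?_
  obtain ⟨hp, h3, hqa⟩ := ha.prime hq
  have := Fact.mk hp
  exact cubicSymbol_mul h3 hqa (hb.prime hq).2.2

theorem symb_mul_modulus {m n : ℕ} (hm : m ≠ 0) (hn : n ≠ 0) (z : Eis) :
    symb (m * n) z = symb m z + symb n z := by
  rw [symb, ((Nat.perm_primeFactorsList_mul hm hn).map _).sum_eq, List.map_append,
    List.sum_append]
  rfl

theorem symb_one (z : Eis) : symb 1 z = 0 := by simp [symb]

theorem symb_congr {m : ℕ} {a b : Eis} (ha : Adm m a) (h : (m : Eis) ∣ a - b) :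
    symb m b = symb m a := by
  refine congrArg List.sum (List.map_congr_left fun q hq => ?_)
  obtain ⟨hp, h3, hqa⟩ := ha.prime hq
  have := Fact.mk hp
  exact cubicSymbol_congr h3 hqa
    ((Nat.cast_dvd_cast (Nat.dvd_of_mem_primeFactorsList hq)).trans h)

theorem symb_intCast {m : ℕ} {n : ℤ} (h : IsCoprime n (m : ℤ)) (h3 : ¬ 3 ∣ m) :
    symb m (n : Eis) = 0 := by
  refine sum_map_eq_zero fun q hq => ?_
  have hp := Nat.prime_of_mem_primeFactorsList hq
  have hd := Nat.dvd_of_mem_primeFactorsList hq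
  have := Fact.mk hp
  exact cubicSymbol_intCast (fun e => h3 (e ▸ hd))
    (int_prime_not_dvd_of_coprime hp h (Int.natCast_dvd_natCast.2 hd))

theorem symb_conj {m : ℕ} {a : Eis} (ha : Adm m a) :
    symb m (starRingEnd Eis a) = -symb m a := by
  have : ∀ l : List ℕ, (∀ q ∈ l, cubicSymbol q (starRingEnd Eis a) = -cubicSymbol q a) →
      (l.map fun q => cubicSymbol q (starRingEnd Eis a)).sum =
        -(l.map fun q => cubicSymbol q a).sum := by
    intro l hl
    induction l with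
    | nil => simp
    | cons x t ih =>
      simp only [List.map_cons, List.sum_cons, hl x (by simp),
        ih fun y hy => hl y (List.mem_cons_of_mem _ hy)]
      ring
  refine this _ fun q hq => ?_
  obtain ⟨hp, h3, hqa⟩ := ha.prime hq
  have := Fact.mk hp
  exact cubicSymbol_conj h3 hqa

/-! ### Primitive primary elements -/

/-- Data making `ℤ[ω]/A ≅ ℤ/N` with `ω ↦ w`: `A` is primitive and primary, `N ∣ A(w)`. -/
structure PrimData (A : Eis) (N : ℕ) (w : ℤ) : Prop where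
  norm_eq : A.norm = N
  prim : IsCoprime A.re A.im
  im3 : (3 : ℤ) ∣ A.im
  ker : (N : ℤ) ∣ A.re + w * A.im

theorem PrimData.re3 {A : Eis} {N : ℕ} {w : ℤ} (h : PrimData A N w) : ¬ (3 : ℤ) ∣ A.re :=
  int_prime_not_dvd_of_coprime Nat.prime_three h.prim (by exact_mod_cast h.im3)

theorem PrimData.ne_zero {A : Eis} {N : ℕ} {w : ℤ} (h : PrimData A N w) : N ≠ 0 := by
  rintro rfl
  have h3 := three_dvd_im_iff A h.im3 h.re3
  rw [h.norm_eq] at h3
  exact h3 (by simp)

theorem coprime_im_norm {A : Eis} (h : IsCoprime A.re A.im) : IsCoprime A.im A.norm := by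
  rw [eis_norm]
  have h2 : IsCoprime A.im (A.re ^ 2) := h.symm.pow_right
  rw [show A.re ^ 2 - A.re * A.im + A.im ^ 2 = A.re ^ 2 + A.im * (A.im - A.re) by ring]
  exact h2.add_mul_left_right _

theorem exists_primData {A : Eis} (h : IsCoprime A.re A.im) (h3 : (3 : ℤ) ∣ A.im) :
    ∃ w : ℤ, PrimData A A.norm.natAbs w := by
  have hN : (A.norm.natAbs : ℤ) = A.norm := Int.natAbs_of_nonneg (by
    rw [eis_norm]; nlinarith [sq_nonneg (2 * A.re - A.im), sq_nonneg A.im])
  obtain ⟨u, v, huv⟩ := coprime_im_norm h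
  exact ⟨-A.re * u, hN.symm, h, h3, ⟨A.re * v, by rw [hN]; linear_combination (-A.re) * huv⟩⟩

theorem PrimData.omega {A : Eis} {N : ℕ} {w : ℤ} (h : PrimData A N w) :
    (N : ℤ) ∣ w * w + w + 1 := by
  have hco : IsCoprime (N : ℤ) (A.im ^ 2) := by
    rw [← h.norm_eq]; exact (coprime_im_norm h.prim).symm.pow_right
  obtain ⟨t, ht⟩ := h.ker
  refine hco.dvd_of_dvd_mul_left ⟨t * (w * A.im - A.re + A.im) + 1, ?_⟩
  have hn := h.norm_eq
  rw [eis_norm] at hn
  linear_combination (w * A.im - A.re + A.im) * ht + hn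

theorem PrimData.prime {A : Eis} {N : ℕ} {w : ℤ} (h : PrimData A N w) {p : ℕ} (hp : p.Prime)
    (hpN : p ∣ N) : p % 3 = 1 ∧ IsOmega (w : ZMod p) := by
  have := Fact.mk hp
  have hw : IsOmega (w : ZMod p) := by
    have := (ZMod.intCast_zmod_eq_zero_iff_dvd _ p).2
      ((Int.natCast_dvd_natCast.2 hpN).trans h.omega)
    push_cast at this
    unfold IsOmega
    linear_combination this
  refine ⟨?_, hw⟩
  have hp3 : p ≠ 3 := by
    rintro rfl
    have h3 := three_dvd_im_iff A h.im3 h.re3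
    rw [h.norm_eq] at h3
    exact h3 (by exact_mod_cast hpN)
  have h30 : (3 : ZMod p) ≠ 0 := fun e => hp3 ((Nat.prime_dvd_prime_iff_eq hp Nat.prime_three).1
    ((ZMod.natCast_eq_zero_iff 3 p).1 (by exact_mod_cast e)))
  have hord : orderOf (w : ZMod p) = 3 := orderOf_eq_prime hw.cube (hw.ne_one h30)
  have := ZMod.orderOf_dvd_card_sub_one hw.ne_zero
  rw [hord] at this
  have := hp.two_le
  omega

theorem dualSymb_mul {A : Eis} {N : ℕ} {w : ℤ} (h : PrimData A N w) {a b : ℤ}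
    (ha : IsCoprime a (N : ℤ)) (hb : IsCoprime b (N : ℤ)) :
    dualSymb N w (a * b) = dualSymb N w a + dualSymb N w b := by
  refine sum_map_add fun p hpm => ?_
  have hp := Nat.prime_of_mem_primeFactorsList hpm
  have hd := Nat.dvd_of_mem_primeFactorsList hpm
  have := Fact.mk hp
  obtain ⟨h1, h2⟩ := h.prime hp hd
  refine resSymbol_mul h1 h2 ?_ ?_ <;>
    rw [Ne, ZMod.intCast_zmod_eq_zero_iff_dvd] <;>
    exact int_prime_not_dvd_of_coprime hp ‹_› (Int.natCast_dvd_natCast.2 hd)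

theorem dualSymb_neg {A : Eis} {N : ℕ} {w : ℤ} (h : PrimData A N w) {a : ℤ}
    (ha : IsCoprime a (N : ℤ)) : dualSymb N w (-a) = dualSymb N w a := by
  refine congrArg List.sum (List.map_congr_left fun p hpm => ?_)
  have hp := Nat.prime_of_mem_primeFactorsList hpm
  have hd := Nat.dvd_of_mem_primeFactorsList hpm
  have := Fact.mk hp
  obtain ⟨h1, h2⟩ := h.prime hp hd
  have ha0 : (a : ZMod p) ≠ 0 := by
    rw [Ne, ZMod.intCast_zmod_eq_zero_iff_dvd]
    exact int_prime_not_dvd_of_coprime hp ha (Int.natCast_dvd_natCast.2 hd)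
  refine resSymbol_eq h1 h2 (by push_cast; exact neg_ne_zero.2 ha0) ?_
  push_cast
  have he : Even ((p - 1) / 3) := by
    have hodd : Odd p := hp.odd_of_ne_two (by omega)
    obtain ⟨t, ht⟩ := hodd
    exact ⟨(p - 1) / 6, by omega⟩
  rw [he.neg_pow, resSymbol_spec h1 h2 ha0]

theorem dualSymb_congr {N : ℕ} {w : ℤ} {a b : ℤ} (h : (N : ℤ) ∣ a - b) :
    dualSymb N w a = dualSymb N w b := by
  refine congrArg List.sum (List.map_congr_left fun p hpm => ?_)
  have : (a : ZMod p) = b := ((ZMod.intCast_eq_intCast_iff_dvd_sub b a p).2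
    ((Int.natCast_dvd_natCast.2 (Nat.dvd_of_mem_primeFactorsList hpm)).trans h)).symm
  rw [resSymbol, resSymbol]
  simp only [this]

theorem dualSymb_cube {A : Eis} {N : ℕ} {w : ℤ} (h : PrimData A N w) {a : ℤ}
    (ha : IsCoprime a (N : ℤ)) : dualSymb N w (a ^ 3) = 0 := by
  rw [pow_three, dualSymb_mul h ha (ha.mul_left ha), dualSymb_mul h ha ha]
  generalize dualSymb N w a = x
  revert x; decide

/-- A root modulo the norm of a product is a root for each primitive factor. -/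
theorem PrimData.of_mul {A B C : Eis} {N M : ℕ} {w : ℤ} (h : PrimData C N w) (hC : C = A * B)
    (hA : A.norm = M) (hMN : M ∣ N) (hp : IsCoprime A.re A.im) (h3 : (3 : ℤ) ∣ A.im) :
    PrimData A M w := by
  refine ⟨hA, hp, h3, ?_⟩
  obtain ⟨w', hw'⟩ := exists_primData hp h3
  rw [hA, Int.natAbs_natCast] at hw'
  have hNN : (M : ℤ) ∣ (N : ℤ) := Int.natCast_dvd_natCast.2 hMN
  have hker : (M : ℤ) ∣ C.re + w' * C.im := by
    have e : C.re + w' * C.im = (A.re + w' * A.im) * (B.re + w' * B.im) -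
        A.im * B.im * (w' * w' + w' + 1) := by
      rw [hC, QuadraticAlgebra.re_mul, QuadraticAlgebra.im_mul]; ring
    rw [e]
    exact dvd_sub (hw'.ker.mul_right _) (hw'.omega.mul_left _)
  have hdiff : (M : ℤ) ∣ w' - w := by
    have hco : IsCoprime (M : ℤ) C.im :=
      ((h.norm_eq ▸ coprime_im_norm h.prim).symm).of_isCoprime_of_dvd_left hNN
    refine hco.dvd_of_dvd_mul_right ?_
    have := dvd_sub hker (hNN.trans h.ker)
    rwa [show C.re + w' * C.im - (C.re + w * C.im) = (w' - w) * C.im by ring] at this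
  have := dvd_sub hw'.ker (hdiff.mul_right A.im)
  rwa [show A.re + w' * A.im - (w' - w) * A.im = A.re + w * A.im by ring] at this

/-- Reciprocity `(A / m)₃ = (m / A)₃`. -/
theorem symb_mul_dual {A : Eis} {N : ℕ} {w : ℤ} (h : PrimData A N w) {m : ℕ} (hm : m ≠ 0)
    (h3 : ¬ 3 ∣ m) (hco : IsCoprime (m : ℤ) (N : ℤ)) :
    symb m A = dualSymb N w m := by
  induction N using Nat.strong_induction_on generalizing A with
  | _ N ih =>
  rcases lt_or_ge N 2 with hN | hN
  · obtain rfl : N = 1 := by have := h.ne_zero; omega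
    have hn := h.norm_eq
    rw [eis_norm] at hn
    have him : A.im = 0 := by
      obtain ⟨t, ht⟩ := h.im3
      rcases eq_or_ne t 0 with rfl | ht0
      · simpa using ht
      · exfalso
        rw [ht] at hn
        push_cast at hn
        nlinarith [sq_nonneg (2 * A.re - 3 * t), mul_self_pos.2 ht0]
    have hA : A = (A.re : Eis) := QuadraticAlgebra.ext (by simp) (by simp [him])
    rw [hA, symb_intCast _ h3]
    · simp [dualSymb]
    · have hu : IsUnit A.re := by
        have := h.prim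
        rwa [him, isCoprime_zero_right] at this
      exact ((hu.map (Int.castRingHom ℤ)).dvd : A.re ∣ 1) |> fun hd =>
        (isCoprime_one_left (x := ((m : ℕ) : ℤ))).of_isCoprime_of_dvd_left hd
  set p := N.minFac with hp'
  have hp : p.Prime := Nat.minFac_prime (by omega)
  have hpN : p ∣ N := Nat.minFac_dvd N
  obtain ⟨N', hN'⟩ := hpN
  have := Fact.mk hp
  obtain ⟨h1, hw⟩ := h.prime hp ⟨N', hN'⟩
  obtain ⟨π, hπn, hπ3, hπw, hlaw⟩ := exists_primary_prime h1 hw
  have hpp : (p : Eis) = π * starRingEnd Eis π := by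
    rw [← norm_eq_mul_conj, hπn, Int.cast_natCast]
  have hAw : ev (w : ZMod p) hw A = 0 := by
    rw [ev_apply]
    have := (ZMod.intCast_zmod_eq_zero_iff_dvd _ p).2
      ((Int.natCast_dvd_natCast.2 ⟨N', hN'⟩ : (p : ℤ) ∣ N).trans h.ker)
    push_cast at this
    linear_combination this
  obtain ⟨A', hA'⟩ : π ∣ A := by
    obtain ⟨t, ht⟩ : (p : Eis) ∣ A * starRingEnd Eis π :=
      (natCast_dvd_iff_ev hw (by omega) _).2
        ⟨by rw [map_mul, hAw, zero_mul], by rw [map_mul, ev_sq_conj hw, hπw, mul_zero]⟩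
    have hπ0 : starRingEnd Eis π ≠ 0 := by
      intro e
      rw [e, mul_zero] at hpp
      have h0 := congrArg QuadraticAlgebra.norm hpp
      rw [QuadraticAlgebra.norm_natCast, QuadraticAlgebra.norm_zero] at h0
      exact hp.ne_zero (by exact_mod_cast (pow_eq_zero_iff two_ne_zero).1 h0)
    refine ⟨t, mul_right_cancel₀ hπ0 ?_⟩
    rw [ht, hpp]; ring
  have hre : A.re = π.re * A'.re - π.im * A'.im := by
    rw [hA', QuadraticAlgebra.re_mul]; ring
  have him : A.im = π.re * A'.im + π.im * A'.re - π.im * A'.im := by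
    rw [hA', QuadraticAlgebra.im_mul]; ring
  have hπre : ¬ (3 : ℤ) ∣ π.re := fun hd =>
    h.re3 (hre ▸ dvd_sub (hd.mul_right _) (hπ3.mul_right _))
  have hd' : PrimData A' N' w := by
    refine h.of_mul (B := π) (by rw [hA', mul_comm]) ?_ ⟨p, by rw [hN']; ring⟩ ?_ ?_
    · have := h.norm_eq
      rw [hA', map_mul, hπn, hN', Nat.cast_mul] at this
      exact mul_left_cancel₀ (by exact_mod_cast hp.ne_zero) this
    · obtain ⟨u, v, huv⟩ := h.prim
      exact ⟨u * π.re + v * π.im, -u * π.im + v * π.re - v * π.im, by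
        rw [hre, him] at huv; linear_combination huv⟩
    · have : (3 : ℤ) ∣ π.re * A'.im := by
        have e : π.re * A'.im = A.im - π.im * A'.re + π.im * A'.im := by rw [him]; ring
        rw [e]
        exact dvd_add (dvd_sub h.im3 (hπ3.mul_right _)) (hπ3.mul_right _)
      exact (Int.prime_three.dvd_or_dvd this).resolve_left hπre
  have hlt : N' < N := by
    have := hd'.ne_zero
    rw [hN']; exact lt_mul_left (by omega) hp.one_lt
  have hco' : IsCoprime (m : ℤ) (N' : ℤ) :=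
    hco.of_isCoprime_of_dvd_right ⟨p, by rw [hN']; push_cast; ring⟩
  have hcop : IsCoprime (m : ℤ) (p : ℤ) :=
    hco.of_isCoprime_of_dvd_right ⟨N', by rw [hN']; push_cast; ring⟩
  have hAdmπ : Adm m π := ⟨hm, hπn ▸ hcop.symm, h3⟩
  have hAdm' : Adm m A' := ⟨hm, hd'.norm_eq ▸ hco'.symm, h3⟩
  rw [hA', symb_mul hAdmπ hAdm', ih N' hlt hd' hco']
  conv_rhs => rw [dualSymb, hN',
    ((Nat.perm_primeFactorsList_mul hp.ne_zero hd'.ne_zero).map _).sum_eq,
    List.map_append, List.sum_append, Nat.primeFactorsList_prime hp]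
  simp only [List.map_cons, List.map_nil, List.sum_cons, List.sum_nil, add_zero]
  congr 1
  have key : ∀ l : List ℕ, (∀ q ∈ l, q.Prime ∧ q ≠ 3 ∧ q ≠ p) →
      (l.map fun q => cubicSymbol q π).sum = resSymbol p (w : ZMod p) (l.prod : ℕ) := by
    intro l hl
    induction l with
    | nil =>
      refine (resSymbol_eq h1 hw (by simp) ?_).symm
      simp
    | cons q t iht =>
      obtain ⟨hq, hq3, hqp⟩ := hl q (by simp)
      have ht := iht fun x hx => hl x (List.mem_cons_of_mem _ hx)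
      have hne : ∀ x : ℕ, ¬ p ∣ x → ((x : ℤ) : ZMod p) ≠ 0 := fun x hx => by
        rw [Int.cast_natCast, Ne, ZMod.natCast_eq_zero_iff]; exact hx
      have hpq : ¬ p ∣ q := fun e => hqp ((Nat.prime_dvd_prime_iff_eq hp hq).1 e).symm
      have hpt : ¬ p ∣ t.prod := fun e => by
        obtain ⟨x, hx, hpx⟩ := hp.prime.dvd_prod_iff.1 e
        obtain ⟨hx1, -, hx3⟩ := hl x (List.mem_cons_of_mem _ hx)
        exact hx3 ((Nat.prime_dvd_prime_iff_eq hp hx1).1 hpx).symm
      rw [List.map_cons, List.sum_cons, List.prod_cons, ht, hlaw q hq hq3 hqp, Nat.cast_mul,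
        resSymbol_mul h1 hw (hne q hpq) (hne _ hpt)]
  rw [symb, key _ fun q hq => ?_, Nat.prod_primeFactorsList hm]
  obtain ⟨hq1, hq3, hqn⟩ := hAdmπ.prime hq
  refine ⟨hq1, hq3, fun e => hqn ?_⟩
  rw [hπn, e]

theorem dualSymb_mul_modulus {M N : ℕ} (hM : M ≠ 0) (hN : N ≠ 0) (w n : ℤ) :
    dualSymb (M * N) w n = dualSymb M w n + dualSymb N w n := by
  rw [dualSymb, ((Nat.perm_primeFactorsList_mul hM hN).map _).sum_eq, List.map_append,
    List.sum_append]
  rfl

/-- The value of `(ω / q)₃`. -/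
theorem cubicSymbol_omg {q : ℕ} (hq : q.Prime) (h3 : q ≠ 3) :
    cubicSymbol q omg = (((q ^ 2 - 1) / 3 : ℕ) : ZMod 3) := by
  have := Fact.mk hq
  obtain ⟨v, hv⟩ := exists_isOmega (Kq q)
  have hn : omg.norm = 1 := by rw [eis_norm]; rfl
  refine cubicSymbol_eq h3 ?_ _ hv ?_
  · rw [hn]
    exact fun h => hq.ne_one (by
      have := Int.eq_one_of_dvd_one (Int.natCast_nonneg q) h
      exact_mod_cast this)
  rw [hv.pow_natCast]
  simp only [symbBase]
  split_ifs with hm
  · simp only [map_pow, map_mul, ev_omg, ev_conj hv]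
    obtain ⟨m, hm'⟩ : 3 ∣ q - 1 := by omega
    have hsq : q ^ 2 - 1 = 3 * m * (q + 1) := by
      rw [← hm', mul_comm]; simpa using Nat.sq_sub_sq q 1
    rw [show (q - 1) / 3 = m by omega, hsq, mul_assoc, Nat.mul_div_cancel_left _ (by norm_num),
      ← pow_mul v 2 2, ← pow_succ', ← pow_mul]
    rw [pow_eq_pow_mod _ hv.cube, pow_eq_pow_mod (m * (q + 1)) hv.cube]
    congr 1
    have : (q + 1) % 3 = 2 := by omega
    rw [Nat.mul_mod m (q + 1), this, Nat.mul_mod _ m]
    omega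
  · rw [map_pow, ev_omg]

theorem natSq_sub_one_div_three_mul {a b : ℕ} (ha : ¬ 3 ∣ a) (hb : ¬ 3 ∣ b) :
    ((((a * b) ^ 2 - 1) / 3 : ℕ) : ZMod 3) =
      (((a ^ 2 - 1) / 3 : ℕ) : ZMod 3) + (((b ^ 2 - 1) / 3 : ℕ) : ZMod 3) := by
  have h : ∀ x : ℕ, ¬ 3 ∣ x → ∃ t, x ^ 2 = 3 * t + 1 := fun x hx => by
    have hx' : x % 3 = 1 ∨ x % 3 = 2 := by omega
    have : x ^ 2 % 3 = 1 := by rcases hx' with h | h <;> rw [Nat.pow_mod, h]
    exact ⟨x ^ 2 / 3, by omega⟩
  obtain ⟨s, hs⟩ := h a ha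
  obtain ⟨t, ht⟩ := h b hb
  rw [mul_pow, hs, ht, show (3 * s + 1) * (3 * t + 1) = 3 * (3 * s * t + s + t) + 1 by ring]
  simp only [Nat.add_sub_cancel, Nat.mul_div_cancel_left _ (show 0 < 3 by norm_num)]
  push_cast
  rw [show (3 : ZMod 3) = 0 from rfl]; ring

theorem symb_omg {m : ℕ} (hm : m ≠ 0) (h3 : ¬ 3 ∣ m) :
    symb m omg = (((m ^ 2 - 1) / 3 : ℕ) : ZMod 3) := by
  induction m using Nat.recOnMul with
  | zero => exact absurd rfl hm
  | one => simp [symb]
  | prime q hq =>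
    rw [symb, Nat.primeFactorsList_prime hq]
    simp [cubicSymbol_omg hq (fun e => h3 (e ▸ dvd_rfl))]
  | mul a b iha ihb =>
    have ha : a ≠ 0 := left_ne_zero_of_mul hm
    have hb : b ≠ 0 := right_ne_zero_of_mul hm
    have ha3 : ¬ 3 ∣ a := fun h => h3 (h.mul_right b)
    have hb3 : ¬ 3 ∣ b := fun h => h3 (h.mul_left a)
    rw [symb_mul_modulus ha hb, iha ha ha3, ihb hb hb3, natSq_sub_one_div_three_mul ha3 hb3]

/-- The dual symbol of `w` itself. -/
theorem dualSymb_self {N : ℕ} {w : ℤ} (hN : N ≠ 0)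
    (h : ∀ p : ℕ, p.Prime → p ∣ N → p % 3 = 1 ∧ IsOmega (w : ZMod p)) :
    N % 3 = 1 ∧ dualSymb N w w = (((N - 1) / 3 : ℕ) : ZMod 3) := by
  induction N using Nat.recOnMul with
  | zero => exact absurd rfl hN
  | one => simp [dualSymb]
  | prime q hq =>
    have := Fact.mk hq
    obtain ⟨h1, h2⟩ := h q hq dvd_rfl
    refine ⟨h1, ?_⟩
    rw [dualSymb, Nat.primeFactorsList_prime hq]
    simp only [List.map_cons, List.map_nil, List.sum_cons, List.sum_nil, add_zero]
    exact resSymbol_eq h1 h2 h2.ne_zero (h2.pow_natCast _).symm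
  | mul a b iha ihb =>
    have ha : a ≠ 0 := left_ne_zero_of_mul hN
    have hb : b ≠ 0 := right_ne_zero_of_mul hN
    obtain ⟨ha1, ha2⟩ := iha ha fun p hp hd => h p hp (hd.mul_right b)
    obtain ⟨hb1, hb2⟩ := ihb hb fun p hp hd => h p hp (hd.mul_left a)
    refine ⟨by rw [Nat.mul_mod, ha1, hb1], ?_⟩
    rw [dualSymb_mul_modulus ha hb, ha2, hb2]
    obtain ⟨s, rfl⟩ : ∃ s, a = 3 * s + 1 := ⟨a / 3, by omega⟩
    obtain ⟨t, rfl⟩ : ∃ t, b = 3 * t + 1 := ⟨b / 3, by omega⟩
    rw [show (3 * s + 1) * (3 * t + 1) = 3 * (3 * s * t + s + t) + 1 by ring]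
    simp only [Nat.add_sub_cancel, Nat.mul_div_cancel_left _ (show 0 < 3 by norm_num)]
    push_cast
    rw [show (3 : ZMod 3) = 0 from rfl]; ring

end Fermat.Agent.DihedralTwo

end
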