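import Fermat.Agent.DihedralTwo.Jacobi

/-!
The key consequence of reciprocity, `symb_kummer_eq_zero`: vanishing of the Kummer symbol on
principal classes.
-/

set_option autoImplicit false

noncomputable section

namespace Fermat.Agent.DihedralTwo

theorem ext_eis {a b : Eis} (h1 : a.re = b.re) (h2 : a.im = b.im) : a = b :=
  QuadraticAlgebra.ext h1 h2

theorem intCast_dvd_eis {n : ℤ} {z : Eis} (h1 : n ∣ z.re) (h2 : n ∣ z.im) : (n : Eis) ∣ z := by
  obtain ⟨a, ha⟩ := h1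
  obtain ⟨b, hb⟩ := h2
  exact ⟨⟨a, b⟩, ext_eis (by simp [ha]) (by simp [hb])⟩

theorem coprime_of_forall_prime {a : ℤ} {n : ℕ}
    (h : ∀ q : ℕ, q.Prime → q ∣ n → ¬ (q : ℤ) ∣ a) : IsCoprime a (n : ℤ) := by
  rw [Int.isCoprime_iff_gcd_eq_one, Int.gcd, Int.natAbs_natCast]
  refine Nat.coprime_of_dvd fun q hq h1 h2 => h q hq h2 (Int.natCast_dvd.2 h1)

theorem dual_eq_symb_natAbs {B : Eis} {N : ℕ} {w : ℤ} (h : PrimData B N w) {n : ℤ} (hn : n ≠ 0)
    (h3 : ¬ (3 : ℤ) ∣ n) (hco : IsCoprime n (N : ℤ)) :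
    dualSymb N w n = symb n.natAbs B := by
  have h3' : ¬ 3 ∣ n.natAbs := fun e => h3 (Int.natCast_dvd.2 e)
  have hco' : IsCoprime (n.natAbs : ℤ) (N : ℤ) := by
    rcases Int.natAbs_eq n with e | e
    · rwa [← e]
    · rw [e] at hco; exact IsCoprime.neg_left_iff _ _ |>.1 hco
  rw [symb_mul_dual h (Int.natAbs_ne_zero.2 hn) h3' hco']
  rcases Int.natAbs_eq n with e | e
  · rw [← e]
  · conv_lhs => rw [e]
    rw [dualSymb_neg h hco']

theorem PrimData.norm_not_even {B : Eis} {N : ℕ} {w : ℤ} (h : PrimData B N w) : ¬ 2 ∣ N := by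
  intro h2
  have := (h.prime Nat.prime_two h2).1
  norm_num at this

theorem PrimData.norm_not_three {B : Eis} {N : ℕ} {w : ℤ} (h : PrimData B N w) : ¬ 3 ∣ N := by
  intro h3
  have := (h.prime Nat.prime_three h3).1
  norm_num at this

theorem coprime_natCast_of_prime {p N : ℕ} (hp : p.Prime) (h : ¬ p ∣ N) :
    IsCoprime ((p : ℤ)) (N : ℤ) :=
  Int.isCoprime_iff_gcd_eq_one.2 ((Nat.Prime.coprime_iff_not_dvd hp).2 h)

/-- If `B.im` is exactly divisible by `9`, then `(3 / B) = 1`. -/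
theorem dual_three_nine {B : Eis} {N : ℕ} {w : ℤ} (h : PrimData B N w) {b : ℤ}
    (hb : B.im = 9 * b) (hb3 : ¬ (3 : ℤ) ∣ b) : dualSymb N w 3 = 0 := by
  have hb0 : b ≠ 0 := fun e => hb3 (by simp [e])
  have hN : IsCoprime B.im (N : ℤ) := h.norm_eq ▸ coprime_im_norm h.prim
  have hbN : IsCoprime b (N : ℤ) := hN.of_isCoprime_of_dvd_left ⟨9, by rw [hb]; ring⟩
  have hwN : IsCoprime w (N : ℤ) := by
    obtain ⟨t, ht⟩ := h.omega
    exact ⟨-(w + 1), t, by linear_combination -ht⟩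
  have h3N : IsCoprime (3 : ℤ) (N : ℤ) := by
    simpa using coprime_natCast_of_prime Nat.prime_three h.norm_not_three
  -- the symbol of `b`
  have hdb : dualSymb N w b = 0 := by
    rw [dual_eq_symb_natAbs h hb0 hb3 hbN]
    have hn : b.natAbs ≠ 0 := Int.natAbs_ne_zero.2 hb0
    have h3b : ¬ 3 ∣ b.natAbs := fun e => hb3 (Int.natCast_dvd.2 e)
    have hco : IsCoprime B.re (b.natAbs : ℤ) :=
      h.prim.of_isCoprime_of_dvd_right ((Int.natAbs_dvd.2 dvd_rfl).trans ⟨9, by rw [hb]; ring⟩)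
    have hAdm : Adm b.natAbs (B.re : Eis) :=
      ⟨hn, by rw [QuadraticAlgebra.norm_intCast]; exact hco.pow_left, h3b⟩
    rw [symb_congr hAdm (b := B) ?_, symb_intCast hco h3b]
    rw [← Int.cast_natCast]
    refine intCast_dvd_eis (by simp) ?_
    simp only [QuadraticAlgebra.im_sub, QuadraticAlgebra.im_intCast, zero_sub, dvd_neg]
    exact (Int.natAbs_dvd.2 dvd_rfl).trans ⟨9, by rw [hb]; ring⟩
  -- the symbol of `B.re`
  have hre3 := h.re3
  have hre0 : B.re ≠ 0 := fun e => hre3 (by simp [e])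
  have hreN : IsCoprime B.re (N : ℤ) := by
    rw [← h.norm_eq, eis_norm, show B.re ^ 2 - B.re * B.im + B.im ^ 2
      = B.im ^ 2 + B.re * (B.re - B.im) by ring]
    exact (h.prim.pow_right).add_mul_left_right _
  have hre' : ¬ 3 ∣ B.re.natAbs := fun e => hre3 (Int.natCast_dvd.2 e)
  have hco : IsCoprime B.im (B.re.natAbs : ℤ) :=
    h.prim.symm.of_isCoprime_of_dvd_right (Int.natAbs_dvd.2 dvd_rfl)
  have hnr : B.re.natAbs ≠ 0 := Int.natAbs_ne_zero.2 hre0
  have hAdm1 : Adm B.re.natAbs omg :=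
    ⟨hnr, by rw [show omg.norm = 1 by rw [eis_norm]; rfl]; exact isCoprime_one_left, hre'⟩
  have hAdm2 : Adm B.re.natAbs (B.im : Eis) :=
    ⟨hnr, by rw [QuadraticAlgebra.norm_intCast]; exact hco.pow_left, hre'⟩
  have hAdm3 : Adm B.re.natAbs ((B.im : Eis) * omg) :=
    ⟨hnr, by rw [map_mul]; exact hAdm2.2.1.mul_left hAdm1.2.1, hre'⟩
  have h1 : dualSymb N w B.re = (((B.re.natAbs ^ 2 - 1) / 3 : ℕ) : ZMod 3) := by
    rw [dual_eq_symb_natAbs h hre0 hre3 hreN, symb_congr hAdm3 (b := B) ?_,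
      symb_mul hAdm2 hAdm1, symb_intCast hco hre', zero_add, symb_omg hnr hre']
    rw [← Int.cast_natCast]
    refine intCast_dvd_eis ?_ ?_ <;> simp [omg]
  -- compare through `B.re ≡ -w * B.im`
  have h2 : dualSymb N w B.re =
      (((N - 1) / 3 : ℕ) : ZMod 3) + (dualSymb N w 3 + dualSymb N w 3) := by
    rw [dualSymb_congr (b := -(w * B.im)) (by simpa [sub_neg_eq_add] using h.ker),
      dualSymb_neg h (hwN.mul_left hN), dualSymb_mul h hwN hN,
      (dualSymb_self h.ne_zero fun p hp hd => h.prime hp hd).2, hb,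
      show (9 : ℤ) * b = 3 * 3 * b by ring, dualSymb_mul h (h3N.mul_left h3N) hbN,
      dualSymb_mul h h3N h3N, hdb, add_zero]
  have h9 : (((B.re.natAbs ^ 2 - 1) / 3 : ℕ) : ZMod 3) = (((N - 1) / 3 : ℕ) : ZMod 3) := by
    rw [ZMod.natCast_eq_natCast_iff']
    have h4 : ((B.re.natAbs ^ 2 : ℕ) : ℤ) = B.re ^ 2 := by push_cast; rw [sq_abs]
    have hN9 : (9 : ℤ) ∣ (N : ℤ) - ((B.re.natAbs ^ 2 : ℕ) : ℤ) := by
      rw [h4, ← h.norm_eq, eis_norm, hb]
      exact ⟨-B.re * b + 9 * b ^ 2, by ring⟩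
    have hN0 := h.ne_zero
    have hr0 : 1 ≤ B.re.natAbs ^ 2 := Nat.one_le_pow _ _ (Nat.pos_of_ne_zero hnr)
    omega
  rw [h1, h9, left_eq_add] at h2
  revert h2
  generalize dualSymb N w 3 = x
  revert x; decide

/-- If `9 ∣ B.im`, then `(3 / B) = 1`. -/
theorem dual_three {B : Eis} {N : ℕ} {w : ℤ} (h : PrimData B N w) (h9 : (9 : ℤ) ∣ B.im) :
    dualSymb N w 3 = 0 := by
  obtain ⟨b, hb⟩ := h9
  by_cases hb3 : (3 : ℤ) ∣ b
  swap
  · exact dual_three_nine h hb hb3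
  -- multiply by an auxiliary element whose imaginary part is exactly `9`
  set B₀ : Eis := ⟨(N : ℤ), 9⟩ with hB₀
  have hp0 : IsCoprime B₀.re B₀.im := by
    have h3N : IsCoprime (3 : ℤ) (N : ℤ) := by
      simpa using coprime_natCast_of_prime Nat.prime_three h.norm_not_three
    simpa [hB₀] using (h3N.pow_left (m := 2)).symm
  obtain ⟨w₀, h0⟩ := exists_primData hp0 (by norm_num [hB₀])
  set M := B₀.norm.natAbs with hM
  have hMN : IsCoprime (M : ℤ) (N : ℤ) := by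
    rw [← h0.norm_eq, eis_norm]
    have h3N : IsCoprime (3 : ℤ) (N : ℤ) := by
      simpa using coprime_natCast_of_prime Nat.prime_three h.norm_not_three
    simp only [hB₀]
    rw [show (N : ℤ) ^ 2 - N * 9 + 9 ^ 2 = 3 ^ 4 + (N : ℤ) * ((N : ℤ) - 9) by ring]
    exact h3N.pow_left.add_mul_left_left _
  set C := B * B₀ with hC
  have hCn : C.norm = ((N * M : ℕ) : ℤ) := by
    rw [hC, map_mul, h.norm_eq, h0.norm_eq]; push_cast; ring
  have hCre : C.re = B.re * N - B.im * 9 := by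
    rw [hC, QuadraticAlgebra.re_mul, hB₀]; ring
  have hCim : C.im = B.re * 9 + B.im * N - B.im * 9 := by
    rw [hC, QuadraticAlgebra.im_mul, hB₀]; ring
  have hCp : IsCoprime C.re C.im := by
    rw [Int.isCoprime_iff_gcd_eq_one]
    by_contra hne
    obtain ⟨q, hq, hqd⟩ := Nat.exists_prime_and_dvd hne
    have hqre : (q : ℤ) ∣ C.re := (Int.natCast_dvd_natCast.2 hqd).trans (Int.gcd_dvd_left _ _)
    have hqim : (q : ℤ) ∣ C.im := (Int.natCast_dvd_natCast.2 hqd).trans (Int.gcd_dvd_right _ _)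
    have := Fact.mk hq
    have hqN : (q : ℤ) ∣ ((N * M : ℕ) : ℤ) := by
      rw [← hCn, eis_norm, pow_two, pow_two]
      exact dvd_add (dvd_sub (hqre.mul_right _) (hqre.mul_right _)) (hqim.mul_right _)
    push_cast at hqN
    rcases (Nat.prime_iff_prime_int.1 hq).dvd_or_dvd hqN with hd | hd
    · -- then `q ∤ M`, so `conj B₀` is invertible mod `q`
      have hqM : ¬ (q : ℤ) ∣ (M : ℤ) := int_prime_not_dvd_of_coprime hq hMN hd
      have key : (q : ℤ) ∣ B.re * M ∧ (q : ℤ) ∣ B.im * M := by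
        have e1 : B.re * M = C.re * ((N : ℤ) - 9) + C.im * 9 := by
          rw [← h0.norm_eq, eis_norm, hCre, hCim]; simp [hB₀]; ring
        have e2 : B.im * M = C.im * (N : ℤ) - C.re * 9 := by
          rw [← h0.norm_eq, eis_norm, hCre, hCim]; simp [hB₀]; ring
        rw [e1, e2]
        exact ⟨dvd_add (hqre.mul_right _) (hqim.mul_right _),
          dvd_sub (hqim.mul_right _) (hqre.mul_right _)⟩
      exact int_prime_not_dvd_of_coprime hq h.prim
        (((Nat.prime_iff_prime_int.1 hq).dvd_or_dvd key.2).resolve_right hqM)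
        (((Nat.prime_iff_prime_int.1 hq).dvd_or_dvd key.1).resolve_right hqM)
    · have hqN' : ¬ (q : ℤ) ∣ (N : ℤ) := int_prime_not_dvd_of_coprime hq hMN.symm hd
      have key : (q : ℤ) ∣ B₀.re * N ∧ (q : ℤ) ∣ B₀.im * N := by
        have e1 : B₀.re * N = C.re * (B.re - B.im) + C.im * B.im := by
          rw [← h.norm_eq, eis_norm, hCre, hCim]; simp [hB₀]; ring
        have e2 : B₀.im * N = C.im * B.re - C.re * B.im := by
          rw [← h.norm_eq, eis_norm, hCre, hCim]; simp [hB₀]; ring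
        rw [e1, e2]
        exact ⟨dvd_add (hqre.mul_right _) (hqim.mul_right _),
          dvd_sub (hqim.mul_right _) (hqre.mul_right _)⟩
      exact int_prime_not_dvd_of_coprime hq hp0
        (((Nat.prime_iff_prime_int.1 hq).dvd_or_dvd key.2).resolve_right hqN')
        (((Nat.prime_iff_prime_int.1 hq).dvd_or_dvd key.1).resolve_right hqN')
  have hC9 : ∃ c : ℤ, C.im = 9 * c ∧ ¬ (3 : ℤ) ∣ c := by
    refine ⟨B.re + b * N - b * 9, by rw [hCim, hb]; ring, fun hd => h.re3 ?_⟩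
    have h1 : (3 : ℤ) ∣ b * N - b * 9 := dvd_sub (hb3.mul_right _) (hb3.mul_right _)
    have := dvd_sub hd h1
    rwa [show B.re + b * N - b * 9 - (b * N - b * 9) = B.re by ring] at this
  obtain ⟨c, hc, hc3⟩ := hC9
  obtain ⟨w', hCd⟩ := exists_primData hCp (by rw [hc]; exact ⟨3 * c, by ring⟩)
  rw [hCn, Int.natAbs_natCast] at hCd
  have e0 := dual_three_nine hCd hc hc3
  have e1 := dual_three_nine h0 (b := 1) (by simp [hB₀]) (by norm_num)
  rw [dualSymb_mul_modulus h.ne_zero h0.ne_zero] at e0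
  have hB := hCd.of_mul (B := B₀) hC h.norm_eq (dvd_mul_right _ _) h.prim h.im3
  have hB0 := hCd.of_mul (B := B) (hC.trans (mul_comm _ _)) h0.norm_eq (dvd_mul_left _ _)
    hp0 h0.im3
  have hcongr : ∀ {A : Eis} {L : ℕ} {u v : ℤ}, PrimData A L u → PrimData A L v → ∀ n : ℤ,
      dualSymb L u n = dualSymb L v n := by
    intro A L u v hu hv n
    refine congrArg List.sum (List.map_congr_left fun p hpm => ?_)
    have hd := Nat.dvd_of_mem_primeFactorsList hpm
    have hL : IsCoprime (L : ℤ) A.im := hu.norm_eq ▸ (coprime_im_norm hu.prim).symm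
    have hdiff : (L : ℤ) ∣ u - v := hL.dvd_of_dvd_mul_right (by
      simpa [sub_mul] using dvd_sub hu.ker hv.ker)
    have : (u : ZMod p) = v := ((ZMod.intCast_eq_intCast_iff_dvd_sub v u p).2
      ((Int.natCast_dvd_natCast.2 hd).trans hdiff)).symm
    rw [this]
  rw [hcongr hB h, hcongr hB0 h0, e1, add_zero] at e0
  exact e0

/-- Vanishing of the Kummer symbol. `ε, ε' ∈ {1, 4}`; `G, s, c` come from the cubic form,
`(X, Y)` from a change of quadratic form. -/
theorem symb_kummer_eq_zero {G s s₁ t c Δ ε ε' X Y : ℤ} {M : ℕ}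
    (hG : G ^ 2 + 27 * s ^ 2 * Δ = ε' * c ^ 3) (hG3 : ¬ (3 : ℤ) ∣ G)
    (hs : s = s₁ * t) (ht : t = 1 ∨ t = 3) (hsY : s₁ ∣ Y) (hY3 : ¬ (3 : ℤ) ∣ Y)
    (hXY : X ^ 2 - Δ * Y ^ 2 = ε * M) (hcop : IsCoprime X Y)
    (hM : IsCoprime (M : ℤ) (6 * c)) (hM0 : M ≠ 0)
    (hε : (ε = 1 ∧ (ε' = 1 ∨ ε' = 4)) ∨ (ε = 4 ∧ ε' = 4 ∧ ¬ (2 : ℤ) ∣ Y)) :
    symb M ⟨G * Y + 3 * s * X, 6 * s * X⟩ = 0 := by
  obtain ⟨Y', hY'⟩ := hsY
  have hY'3 : ¬ (3 : ℤ) ∣ Y' := fun e => hY3 (hY' ▸ e.mul_left _)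
  have hY'0 : Y' ≠ 0 := fun e => hY'3 (by simp [e])
  have ht0 : (t : ℤ) ≠ 0 := by rcases ht with rfl | rfl <;> norm_num
  have hM2 : IsCoprime (M : ℤ) 2 := hM.of_isCoprime_of_dvd_right ⟨3 * c, by ring⟩
  have hM3' : IsCoprime (M : ℤ) 3 := hM.of_isCoprime_of_dvd_right ⟨2 * c, by ring⟩
  have hMc : IsCoprime (M : ℤ) c := hM.of_isCoprime_of_dvd_right ⟨6, by ring⟩
  have hM3 : ¬ 3 ∣ M := fun e =>
    int_prime_not_dvd_of_coprime Nat.prime_three hM3'.symm (Int.natCast_dvd_natCast.2 e) dvd_rfl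
  have hMY : IsCoprime (M : ℤ) Y := by
    refine (coprime_of_forall_prime fun q hq hqM hqY => ?_).symm
    have hX2 : (q : ℤ) ∣ X ^ 2 := by
      rw [show X ^ 2 = Δ * Y ^ 2 + ε * M by linear_combination hXY]
      exact dvd_add ((dvd_pow hqY two_ne_zero).mul_left _)
        ((Int.natCast_dvd_natCast.2 hqM).mul_left _)
    exact int_prime_not_dvd_of_coprime hq hcop hqY
      ((Nat.prime_iff_prime_int.1 hq).dvd_of_dvd_pow hX2)
  set A : Eis := ⟨G * Y' + 3 * t * X, 6 * t * X⟩ with hA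
  have hAn : A.norm = (G * Y') ^ 2 + 27 * t ^ 2 * X ^ 2 := by rw [eis_norm, hA]; ring
  have hAn' : A.norm = 27 * t ^ 2 * (ε * M) + ε' * c ^ 3 * Y' ^ 2 := by
    rw [hAn, ← hXY, hY', ← hG, hs]; ring
  have hε' : ε' = 1 ∨ ε' = 4 := by rcases hε with ⟨-, h⟩ | ⟨-, h, -⟩; exacts [h, Or.inr h]
  have hMY' : IsCoprime (M : ℤ) Y' := hMY.of_isCoprime_of_dvd_right ⟨s₁, by rw [hY']; ring⟩
  have hMε' : IsCoprime (M : ℤ) ε' := by
    rcases hε' with rfl | rfl
    · exact isCoprime_one_right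
    · exact (by simpa using hM2.pow_right (n := 2))
  have hMA : IsCoprime A.norm (M : ℤ) := by
    rw [hAn', add_comm, show 27 * t ^ 2 * (ε * (M : ℤ)) = (M : ℤ) * (27 * t ^ 2 * ε) by ring]
    exact ((hMε'.symm.mul_left hMc.symm.pow_left).mul_left hMY'.symm.pow_left).add_mul_left_left _
  -- content
  set g := Int.gcd A.re A.im with hg
  have hg0 : g ≠ 0 := by
    intro e
    rw [hg, Int.gcd_eq_zero_iff] at e
    obtain ⟨e1, e2⟩ := e
    simp only [hA] at e1 e2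
    have : X = 0 := by simpa [ht0] using e2
    rw [this, mul_zero, add_zero, mul_eq_zero] at e1
    rcases e1 with e1 | e1
    · exact hG3 (by simp [e1])
    · exact hY'0 e1
  obtain ⟨p, q, hpq, hre, him⟩ : ∃ p q : ℤ, IsCoprime p q ∧ A.re = g * p ∧ A.im = g * q := by
    obtain ⟨p, hp⟩ := Int.gcd_dvd_left A.re A.im
    obtain ⟨q, hq⟩ := Int.gcd_dvd_right A.re A.im
    refine ⟨p, q, ?_, by rw [hg]; exact hp, by rw [hg]; exact hq⟩
    obtain ⟨u, v, huv⟩ : ∃ u v : ℤ, (g : ℤ) = A.re * u + A.im * v :=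
      ⟨_, _, by rw [hg]; exact Int.gcd_eq_gcd_ab _ _⟩
    rw [← hg] at hp hq
    refine ⟨u, v, mul_left_cancel₀ (Int.natCast_ne_zero.2 hg0) ?_⟩
    rw [hp, hq] at huv
    linear_combination -huv
  set B : Eis := ⟨p, q⟩ with hB
  have hAB : A = (g : Eis) * B := by
    apply ext_eis <;> simp [hre, him, hB]
  have hAre3 : ¬ (3 : ℤ) ∣ A.re := by
    intro e
    have : (3 : ℤ) ∣ G * Y' := by
      have := dvd_sub e (Dvd.intro (t * X) rfl : (3 : ℤ) ∣ 3 * (t * X))
      simpa [hA, mul_assoc] using this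
    exact (Int.prime_three.dvd_or_dvd this).elim hG3 hY'3
  have hg3 : ¬ (3 : ℤ) ∣ (g : ℤ) := fun e => hAre3 (hre ▸ e.mul_right p)
  have hqim : (3 : ℤ) ∣ q := by
    have : (3 : ℤ) ∣ (g : ℤ) * q := him ▸ ⟨2 * t * X, by simp [hA]; ring⟩
    exact (Int.prime_three.dvd_or_dvd this).resolve_left hg3
  obtain ⟨w, hd⟩ := exists_primData (A := B) hpq hqim
  set N := B.norm.natAbs with hN
  have hAN : A.norm = (g : ℤ) ^ 2 * N := by
    rw [hAB, map_mul, QuadraticAlgebra.norm_natCast, hd.norm_eq]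
  have hMg : IsCoprime (g : ℤ) (M : ℤ) :=
    hMA.of_isCoprime_of_dvd_left ⟨g * N, by rw [hAN]; ring⟩
  have hMN : IsCoprime (N : ℤ) (M : ℤ) :=
    hMA.of_isCoprime_of_dvd_left ⟨(g : ℤ) ^ 2, by rw [hAN]; ring⟩
  have hAdmB : Adm M B := ⟨hM0, hd.norm_eq ▸ hMN, hM3⟩
  have hAdmg : Adm M (g : Eis) :=
    ⟨hM0, by rw [QuadraticAlgebra.norm_natCast]; exact hMg.pow_left, hM3⟩
  have hAdmA : Adm M A := ⟨hM0, hMA, hM3⟩
  have hs₁ : IsCoprime s₁ (M : ℤ) := (hMY.of_isCoprime_of_dvd_right ⟨Y', hY'⟩).symm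
  -- reduce to the primitive element
  have hbase : (⟨G * Y + 3 * s * X, 6 * s * X⟩ : Eis) = (s₁ : Eis) * A := by
    apply ext_eis <;> simp [hA, hY', hs] <;> ring
  rw [hbase, symb_mul ⟨hM0, by rw [QuadraticAlgebra.norm_intCast]; exact hs₁.pow_left, hM3⟩ hAdmA,
    symb_intCast hs₁ hM3, zero_add, hAB, symb_mul hAdmg hAdmB, ← Int.cast_natCast g,
    symb_intCast hMg hM3, zero_add, symb_mul_dual hd hM0 hM3 hMN.symm]
  -- coprimality with `N`
  have hN2 : IsCoprime (2 : ℤ) (N : ℤ) := by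
    simpa using coprime_natCast_of_prime Nat.prime_two hd.norm_not_even
  have hN3 : IsCoprime (3 : ℤ) (N : ℤ) := by
    simpa using coprime_natCast_of_prime Nat.prime_three hd.norm_not_three
  have hNε : IsCoprime ε (N : ℤ) ∧ IsCoprime ε' (N : ℤ) := by
    have h4 : IsCoprime (4 : ℤ) (N : ℤ) := by simpa using hN2.pow_left (m := 2)
    rcases hε with ⟨rfl, rfl | rfl⟩ | ⟨rfl, rfl, -⟩
    exacts [⟨isCoprime_one_left, isCoprime_one_left⟩, ⟨isCoprime_one_left, h4⟩, ⟨h4, h4⟩]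
  have hNA : (N : ℤ) ∣ 27 * t ^ 2 * (ε * M) + ε' * c ^ 3 * Y' ^ 2 :=
    ⟨(g : ℤ) ^ 2, by rw [← hAn', hAN]; ring⟩
  have hNt : IsCoprime (27 * t ^ 2) (N : ℤ) := by
    have h27 : IsCoprime (27 : ℤ) (N : ℤ) := by simpa using hN3.pow_left (m := 3)
    rcases ht with rfl | rfl
    · simpa using h27
    · exact h27.mul_left (hN3.pow_left)
  have hNL : IsCoprime (27 * t ^ 2 * (ε * M)) (N : ℤ) :=
    hNt.mul_left (hNε.1.mul_left hMN.symm)
  have hNR : IsCoprime (ε' * c ^ 3 * Y' ^ 2) (N : ℤ) := by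
    obtain ⟨r, hr⟩ := hNA
    rw [show ε' * c ^ 3 * Y' ^ 2 = -(27 * t ^ 2 * (ε * M)) + (N : ℤ) * r by linear_combination hr]
    exact hNL.neg_left.add_mul_left_left _
  have hNc : IsCoprime c (N : ℤ) :=
    hNR.of_isCoprime_of_dvd_left ⟨ε' * c ^ 2 * Y' ^ 2, by ring⟩
  have hNY : IsCoprime Y' (N : ℤ) :=
    hNR.of_isCoprime_of_dvd_left ⟨ε' * c ^ 3 * Y', by ring⟩
  -- the odd part of `Y'`
  obtain ⟨i, Z, hZ2, hZ⟩ : ∃ (i : ℕ) (Z : ℤ), ¬ (2 : ℤ) ∣ Z ∧ Y' = 2 ^ i * Z := by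
    obtain ⟨i, Z, hZ, e⟩ := Nat.exists_eq_pow_mul_and_not_dvd
      (Int.natAbs_ne_zero.2 hY'0) 2 (by norm_num)
    rcases Int.natAbs_eq Y' with h1 | h1
    · exact ⟨i, Z, by omega, by rw [h1, e]; push_cast; ring⟩
    · exact ⟨i, -(Z : ℤ), by omega, by rw [h1, e]; push_cast; ring⟩
  have hZN : IsCoprime Z (N : ℤ) := hNY.of_isCoprime_of_dvd_left ⟨2 ^ i, by rw [hZ]; ring⟩
  have hZ3 : ¬ (3 : ℤ) ∣ Z := fun e => hY'3 (hZ ▸ e.mul_left _)
  have hdZ : dualSymb N w Z = 0 := by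
    have hZ0 : Z ≠ 0 := fun e => hZ2 (by simp [e])
    have hn : Z.natAbs ≠ 0 := Int.natAbs_ne_zero.2 hZ0
    have hn3 : ¬ 3 ∣ Z.natAbs := fun e => hZ3 (Int.natCast_dvd.2 e)
    have hZY : (Z.natAbs : ℤ) ∣ Y' :=
      (Int.natAbs_dvd.2 dvd_rfl).trans ⟨2 ^ i, by rw [hZ]; ring⟩
    have hbad : ∀ q : ℕ, q.Prime → q ∣ Z.natAbs → ¬ (q : ℤ) ∣ 27 * t ^ 2 * X ^ 2 := by
      intro q hq hqZ hd'
      have hqY' : (q : ℤ) ∣ Y' := (Int.natCast_dvd_natCast.2 hqZ).trans hZY
      have hq3 : ¬ (q : ℤ) ∣ 3 := fun e => by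
        rw [show (3 : ℤ) = ((3 : ℕ) : ℤ) by norm_num, Int.natCast_dvd_natCast,
          Nat.prime_dvd_prime_iff_eq hq Nat.prime_three] at e
        exact hn3 (e ▸ hqZ)
      have hp' := Nat.prime_iff_prime_int.1 hq
      rcases hp'.dvd_or_dvd hd' with h1 | h1
      · rcases ht with rfl | rfl
        · exact hq3 (hp'.dvd_of_dvd_pow (n := 3) (by simpa using h1))
        · exact hq3 (hp'.dvd_of_dvd_pow (n := 5) (by norm_num at h1 ⊢; exact h1))
      · exact int_prime_not_dvd_of_coprime hq hcop (hY' ▸ hqY'.mul_left _)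
          (hp'.dvd_of_dvd_pow h1)
    have hAdmA' : Adm Z.natAbs A := by
      refine ⟨hn, coprime_of_forall_prime fun q hq hqZ hd' => hbad q hq hqZ ?_, hn3⟩
      have h1 : (q : ℤ) ∣ (G * Y') ^ 2 :=
        dvd_pow (((Int.natCast_dvd_natCast.2 hqZ).trans hZY).mul_left _) two_ne_zero
      have h2 := dvd_sub hd' h1
      rwa [hAn, add_sub_cancel_left] at h2
    have hAdmg' : Adm Z.natAbs (g : Eis) :=
      ⟨hn, by
        rw [QuadraticAlgebra.norm_natCast]
        exact hAdmA'.2.1.of_isCoprime_of_dvd_left ⟨N, hAN⟩, hn3⟩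
    have hAdmB' : Adm Z.natAbs B :=
      ⟨hn, hAdmA'.2.1.of_isCoprime_of_dvd_left ⟨(g : ℤ) ^ 2, by rw [hd.norm_eq, hAN]; ring⟩, hn3⟩
    set R : Eis := ⟨3 * t * X, 6 * t * X⟩ with hR
    have hRn : R.norm = 27 * t ^ 2 * X ^ 2 := by rw [eis_norm, hR]; ring
    have hAdmR : Adm Z.natAbs R :=
      ⟨hn, coprime_of_forall_prime fun q hq hqZ hd' => hbad q hq hqZ (hRn ▸ hd'), hn3⟩
    have hR0 : symb Z.natAbs R = 0 := by
      have hconj : starRingEnd Eis R = -R := by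
        apply ext_eis
        · simp [hR, starRingEnd_apply]; ring
        · simp [hR, starRingEnd_apply]
      have h2 := symb_conj hAdmR
      have hneg : symb Z.natAbs (-R) = symb Z.natAbs R := by
        have hu : Adm Z.natAbs ((-1 : ℤ) : Eis) :=
          ⟨hn, by rw [QuadraticAlgebra.norm_intCast]; simpa using isCoprime_one_left, hn3⟩
        rw [show -R = ((-1 : ℤ) : Eis) * R by simp, symb_mul hu hAdmR,
          symb_intCast (isCoprime_one_left.neg_left) hn3, zero_add]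
      rw [hconj, hneg] at h2
      revert h2
      generalize symb Z.natAbs R = x
      revert x; decide
    have hcongr : symb Z.natAbs A = symb Z.natAbs R := by
      refine symb_congr hAdmR ?_
      rw [← Int.cast_natCast]
      refine intCast_dvd_eis ?_ ?_
      · simpa [hR, hA] using (hZY.mul_left G)
      · simp [hR, hA]
    have hgc : IsCoprime (g : ℤ) (Z.natAbs : ℤ) := by
      have := hAdmg'.2.1
      rw [QuadraticAlgebra.norm_natCast] at this
      exact this.of_isCoprime_of_dvd_left (dvd_pow_self _ two_ne_zero)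
    rw [hAB, symb_mul hAdmg' hAdmB', ← Int.cast_natCast g, symb_intCast hgc hn3, zero_add,
      hR0] at hcongr
    rw [dual_eq_symb_natAbs hd hZ0 hZ3 hZN, hcongr]
  -- the symbol of `2`
  have htwo : dualSymb N w 2 = 0 ∨ (i = 0 ∧ ε = ε') := by
    by_cases hre2 : (2 : ℤ) ∣ A.re
    · right
      have hodd : ¬ (2 : ℤ) ∣ (M : ℤ) := int_prime_not_dvd_of_coprime Nat.prime_two hM2 dvd_rfl
      have hAn2 : (2 : ℤ) ∣ A.norm := by
        have him2 : (2 : ℤ) ∣ A.im := ⟨3 * t * X, by rw [hA]; ring⟩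
        rw [eis_norm, pow_two, pow_two]
        exact dvd_add (dvd_sub (hre2.mul_right _) (hre2.mul_right _)) (him2.mul_right _)
      rw [hAn'] at hAn2
      have htodd : ¬ (2 : ℤ) ∣ 27 * t ^ 2 * (1 * (M : ℤ)) := by
        intro e
        rcases Int.prime_two.dvd_or_dvd e with e1 | e1
        · rcases ht with rfl | rfl <;> norm_num at e1
        · exact hodd (by simpa using e1)
      rcases hε with ⟨rfl, rfl | rfl⟩ | ⟨rfl, rfl, hYodd⟩
      · refine ⟨?_, rfl⟩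
        by_contra hi
        have : (2 : ℤ) ∣ 1 * c ^ 3 * Y' ^ 2 := by
          rw [hZ]; exact (dvd_pow ((dvd_pow_self 2 hi).mul_right Z) two_ne_zero).mul_left _
        exact htodd ((Int.dvd_iff_dvd_of_dvd_add hAn2).2 this)
      · exfalso
        exact htodd ((Int.dvd_iff_dvd_of_dvd_add hAn2).2 ⟨2 * c ^ 3 * Y' ^ 2, by ring⟩)
      · refine ⟨?_, rfl⟩
        by_contra hi
        exact hYodd (by rw [hY', hZ]; exact ((dvd_pow_self 2 hi).mul_right _).mul_left _)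
    · left
      have hpodd : ¬ (2 : ℤ) ∣ p := fun e => hre2 (hre ▸ e.mul_left _)
      have hgodd : ¬ (2 : ℤ) ∣ (g : ℤ) := fun e => hre2 (hre ▸ e.mul_right _)
      have hqeven : (2 : ℤ) ∣ q := by
        have : (2 : ℤ) ∣ (g : ℤ) * q := him ▸ ⟨3 * t * X, by rw [hA]; ring⟩
        exact (Int.prime_two.dvd_or_dvd this).resolve_left hgodd
      have h := symb_mul_dual hd (m := 2) (by norm_num) (by norm_num) (by simpa using hN2)
      rw [show (((2 : ℕ) : ℕ) : ℤ) = 2 from rfl] at h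
      rw [← h]
      have h1 : Adm 2 (1 : Eis) :=
        ⟨by norm_num, by rw [map_one]; exact isCoprime_one_left, by norm_num⟩
      have h0 : symb 2 (1 : Eis) = 0 := by
        have := symb_mul h1 h1
        rw [one_mul] at this
        exact left_eq_add.1 this
      rw [symb_congr h1 (b := B) ?_, h0]
      rw [← Int.cast_natCast]
      refine intCast_dvd_eis ?_ ?_
      · simp only [hB, QuadraticAlgebra.re_sub, Nat.cast_ofNat]
        show (2 : ℤ) ∣ (1 : ℤ) - p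
        omega
      · simp only [hB, QuadraticAlgebra.im_sub, Nat.cast_ofNat]
        show (2 : ℤ) ∣ (0 : ℤ) - q
        omega
  -- the symbol of `3`, when needed
  have hdt : dualSymb N w (27 * t ^ 2) = 0 := by
    rcases ht with rfl | rfl
    · rw [show (27 : ℤ) * 1 ^ 2 = 3 ^ 3 by norm_num]
      exact dualSymb_cube hd hN3
    · have h9 : (9 : ℤ) ∣ B.im := by
        have h18 : (9 : ℤ) ∣ (g : ℤ) * q := him ▸ ⟨2 * X, by rw [hA]; ring⟩
        have hcop9 : IsCoprime (9 : ℤ) (g : ℤ) := by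
          have : IsCoprime (3 : ℤ) (g : ℤ) :=
            (Int.prime_three.irreducible.coprime_iff_not_dvd).2 hg3
          simpa using this.pow_left (m := 2)
        exact hcop9.dvd_of_dvd_mul_left h18
      rw [show (27 : ℤ) * 3 ^ 2 = 3 ^ 3 * 3 * 3 by norm_num,
        dualSymb_mul hd ((hN3.pow_left).mul_left hN3) hN3,
        dualSymb_mul hd hN3.pow_left hN3, dualSymb_cube hd hN3, dual_three hd h9]
      simp
  have hdY : dualSymb N w Y' = (i : ZMod 3) * dualSymb N w 2 := by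
    have hpow : ∀ j : ℕ, dualSymb N w (2 ^ j) = (j : ZMod 3) * dualSymb N w 2 := by
      intro j
      induction j with
      | zero =>
        have := dualSymb_mul hd (a := 1) (b := 1) isCoprime_one_left isCoprime_one_left
        rw [mul_one] at this
        simp [left_eq_add.1 this]
      | succ j ih =>
        rw [pow_succ, dualSymb_mul hd hN2.pow_left hN2, ih]
        push_cast; ring
    rw [hZ, dualSymb_mul hd hN2.pow_left hZN, hdZ, hpow, add_zero]
  have hkey : dualSymb N w ε + dualSymb N w M =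
      dualSymb N w ε' + (dualSymb N w Y' + dualSymb N w Y') := by
    have h1 : dualSymb N w (27 * t ^ 2 * (ε * M)) =
        dualSymb N w (-(ε' * c ^ 3 * Y' ^ 2)) :=
      dualSymb_congr (by simpa [sub_neg_eq_add] using hNA)
    rw [dualSymb_neg hd hNR, dualSymb_mul hd hNt (hNε.1.mul_left hMN.symm), hdt, zero_add,
      dualSymb_mul hd hNε.1 hMN.symm, pow_two, dualSymb_mul hd (hNε.2.mul_left hNc.pow_left)
        (hNY.mul_left hNY), dualSymb_mul hd hNε.2 hNc.pow_left, dualSymb_cube hd hNc,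
      dualSymb_mul hd hNY hNY, add_zero] at h1
    exact h1
  have h4 : dualSymb N w 4 = dualSymb N w 2 + dualSymb N w 2 := by
    rw [show (4 : ℤ) = 2 * 2 by norm_num, dualSymb_mul hd hN2 hN2]
  have h1' : dualSymb N w 1 = 0 := by
    have := dualSymb_mul hd (a := 1) (b := 1) isCoprime_one_left isCoprime_one_left
    rw [mul_one] at this
    exact left_eq_add.1 this
  rw [hdY] at hkey
  rcases htwo with h2 | ⟨rfl, rfl⟩
  · rw [h2, mul_zero, add_zero, add_zero] at hkey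
    rw [h2, add_zero] at h4
    rcases hε with ⟨rfl, rfl | rfl⟩ | ⟨rfl, rfl, -⟩ <;>
      simpa [h4, h1'] using hkey
  · simpa using hkey

end Fermat.Agent.DihedralTwo

end
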