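import Fermat.Agent.DihedralTwo.IdealChar
import Fermat.Agent.Density.Frobenius

/-!
The non-trivial cubic character of the class group of an imaginary quadratic field attached to a
binary cubic form of fundamental discriminant.
-/

set_option autoImplicit false

noncomputable section

namespace Fermat.Agent.DihedralTwo

open NumberField Polynomial
open scoped nonZeroDivisors

variable {F : Cubic} {Δ : ℤ}

namespace Cubic

/-- The monic cubic with roots `a` times those of `F(X, 1)`. -/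
def monicPoly (F : Cubic) : ℤ[X] :=
  X ^ 3 + C F.b * X ^ 2 + C (F.a * F.c) * X + C (F.a ^ 2 * F.d)

theorem monicPoly_eval {R : Type*} [CommRing R] (F : Cubic) (x : R) :
    ((F.monicPoly).map (Int.castRingHom R)).eval x =
      x ^ 3 + F.b * x ^ 2 + (F.a * F.c : ℤ) * x + (F.a ^ 2 * F.d : ℤ) := by
  simp [monicPoly]

theorem monicPoly_monic (F : Cubic) : F.monicPoly.Monic := by
  unfold monicPoly; monicity!

theorem monicPoly_natDegree (F : Cubic) : F.monicPoly.natDegree = 3 := by
  unfold monicPoly; compute_degree!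

theorem monicPoly_irreducible (F : Cubic) (hirr : ∀ z : ℤ × ℤ, F.at' z = 0 → z = 0) :
    Irreducible (F.monicPoly.map (Int.castRingHom ℚ)) := by
  have ha : F.a ≠ 0 := fun e => by simpa using hirr (1, 0) (by simp [at'_eq, e])
  refine irreducible_of_degree_le_three_of_not_isRoot ?_ fun x hx => ?_
  · rw [(F.monicPoly_monic).natDegree_map, F.monicPoly_natDegree]; decide
  · rw [IsRoot, monicPoly_eval] at hx
    have hx' : x = (x.num : ℚ) / x.den := (Rat.num_div_den x).symm
    rw [hx'] at hx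
    field_simp at hx
    have h0 : (F.at' (x.num, F.a * x.den) : ℚ) = 0 := by
      simp only [at'_eq]
      push_cast at hx ⊢
      linear_combination (F.a : ℚ) * hx
    have := congrArg Prod.snd (hirr _ (Int.cast_eq_zero.1 h0))
    exact mul_ne_zero ha (by exact_mod_cast x.den_ne_zero) this

end Cubic

theorem exists_rootFree_prime_aux (F : Cubic) (B : ℕ) (L : Type) [Field L] [NumberField L]
    [IsGalois ℚ L] (ha : F.a ≠ 0) (g : ℚ[X]) (hg : g = F.monicPoly.map (Int.castRingHom ℚ))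
    (hgirr : Irreducible g) (hgdeg : g.natDegree = 3) (hgm : g.Monic)
    (hsp : (g.map (algebraMap ℚ L)).Splits) (hadj : Algebra.adjoin ℚ (g.rootSet L) = ⊤) :
    ∃ p : ℕ, p.Prime ∧ B < p ∧ ¬ F.HasRoot p := by
  classical
  have hcard : Fintype.card (g.rootSet L) = 3 := by
    rw [card_rootSet_eq_natDegree hgirr.separable hsp, hgdeg]
  -- an automorphism of order three
  have : Fact (Nat.Prime 3) := ⟨Nat.prime_three⟩
  obtain ⟨σ, hσ⟩ : ∃ σ : L ≃ₐ[ℚ] L, orderOf σ = 3 := by
    refine exists_prime_orderOf_dvd_card' 3 ?_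
    obtain ⟨α, hα⟩ : (g.rootSet L).Nonempty := by
      rw [← Set.nonempty_coe_sort, ← Fintype.card_pos_iff, hcard]; norm_num
    have hα' : aeval α g = 0 := aeval_eq_zero_of_mem_rootSet hα
    have hint : IsIntegral ℚ α := ⟨g, hgm, hα'⟩
    have hmin : minpoly ℚ α = g := (minpoly.eq_of_irreducible_of_monic hgirr hα' hgm).symm
    rw [IsGalois.card_aut_eq_finrank]
    refine ⟨Module.finrank (IntermediateField.adjoin ℚ {α}) L, ?_⟩
    rw [← hgdeg, ← hmin, ← IntermediateField.adjoin.finrank hint, Module.finrank_mul_finrank]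
  have hmem : ∀ (f : L ≃ₐ[ℚ] L) {x : L}, x ∈ (g.rootSet L) → f x ∈ (g.rootSet L) := by
    intro f x hx
    rw [mem_rootSet] at hx ⊢
    refine ⟨hgm.ne_zero, ?_⟩
    rw [← AlgEquiv.coe_toAlgHom, aeval_algHom_apply, hx.2, map_zero]
  have hnofix : ∀ x ∈ (g.rootSet L), σ x ≠ x := by
    intro α hα hfix
    have h2 : σ * σ = 1 := by
      have hEq : Set.EqOn ((σ * σ : L ≃ₐ[ℚ] L) : L →ₐ[ℚ] L) (AlgHom.id ℚ L) (g.rootSet L) := by
        intro β hβ
        change σ (σ β) = β
        by_cases hb : σ β = β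
        · rw [hb, hb]
        have hβα : β ≠ α := fun e => hb (by rw [e, hfix])
        have hσβα : σ β ≠ α := fun e => hβα (σ.injective (e.trans hfix.symm))
        have hsub : ({α, β, σ β} : Finset L) = (g.rootSet L).toFinset := by
          refine Finset.eq_of_subset_of_card_le ?_ ?_
          · intro y hy
            simp only [Finset.mem_insert, Finset.mem_singleton] at hy
            rw [Set.mem_toFinset]
            rcases hy with rfl | rfl | rfl
            exacts [hα, hβ, hmem σ hβ]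
          · rw [Set.toFinset_card, hcard, Finset.card_insert_of_notMem (by
              simp [Ne.symm hβα, Ne.symm hσβα]), Finset.card_pair (Ne.symm hb)]
        have h3 : σ (σ β) ∈ ({α, β, σ β} : Finset L) := by
          rw [hsub, Set.mem_toFinset]; exact hmem σ (hmem σ hβ)
        simp only [Finset.mem_insert, Finset.mem_singleton] at h3
        rcases h3 with h | h | h
        · exact absurd (σ.injective (h.trans hfix.symm)) hσβα
        · exact h
        · exact absurd (σ.injective h) hb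
      have := AlgHom.ext_of_adjoin_eq_top hadj hEq
      exact AlgEquiv.ext fun y => DFunLike.congr_fun this y
    have := orderOf_dvd_of_pow_eq_one (x := σ) (n := 2) (by rw [pow_two]; exact h2)
    rw [hσ] at this
    norm_num at this
  -- the roots as integers, and their differences
  have hintR : ∀ x : (g.rootSet L), IsIntegral ℤ (x : L) := fun x => by
    refine ⟨F.monicPoly, F.monicPoly_monic, ?_⟩
    have h := aeval_eq_zero_of_mem_rootSet x.2
    rw [aeval_def] at h
    have h2 : (F.monicPoly.map (Int.castRingHom ℚ)).eval₂ (algebraMap ℚ L) (x : L) = 0 := hg ▸ h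
    rw [eval₂_map] at h2
    have h := h2
    rwa [RingHom.ext_int (algebraMap ℤ L) ((algebraMap ℚ L).comp (Int.castRingHom ℚ))]
  let ρ : (g.rootSet L) → 𝓞 L := fun x => ⟨x, hintR x⟩
  set d : 𝓞 L := ∏ x : (g.rootSet L),
    ∏ y ∈ Finset.univ.filter (fun y : (g.rootSet L) => y ≠ x), (ρ x - ρ y) with hd
  have hd0 : d ≠ 0 := by
    rw [hd, Finset.prod_ne_zero_iff]
    intro x _
    rw [Finset.prod_ne_zero_iff]
    intro y hy
    rw [sub_ne_zero]
    intro e
    exact (Finset.mem_filter.1 hy).2 (Subtype.ext (congrArg (fun t : 𝓞 L => (t : L)) e).symm)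
  set N := Ideal.absNorm (Ideal.span {d}) with hN
  have hN0 : N ≠ 0 := by
    rw [hN, Ne, Ideal.absNorm_eq_zero_iff, Ideal.span_singleton_eq_bot]; exact hd0
  obtain ⟨ℓ, hℓ, hℓS, hℓQ⟩ := Density.exists_prime_forall_frobAt σ
    (Finset.range (B + N + F.a.natAbs + 1))
  rw [Finset.mem_range, not_lt] at hℓS
  refine ⟨ℓ, hℓ, by omega, ?_⟩
  have := Fact.mk hℓ
  obtain ⟨Q, hQ, hmQ⟩ := Density.exists_prime_over L hℓ
  obtain ⟨f, hf⟩ := Density.exists_frobAt (hQ := hQ) hℓ hmQ
  obtain ⟨hdet, hfr⟩ := hℓQ Q hQ hmQ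
  obtain ⟨τ, hτ⟩ := hfr f hf
  rintro ⟨x, y, hxy, hv⟩
  have haℓ : (F.a : ZMod ℓ) ≠ 0 := by
    rw [Ne, ZMod.intCast_zmod_eq_zero_iff_dvd, Int.natCast_dvd]
    intro e
    have := Nat.le_of_dvd (Int.natAbs_pos.2 ha) e
    omega
  have hy : y ≠ 0 := by
    intro e
    subst e
    have hx : x ≠ 0 := hxy.resolve_right (fun h => h rfl)
    simp only [Cubic.val] at hv
    exact mul_ne_zero haℓ (pow_ne_zero 3 hx) (by linear_combination hv)
  set t : ℤ := (((F.a : ZMod ℓ) * x / y).val : ℤ) with ht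
  have ht0 : ((F.monicPoly.eval t : ℤ) : ZMod ℓ) = 0 := by
    simp only [Cubic.monicPoly, eval_add, eval_mul, eval_pow, eval_X, eval_C]
    push_cast
    rw [ht, Int.cast_natCast, ZMod.natCast_zmod_val]
    simp only [Cubic.val] at hv
    field_simp
    linear_combination (F.a : ZMod ℓ) ^ 2 * hv
  -- the monic cubic splits over the integers of `L`
  have hprod : ((F.monicPoly.eval t : ℤ) : 𝓞 L) = ∏ z : (g.rootSet L), ((t : 𝓞 L) - ρ z) := by
    refine IsFractionRing.injective (𝓞 L) L ?_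
    rw [map_intCast, map_prod]
    have hroots : (g.map (algebraMap ℚ L)).roots = (g.rootSet L).toFinset.1 := by
      have hn : (g.map (algebraMap ℚ L)).roots.Nodup := nodup_roots (hgirr.separable.map)
      simp [rootSet_def, aroots_def, Multiset.dedup_eq_self.2 hn]
    have he := congrArg (Polynomial.eval (t : L)) (hsp.eq_prod_roots_of_monic (hgm.map _))
    rw [eval_multiset_prod, Multiset.map_map, hroots] at he
    rw [show ((F.monicPoly.eval t : ℤ) : L) = (g.map (algebraMap ℚ L)).eval (t : L) by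
      rw [hg, map_map, RingHom.ext_int ((algebraMap ℚ L).comp (Int.castRingHom ℚ))
        (Int.castRingHom L), Cubic.monicPoly_eval]
      simp [Cubic.monicPoly], he, ← Finset.prod_eq_multiset_prod]
    rw [← Finset.prod_set_coe]
    refine Finset.prod_congr rfl fun z _ => ?_
    rw [map_sub, map_intCast]
    simp only [Function.comp_apply, eval_sub, eval_X, eval_C]
    rfl
  have htQ : ((F.monicPoly.eval t : ℤ) : 𝓞 L) ∈ Q := by
    obtain ⟨c, hc⟩ := (ZMod.intCast_zmod_eq_zero_iff_dvd _ ℓ).1 ht0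
    rw [hc]; push_cast
    exact Q.mul_mem_right _ hmQ
  rw [hprod] at htQ
  obtain ⟨z, -, hz⟩ := (Ideal.IsPrime.prod_mem_iff (hp := hQ)).1 htQ
  -- the root congruent to an integer is fixed by Frobenius
  have hfz : f • ρ z - ρ z ∈ Q := by
    have h2 : ((t : 𝓞 L) ^ ℓ - (t : 𝓞 L)) ∈ Q := by
      obtain ⟨c, hc⟩ : (ℓ : ℤ) ∣ t ^ ℓ - t := by
        rw [← ZMod.intCast_zmod_eq_zero_iff_dvd]; push_cast; simp
      rw [← Int.cast_pow, ← Int.cast_sub, hc]
      push_cast
      exact Q.mul_mem_right _ hmQ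
    have h3 : ρ z ^ ℓ - (t : 𝓞 L) ^ ℓ ∈ Q :=
      Ideal.mem_of_dvd Q (sub_dvd_pow_sub_pow _ _ _) (by rw [← neg_sub]; exact Q.neg_mem hz)
    have := Q.add_mem (Q.add_mem (hf (ρ z)) (Q.add_mem h3 h2)) hz
    convert this using 1
    ring
  have hfix : f (z : L) = (z : L) := by
    by_contra hne
    let z' : (g.rootSet L) := ⟨f z, hmem f z.2⟩
    have hz' : f • ρ z = ρ z' := rfl
    rw [hz'] at hfz
    have hdQ : d ∈ Q := by
      refine Ideal.mem_of_dvd Q ?_ hfz
      rw [hd]
      have h1 : ρ z' - ρ z ∣ ∏ y ∈ Finset.univ.filter (fun y => y ≠ z'), (ρ z' - ρ y) :=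
        Finset.dvd_prod_of_mem (fun y => ρ z' - ρ y) (Finset.mem_filter.2
          ⟨Finset.mem_univ z, fun e => hne (congrArg Subtype.val e).symm⟩)
      exact h1.trans (Finset.dvd_prod_of_mem
        (fun x => ∏ y ∈ Finset.univ.filter (fun y => y ≠ x), (ρ x - ρ y)) (Finset.mem_univ z'))
    obtain ⟨n, hn, hnorm⟩ := Density.absNorm_eq_pow_of_natCast_mem hℓ hQ hmQ
    have := Nat.le_of_dvd (Nat.pos_of_ne_zero hN0) (dvd_trans (dvd_pow_self ℓ hn.ne')
      (hnorm ▸ Ideal.absNorm_dvd_absNorm_of_le ((Ideal.span_singleton_le_iff_mem _).2 hdQ)))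
    omega
  refine hnofix _ (hmem τ z.2) ?_
  have hmemz : σ ∈ Subgroup.zpowers (τ * f * τ⁻¹) := hτ ▸ Subgroup.mem_zpowers σ
  have hstab : τ * f * τ⁻¹ ∈ MulAction.stabilizer (L ≃ₐ[ℚ] L) (τ (z : L)) := by
    rw [MulAction.mem_stabilizer_iff]
    simp [AlgEquiv.smul_def, hfix]
  exact Subgroup.zpowers_le.2 hstab hmemz

/-- Infinitely many primes modulo which an irreducible binary cubic has no zero. -/
theorem exists_rootFree_prime (F : Cubic) (hirr : ∀ z : ℤ × ℤ, F.at' z = 0 → z = 0) (B : ℕ) :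
    ∃ p : ℕ, p.Prime ∧ B < p ∧ ¬ F.HasRoot p := by
  have ha : F.a ≠ 0 := fun e => by simpa using hirr (1, 0) (by simp [Cubic.at'_eq, e])
  have hgirr := F.monicPoly_irreducible hirr
  obtain ⟨L, iF, iA, hs⟩ : ∃ (L : Type) (_ : Field L) (_ : Algebra ℚ L),
      IsSplittingField ℚ L (F.monicPoly.map (Int.castRingHom ℚ)) :=
    ⟨_, _, _, IsSplittingField.splittingField _⟩
  have : CharZero L := charZero_of_injective_algebraMap (algebraMap ℚ L).injective
  obtain rfl : iA = DivisionRing.toRatAlgebra := Subsingleton.elim _ _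
  have hs' := hs
  have : FiniteDimensional ℚ L :=
    IsSplittingField.finiteDimensional L (F.monicPoly.map (Int.castRingHom ℚ))
  have : NumberField L := ⟨⟩
  have : IsGalois ℚ L := IsGalois.of_separable_splitting_field
    (p := F.monicPoly.map (Int.castRingHom ℚ)) hgirr.separable
  exact exists_rootFree_prime_aux F B L ha _ rfl hgirr
    (by rw [(F.monicPoly_monic).natDegree_map, F.monicPoly_natDegree])
    ((F.monicPoly_monic).map _) hs'.splits' hs'.adjoin_rootSet'

/-- An odd prime modulo which `Δ` is a nonzero square has a prime of norm `p` above it. -/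
theorem exists_prime_absNorm_eq {O : Type*} [CommRing O] [IsDedekindDomain O] [Module.Free ℤ O]
    [Module.Finite ℤ O] {D : ℤ} (q : QuadData O D) {p : ℕ} (hp : p.Prime) (h2 : p ≠ 2)
    (hsq : IsSquare (D : ZMod p)) : ∃ P : Ideal O, P ≠ 0 ∧ Ideal.absNorm P = p := by
  have := Fact.mk hp
  obtain ⟨r, hr⟩ := hsq
  have hne : Ideal.span {(p : O)} ≠ ⊤ := fun e => by
    have := q.absNorm_natCast p
    rw [e, Ideal.absNorm_top] at this
    exact hp.ne_one ((Nat.pow_eq_one.1 this.symm).resolve_right (by norm_num))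
  obtain ⟨P, hP, hle⟩ := Ideal.exists_le_maximal _ hne
  have := hP.isPrime
  have hp0 : Ideal.span {(p : O)} ≠ ⊥ := fun e => by
    have := q.absNorm_natCast p
    rw [e, Ideal.absNorm_bot] at this
    exact pow_ne_zero 2 hp.ne_zero this.symm
  have hP0 : P ≠ ⊥ := fun e => hp0 (le_bot_iff.1 (e ▸ hle))
  obtain ⟨p', hp', hp'P, hN⟩ := q.prime_absNorm hP0
  have hd : Ideal.absNorm P ∣ p ^ 2 :=
    q.absNorm_natCast p ▸ Ideal.absNorm_dvd_absNorm_of_le hle
  have hpp : p' = p := by
    have : p' ∣ p ^ 2 := (show p' ∣ Ideal.absNorm P by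
      rcases hN with e | e <;> rw [e]
      exact dvd_pow_self p' two_ne_zero).trans hd
    exact (Nat.prime_dvd_prime_iff_eq hp' hp).1 (hp'.dvd_of_dvd_pow this)
  subst hpp
  rcases hN with e | e
  · exact ⟨P, hP0, e⟩
  exfalso
  obtain ⟨J, hJ⟩ := Ideal.dvd_iff_le.2 hle
  have hJ1 : J = ⊤ := eq_top_of_absNorm_mul (by rw [e]; exact pow_ne_zero 2 hp.ne_zero)
    (by rw [← hJ, q.absNorm_natCast, e])
  rw [hJ1, Ideal.mul_top] at hJ
  set s : ℤ := (r.val : ℤ)
  have hmem : (q.sd - (s : O)) * (q.sd + (s : O)) ∈ P := by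
    obtain ⟨c, hc⟩ : (p' : ℤ) ∣ D - s ^ 2 := by
      rw [← ZMod.intCast_zmod_eq_zero_iff_dvd]; simp [s, hr, pow_two]
    rw [show (q.sd - (s : O)) * (q.sd + (s : O)) = ((D - s ^ 2 : ℤ) : O) by
      push_cast; linear_combination q.sd_sq, hc]
    push_cast
    exact P.mul_mem_right _ (hle (Ideal.mem_span_singleton_self _))
  have key : ∀ u : ℤ, q.sd + (u : O) ∈ P → False := by
    intro u hu
    rw [← hJ, Ideal.mem_span_singleton] at hu
    obtain ⟨γ, hγ⟩ := hu
    obtain ⟨a, b, rfl⟩ := q.exists_eq γ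
    rw [show q.sd + (u : O) = ((u - q.t : ℤ) : O) + ((2 : ℤ) : O) * q.θ by
        simp [QuadData.sd]; ring,
      show (p' : O) * ((a : O) + (b : O) * q.θ) =
        (((p' : ℤ) * a : ℤ) : O) + (((p' : ℤ) * b : ℤ) : O) * q.θ by push_cast; ring] at hγ
    have h1 := congrArg (fun x => q.basis.repr x 1) hγ
    simp only [(q.repr_add_mul _ _).2] at h1
    have : (p' : ℕ) ∣ 2 := Int.natCast_dvd_natCast.1 (by exact ⟨b, by push_cast; exact h1⟩)
    exact h2 ((Nat.prime_dvd_prime_iff_eq hp Nat.prime_two).1 this)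
  rcases hP.isPrime.mem_or_mem hmem with h | h
  · exact key (-s) (by simpa [sub_eq_add_neg] using h)
  · exact key s h

/-- **The cubic class character.** A binary cubic form of negative fundamental discriminant `Δ`
gives a non-trivial cubic character of the class group of the quadratic field of discriminant
`Δ`; at a good degree-one prime above `p` it is trivial iff the cubic has a zero modulo `p`, and
modulo a good inert prime the cubic always has a zero. -/
theorem exists_cubicCharacter (h : GoodCubic F Δ) (K : Type*) [Field K] [NumberField K]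
    (h2 : Module.finrank ℚ K = 2) (hdisc : discr K = Δ) :
    ∃ X : ClassGroup (𝓞 K) →* Multiplicative (ZMod 3), X ≠ 1 ∧
      (∀ (P : Ideal (𝓞 K)) (hP : P ∈ (Ideal (𝓞 K))⁰) (p : ℕ), p.Prime → Ideal.absNorm P = p →
        ¬ (p : ℤ) ∣ 6 * Δ → (X (ClassGroup.mk0 ⟨P, hP⟩) = 1 ↔ F.HasRoot p)) ∧
      (∀ p : ℕ, p.Prime → ¬ (p : ℤ) ∣ 6 * Δ → ¬ IsSquare (Δ : ZMod p) → F.HasRoot p) := by
  obtain ⟨q⟩ := exists_quadData K h2
  rw [hdisc] at q
  obtain ⟨X, hX⟩ := exists_classGroupChar h q
  have hcrit : ∀ p : ℕ, p.Prime → ¬ (p : ℤ) ∣ 6 * Δ → ¬ IsSquare (Δ : ZMod p) → F.HasRoot p := by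
    intro p hp hpD hns
    have := Fact.mk hp
    have h5 : 5 ≤ p := by
      have h2 : p ≠ 2 := fun e => hpD (e ▸ ⟨3 * Δ, by push_cast; ring⟩)
      have h3 : p ≠ 3 := fun e => hpD (e ▸ ⟨2 * Δ, by push_cast; ring⟩)
      have h4 : p ≠ 4 := fun e => by subst e; norm_num at hp
      have := hp.two_le
      omega
    obtain ⟨z, -, hga⟩ := h.exists_goodAt hp h5 fun e => hpD (e.mul_left 6)
    exact hasRoot_of_not_isSquare hga hns
  refine ⟨X, ?_, fun P hP p hp hN hpD => hX P (nonZeroDivisors.ne_zero hP) p hp hN hpD, hcrit⟩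
  intro hX1
  obtain ⟨p, hp, hBp, hno⟩ := exists_rootFree_prime F h.irred (6 * Δ).natAbs
  have hpD : ¬ (p : ℤ) ∣ 6 * Δ := fun e => by
    have h0 : (6 * Δ).natAbs ≠ 0 := by simpa using h.neg.ne
    have := Nat.le_of_dvd (Nat.pos_of_ne_zero h0) (Int.natCast_dvd.1 e)
    omega
  have hp2 : p ≠ 2 := fun e => hpD (e ▸ ⟨3 * Δ, by push_cast; ring⟩)
  obtain ⟨P, hP0, hN⟩ := exists_prime_absNorm_eq q hp hp2
    (by_contra fun hns => hno (hcrit p hp hpD hns))
  exact hno ((hX P hP0 p hp hN hpD).1 (by rw [hX1]; rfl))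

end Fermat.Agent.DihedralTwo
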