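import Fermat.Agent.DihedralTwo.Eisen

/-!
Cubic reciprocity between rational integers and primary Eisenstein integers, by Gauss sums.
-/

set_option autoImplicit false

noncomputable section

open Finset

namespace Fermat.Agent.DihedralTwo

/-! ### The embedding into `ℂ` -/

/-- A primitive cube root of unity in `ℂ`. -/
def omgC : ℂ := ⟨-1 / 2, Real.sqrt 3 / 2⟩

theorem isOmega_omgC : IsOmega omgC := by
  have h : Real.sqrt 3 * Real.sqrt 3 = 3 := Real.mul_self_sqrt (by norm_num)
  unfold IsOmega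
  apply Complex.ext <;> simp [omgC] <;> nlinarith [h]

theorem evC_injective : Function.Injective (ev omgC isOmega_omgC) := by
  rw [injective_iff_map_eq_zero]
  intro z hz
  rw [ev_apply] at hz
  have him : z.im = 0 := by
    have := congrArg Complex.im hz
    simp [omgC] at this
    exact this
  have hre : z.re = 0 := by
    have := congrArg Complex.re hz
    simp [omgC, him] at this
    exact this
  exact QuadraticAlgebra.ext hre him

instance eisIsDomain : IsDomain Eis := evC_injective.isDomain _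

theorem isPrimitiveRoot_omg : IsPrimitiveRoot omg 3 := by
  refine IsPrimitiveRoot.mk_of_lt omg (by norm_num) (by decide) fun l hl0 hl3 => ?_
  interval_cases l <;> decide

theorem three_dvd_im_iff (z : Eis) : (3 : ℤ) ∣ z.im → ¬ (3 : ℤ) ∣ z.re → ¬ (3 : ℤ) ∣ z.norm := by
  intro him hre h
  rw [eis_norm] at h
  obtain ⟨t, ht⟩ := him
  have h' : (3 : ℤ) ∣ z.re ^ 2 := by
    obtain ⟨s, hs⟩ := h
    exact ⟨s + z.re * t - 3 * t ^ 2, by rw [ht] at hs; linear_combination hs⟩
  exact hre (Int.prime_three.dvd_of_dvd_pow h')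

/-! ### Power residue symbols at split primes -/

variable {p : ℕ} [hp : Fact p.Prime]

open Classical in
/-- The cubic residue symbol of `n` at the prime above `p` cut out by `ω ↦ w`. -/
def resSymbol (p : ℕ) (w : ZMod p) (n : ℤ) : ZMod 3 :=
  if h : ∃ i : ZMod 3, (n : ZMod p) ^ ((p - 1) / 3) = w ^ i.val then h.choose else 0

theorem three_ne_zero_zmod (hp3 : p % 3 = 1) : (3 : ZMod p) ≠ 0 := fun h => by
  have := (ZMod.natCast_eq_zero_iff 3 p).1 (by exact_mod_cast h)
  rw [(Nat.prime_dvd_prime_iff_eq hp.out Nat.prime_three).1 this] at hp3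
  norm_num at hp3

theorem resSymbol_spec (hp3 : p % 3 = 1) {w : ZMod p} (hw : IsOmega w) {n : ℤ}
    (hn : (n : ZMod p) ≠ 0) : (n : ZMod p) ^ ((p - 1) / 3) = w ^ (resSymbol p w n).val := by
  have h : ∃ i : ZMod 3, (n : ZMod p) ^ ((p - 1) / 3) = w ^ i.val :=
    hw.eq_pow_of_cube_eq_one (by
      rw [← pow_mul, mul_comm, Nat.mul_div_cancel' (by omega), ZMod.pow_card_sub_one_eq_one hn])
  rw [resSymbol, dif_pos h]
  exact h.choose_spec

theorem resSymbol_eq (hp3 : p % 3 = 1) {w : ZMod p} (hw : IsOmega w) {n : ℤ}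
    (hn : (n : ZMod p) ≠ 0) {i : ZMod 3} (h : (n : ZMod p) ^ ((p - 1) / 3) = w ^ i.val) :
    resSymbol p w n = i :=
  hw.pow_val_injective (three_ne_zero_zmod hp3) (by rw [← resSymbol_spec hp3 hw hn, h])

theorem resSymbol_mul (hp3 : p % 3 = 1) {w : ZMod p} (hw : IsOmega w) {a b : ℤ}
    (ha : (a : ZMod p) ≠ 0) (hb : (b : ZMod p) ≠ 0) :
    resSymbol p w (a * b) = resSymbol p w a + resSymbol p w b :=
  resSymbol_eq hp3 hw (by push_cast; exact mul_ne_zero ha hb) (by
    push_cast
    rw [mul_pow, hw.pow_add, resSymbol_spec hp3 hw ha, resSymbol_spec hp3 hw hb])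

theorem isOmega_eq_or (hp3 : p % 3 = 1) {w v : ZMod p} (hw : IsOmega w) (hv : IsOmega v) :
    v = w ∨ v = w ^ 2 := by
  obtain ⟨i, hi⟩ := hw.eq_pow_of_cube_eq_one hv.cube
  fin_cases i
  · exact absurd (by simpa [ZMod.val] using hi) (hv.ne_one (three_ne_zero_zmod hp3))
  · exact Or.inl (by simpa [ZMod.val] using hi)
  · exact Or.inr hi

/-! ### The prime case -/

theorem exists_primary_prime_aux (hp3 : p % 3 = 1) :
    ∃ (π : Eis) (w : ZMod p) (hw : IsOmega w), π.norm = p ∧ (3 : ℤ) ∣ π.im ∧ ev w hw π = 0 ∧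
      ∀ q : ℕ, q.Prime → q ≠ 3 → q ≠ p → cubicSymbol q π = resSymbol p w q := by
  classical
  obtain ⟨g, hg⟩ := IsCyclic.exists_generator (α := (ZMod p)ˣ)
  have hcard : Fintype.card (ZMod p)ˣ = p - 1 := ZMod.card_units p
  set n := (p - 1) / 3 with hn
  have hk : 3 * n = p - 1 := Nat.mul_div_cancel' (by omega)
  set w : ZMod p := (g : ZMod p) ^ n with hwdef
  have hw3 : w ^ 3 = 1 := by
    rw [hwdef, ← pow_mul, mul_comm, hk, ZMod.pow_card_sub_one_eq_one g.ne_zero]
  have hord : orderOf g = p - 1 := by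
    rw [orderOf_eq_card_of_forall_mem_zpowers hg, Nat.card_eq_fintype_card, hcard]
  have h2p : 2 ≤ p := hp.out.two_le
  have hw1 : w ≠ 1 := by
    intro h
    have hgn : g ^ n = 1 := Units.ext (by simpa [hwdef] using h)
    have := Nat.le_of_dvd (by omega) (hord ▸ orderOf_dvd_of_pow_eq_one hgn)
    omega
  have hw : IsOmega w := by
    unfold IsOmega
    have : (w - 1) * (w * w + w + 1) = 0 := by linear_combination hw3
    linear_combination (mul_eq_zero.1 this).resolve_left (sub_ne_zero.2 hw1)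
  let ζ : Eisˣ := (isPrimitiveRoot_omg.isUnit (by norm_num)).unit
  have hζ : ζ ∈ rootsOfUnity (Fintype.card (ZMod p)ˣ) Eis := by
    rw [mem_rootsOfUnity, hcard, ← hk, pow_mul]
    have : ζ ^ 3 = 1 := Units.ext (by simpa [ζ] using isPrimitiveRoot_omg.pow_eq_one)
    rw [this, one_pow]
  let χ : MulChar (ZMod p) Eis := MulChar.ofRootOfUnity hζ hg
  have hχg : χ g = omg := (MulChar.ofRootOfUnity_spec hζ hg).trans rfl
  have hpow : ∀ u : (ZMod p)ˣ, ∃ i : ℕ, u = g ^ i := fun u => by
    obtain ⟨i, -, hi⟩ := Finset.mem_image.1 (mem_zpowers_iff_mem_range_orderOf.1 (hg u))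
    exact ⟨i, hi.symm⟩
  have hχev : ∀ x : ZMod p, ev w hw (χ x) = x ^ n := by
    intro x
    rcases eq_or_ne x 0 with rfl | hx
    · rw [MulChar.map_zero, map_zero, zero_pow (by omega)]
    · obtain ⟨i, hi⟩ := hpow (Units.mk0 x hx)
      have hx' : x = (g : ZMod p) ^ i := by simpa using congrArg Units.val hi
      rw [hx', map_pow, hχg, map_pow, ev_omg, hwdef, ← pow_mul, ← pow_mul, mul_comm]
  have hχ3 : χ ^ 3 = 1 := (MulChar.eq_iff hg _ _).2 (by
    rw [MulChar.pow_apply_coe, hχg, isPrimitiveRoot_omg.pow_eq_one, MulChar.one_apply_coe])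
  have hχ1 : χ ≠ 1 := fun h => isPrimitiveRoot_omg.ne_one (by norm_num)
    (by rw [← hχg, h, MulChar.one_apply_coe])
  have hχ2 : χ * χ ≠ 1 := fun h => hχ1 (by
    have := hχ3
    rwa [pow_three, h, mul_one] at this)
  set J := jacobiSum χ χ with hJ
  have hJ3 : ∃ z : Eis, J = -1 + 3 * z := by
    obtain ⟨z, -, hz⟩ := exists_jacobiSum_eq_neg_one_add (n := 3) (by norm_num) hχ3 hχ3
      (by rw [ZMod.card]; omega) isPrimitiveRoot_omg
    refine ⟨-omg * z, ?_⟩
    rw [hJ, hz]
    have : (omg - 1) ^ 2 = -3 * omg := by decide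
    rw [this]; ring
  obtain ⟨z, hz⟩ := hJ3
  have hker : ev w hw J = 0 := by
    rw [hJ, jacobiSum, map_sum]
    simp only [map_mul, hχev, ← mul_pow]
    have hsum : ∀ x : ZMod p, (x * (1 - x)) ^ n =
        ∑ i ∈ range (n + 1), (n.choose i : ZMod p) * (-1) ^ i * x ^ (n + i) := by
      intro x
      rw [mul_pow, sub_eq_neg_add, add_pow, Finset.mul_sum]
      refine Finset.sum_congr rfl fun i _ => ?_
      rw [one_pow, mul_one, neg_pow, pow_add]
      ring
    simp only [hsum]
    rw [Finset.sum_comm]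
    refine Finset.sum_eq_zero fun i hi => ?_
    rw [← Finset.mul_sum, FiniteField.sum_pow_lt_card_sub_one (K := ZMod p) (i := n + i) (by
      rw [ZMod.card]; have := Finset.mem_range.1 hi; omega), mul_zero]
  have hnorm : J.norm = p := by
    have hinj := evC_injective
    set φ := ev omgC isOmega_omgC
    let χC := χ.ringHomComp φ
    have hC1 : χC ≠ 1 := (MulChar.ringHomComp_ne_one_iff hinj).2 hχ1
    have hC2 : χC * χC ≠ 1 := fun h => hχ2 (MulChar.ext fun a => hinj (by
      have := congrArg (fun c : MulChar (ZMod p) ℂ => c a) h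
      simpa [χC, MulChar.ringHomComp_apply] using this))
    have hcomp : χC⁻¹ = χ.ringHomComp (φ.comp (starRingEnd Eis)) :=
      (MulChar.eq_iff hg _ _).2 (by
        have h3 : χC⁻¹ = χC ^ 2 := inv_eq_of_mul_eq_one_right (by
          rw [← pow_succ', MulChar.ringHomComp_pow, hχ3]
          exact MulChar.ringHomComp_one φ)
        rw [h3, MulChar.pow_apply_coe, MulChar.ringHomComp_apply, MulChar.ringHomComp_apply,
          hχg, RingHom.comp_apply, ← map_pow]
        exact congrArg φ (by decide))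
    have key := jacobiSum_mul_jacobiSum_inv (F := ZMod p) (F' := ℂ)
      (by rw [ringChar.eq_zero, ZMod.ringChar_zmod_n]; exact hp.out.ne_zero.symm) hC1 hC1 hC2
    rw [hcomp, jacobiSum_ringHomComp, jacobiSum_ringHomComp, ← hJ, RingHom.comp_apply,
      ← map_mul, ← norm_eq_mul_conj, ZMod.card, map_intCast] at key
    exact_mod_cast key
  refine ⟨-J, w, hw, by rw [QuadraticAlgebra.norm_neg, hnorm], ?_, by rw [map_neg, hker, neg_zero],
    fun q hq hq3 hqp => ?_⟩
  · refine ⟨-z.im, ?_⟩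
    have h1 : (1 : Eis).im = 0 := rfl
    have h2 : (3 : Eis).im = 0 := rfl
    have h3 : (3 : Eis).re = 3 := rfl
    rw [hz]
    simp [h1, h2, h3]
  -- the Gauss sum in characteristic `q`
  have := Fact.mk hq
  obtain ⟨v, hv⟩ := exists_isOmega (Kq q)
  set i := resSymbol p w q with hi
  have hqp' : ((q : ℤ) : ZMod p) ≠ 0 := by
    rw [Int.cast_natCast, Ne, ZMod.natCast_eq_zero_iff,
      Nat.prime_dvd_prime_iff_eq hp.out hq]
    exact hqp.symm
  have hχq : χ (q : ZMod p) = omg ^ i.val := by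
    obtain ⟨j, hj⟩ := hpow (Units.mk0 _ hqp')
    have hj' : (q : ZMod p) = (g : ZMod p) ^ j := by
      simpa using congrArg Units.val hj
    have h1 := resSymbol_spec hp3 hw hqp'
    rw [← hi, Int.cast_natCast] at h1
    have h2 : w ^ j = w ^ i.val := by rw [← h1, ← hχev, hj', map_pow, hχg, map_pow, ev_omg]
    rw [← hw.pow_natCast] at h2
    rw [hj', map_pow, hχg, pow_eq_pow_mod j isPrimitiveRoot_omg.pow_eq_one,
      ← hw.pow_val_injective (three_ne_zero_zmod hp3) h2, ZMod.val_natCast]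
  have hpq : (p : Kq q) ≠ 0 := by
    rw [Ne, CharP.cast_eq_zero_iff (Kq q) q, Nat.prime_dvd_prime_iff_eq hq hp.out]
    exact hqp
  have hJq : ¬ (q : ℤ) ∣ (-J).norm := by
    rw [QuadraticAlgebra.norm_neg, hnorm, Int.natCast_dvd_natCast,
      Nat.prime_dvd_prime_iff_eq hq hp.out]
    exact hqp
  -- for either embedding `u`: `(p · u(J))` raised to the exponent is a power of `u(χ q)`
  have hqfix : (p : Kq q) ^ (q - 1) = 1 := by
    refine pow_sub_one_eq_one_of_pow_eq hq.pos hpq ?_
    have : ExpChar (Kq q) q := ExpChar.prime hq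
    rw [← frobenius_def, map_natCast]
  have hmod : q % 3 = 1 ∨ q % 3 = 2 := by
    have : q % 3 ≠ 0 := fun h => hq3
      ((Nat.prime_dvd_prime_iff_eq Nat.prime_three hq).1 (Nat.dvd_of_mod_eq_zero h)).symm
    omega
  have gauss : ∀ (u : Kq q) (hu : IsOmega u), ∀ e : ℕ, (q ^ e) % 3 = 1 →
      ((p : Kq q) * ev u hu J) ^ ((q ^ e - 1) / 3) * (u ^ i.val) ^ e = 1 := by
    intro u hu e he
    set χk := χ.ringHomComp (ev u hu) with hχk
    have hk1 : χk ≠ 1 := by
      intro h
      have := congrArg (fun c : MulChar (ZMod p) (Kq q) => c g) h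
      simp only [hχk, MulChar.ringHomComp_apply, hχg, ev_omg, MulChar.one_apply_coe] at this
      exact hu.ne_one (three_ne_zero_Kq hq3) this
    have hk3 : χk ^ 3 = 1 := by
      rw [hχk, MulChar.ringHomComp_pow, hχ3]; exact MulChar.ringHomComp_one _
    have hne : ringChar (Kq q) ≠ ringChar (ZMod p) := by
      rw [ringChar.eq (Kq q) q, ZMod.ringChar_zmod_n]; exact hqp
    let ψ := AddChar.FiniteField.primitiveChar (ZMod p) (Kq q) hne
    have : CharP (CyclotomicField ψ.n (Kq q)) q :=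
      charP_of_injective_algebraMap (algebraMap (Kq q) _).injective q
    set ι := algebraMap (Kq q) (CyclotomicField ψ.n (Kq q)) with hι
    set χ' := χk.ringHomComp ι with hχ'
    have ho : orderOf χ' = 3 := orderOf_eq_prime
      (by rw [hχ', MulChar.ringHomComp_pow, hk3]; exact MulChar.ringHomComp_one _)
      ((MulChar.ringHomComp_ne_one_iff ι.injective).2 hk1)
    set G := gaussSum χ' ψ.char with hG
    have hG3 : G ^ 3 = ι ((p : Kq q) * ev u hu J) := by
      have := gaussSum_pow_eq_prod_jacobiSum (χ := χ') (ψ := ψ.char) (by omega) ψ.prim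
      rw [ho, show Ico 1 (3 - 1) = {1} by rfl, Finset.prod_singleton, pow_one] at this
      rw [hG, this, ZMod.card, map_mul, map_natCast]
      have h1 : χ' (-1) = 1 := by
        have hsq : χ' (-1) ^ 2 = 1 := by
          rw [← map_pow, neg_one_sq, map_one]
        have hcu : χ' (-1) ^ 3 = 1 := by
          rw [← MulChar.pow_apply' _ (by norm_num), ← ho, pow_orderOf_eq_one]
          exact MulChar.one_apply (isUnit_one.neg)
        calc χ' (-1) = χ' (-1) ^ 3 := by rw [pow_succ, hsq, one_mul]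
          _ = 1 := hcu
      rw [h1, one_mul, hχ', jacobiSum_ringHomComp, hχk, jacobiSum_ringHomComp]
    have hG0 : G ≠ 0 := gaussSum_ne_zero_of_nontrivial (by
        rw [ZMod.card, ← map_natCast ι]; exact fun h =>
          hpq (ι.injective (h.trans (map_zero ι).symm)))
      (fun h => by rw [h, orderOf_one] at ho; norm_num at ho) ψ.prim
    have hu' : χ' (q : ZMod p) = ι (u ^ i.val) := by
      rw [hχ', MulChar.ringHomComp_apply, hχk, MulChar.ringHomComp_apply, hχq, map_pow, ev_omg]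
    have hqu : ((q : ZMod p) ^ e) ≠ 0 := pow_ne_zero _ (by exact_mod_cast hqp')
    have hfrob : ∀ e : ℕ, G ^ (q ^ e) = gaussSum (χ' ^ (q ^ e)) (ψ.char ^ (q ^ e)) := by
      intro e
      induction e with
      | zero => simp [hG]
      | succ e ih => rw [pow_succ, pow_mul, ih, gaussSum_frob, ← pow_mul, ← pow_mul]
    have hshift := gaussSum_mulShift χ' ψ.char (Units.mk0 _ hqu)
    rw [Units.val_mk0] at hshift
    have hfin : G ^ (q ^ e) * ι ((u ^ i.val) ^ e) = G := by
      have hpw : χ' ^ (q ^ e) = χ' := by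
        rw [pow_eq_pow_mod _ (ho ▸ pow_orderOf_eq_one χ'), he, pow_one]
      rw [hfrob, hpw, map_pow, ← hu', ← map_pow χ', mul_comm, AddChar.pow_mulShift,
        Nat.cast_pow, hshift]
    obtain ⟨m, hm⟩ : 3 ∣ q ^ e - 1 := by omega
    rw [show q ^ e = 3 * m + 1 by omega, pow_succ', pow_mul, hG3, ← map_pow, mul_assoc,
      ← map_mul] at hfin
    have := mul_left_cancel₀ hG0 (hfin.trans (mul_one G).symm)
    rw [← map_one ι] at this
    rw [show (q ^ e - 1) / 3 = m by omega]
    exact ι.injective this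
  refine cubicSymbol_eq hq3 hJq i hv ?_
  rcases hmod with hm | hm
  · have h1 := gauss v hv 1 (by rwa [pow_one])
    have h2 := gauss (v ^ 2) hv.sq 1 (by rwa [pow_one])
    rw [pow_one, pow_one] at h1 h2
    obtain ⟨m, hm'⟩ : 3 ∣ q - 1 := by omega
    have hdiv : (q - 1) / 3 = m := by omega
    rw [hdiv, mul_pow] at h1 h2
    rw [hm', mul_comm 3 m, pow_mul] at hqfix
    simp only [symbBase, if_pos hm, hdiv, map_pow, map_mul, map_neg, ev_conj hv]
    set P := (p : Kq q) ^ m
    set x := ev v hv J with hxdef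
    set y := ev (v ^ 2) hv.sq J with hydef
    have hzz : (v ^ 2) ^ i.val * v ^ i.val = 1 := by
      rw [← mul_pow, ← pow_succ, hv.cube, one_pow]
    have hneg : ((-1 : Kq q) ^ m) ^ 3 = 1 := by
      rw [← pow_mul, mul_comm, ← hm', pow_sub_one_eq_one_of_pow_eq hq.pos (by norm_num)]
      rw [← frobenius_def, map_neg, map_one]
    rw [show (-x * (-y) ^ 2) ^ m = ((-1) ^ m) ^ 3 * (x ^ m * (y ^ m) ^ 2) by
      rw [← pow_mul, ← pow_mul, mul_comm m 3, mul_comm m 2, pow_mul, pow_mul,
        ← mul_pow, ← mul_pow]; ring, hneg, one_mul]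
    calc x ^ m * (y ^ m) ^ 2
        = x ^ m * (y ^ m) ^ 2 * (P ^ 3 * (v ^ i.val * ((v ^ 2) ^ i.val) ^ 2)) *
            ((v ^ 2) ^ i.val * (v ^ i.val) ^ 2) := by
          rw [hqfix]; linear_combination (-(x ^ m) * (y ^ m) ^ 2) *
            ((v ^ 2) ^ i.val * v ^ i.val * ((v ^ 2) ^ i.val * v ^ i.val) +
              (v ^ 2) ^ i.val * v ^ i.val + 1) * hzz
      _ = (P * x ^ m * v ^ i.val) * (P * y ^ m * (v ^ 2) ^ i.val) ^ 2 *
            ((v ^ 2) ^ i.val * (v ^ i.val) ^ 2) := by ring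
      _ = v ^ i.val := by
          rw [h1, h2]; linear_combination v ^ i.val * hzz
  · have h1 := gauss v hv 2 (by rw [Nat.pow_mod, hm])
    obtain ⟨m, hm'⟩ : 3 ∣ q + 1 := by omega
    have hdiv : (q ^ 2 - 1) / 3 = (q - 1) * m := by
      rw [show q ^ 2 - 1 = (q - 1) * (q + 1) by simpa [mul_comm] using Nat.sq_sub_sq q 1, hm',
        mul_left_comm, Nat.mul_div_cancel_left _ (by norm_num)]
    rw [hdiv, mul_pow, pow_mul (p : Kq q), hqfix, one_pow, one_mul] at h1
    have hneg : (-1 : Kq q) ^ (q - 1) = 1 := by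
      rw [pow_sub_one_eq_one_of_pow_eq hq.pos (by norm_num)]
      rw [← frobenius_def, map_neg, map_one]
    simp only [symbBase, if_neg (show ¬ q % 3 = 1 by omega), hdiv, map_pow, map_neg]
    rw [neg_pow, pow_mul, hneg, one_pow, one_mul]
    calc ev v hv J ^ ((q - 1) * m) = ev v hv J ^ ((q - 1) * m) * (v ^ i.val) ^ 3 := by
          rw [← pow_mul (v) i.val 3, mul_comm i.val 3, pow_mul v 3, hv.cube, one_pow, mul_one]
      _ = (ev v hv J ^ ((q - 1) * m) * (v ^ i.val) ^ 2) * v ^ i.val := by ring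
      _ = v ^ i.val := by rw [h1, one_mul]

/-- The prime above `p` cut out by `ω ↦ w`, normalised primary, with the reciprocity law. -/
theorem exists_primary_prime (hp3 : p % 3 = 1) {w : ZMod p} (hw : IsOmega w) :
    ∃ π : Eis, π.norm = p ∧ (3 : ℤ) ∣ π.im ∧ ev w hw π = 0 ∧
      ∀ q : ℕ, q.Prime → q ≠ 3 → q ≠ p → cubicSymbol q π = resSymbol p w q := by
  obtain ⟨π, w0, hw0, hN, him, hker, hlaw⟩ := exists_primary_prime_aux (p := p) hp3
  rcases isOmega_eq_or hp3 hw0 hw with rfl | rfl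
  · exact ⟨π, hN, him, hker, hlaw⟩
  · refine ⟨starRingEnd Eis π, by rwa [starRingEnd_apply, QuadraticAlgebra.norm_star],
      by simpa [starRingEnd_apply] using him, by rw [ev_sq_conj hw0, hker], fun q hq hq3 hqp => ?_⟩
    have := Fact.mk hq
    have hqn : ¬ (q : ℤ) ∣ π.norm := by
      rw [hN, Int.natCast_dvd_natCast, Nat.prime_dvd_prime_iff_eq hq hp.out]; exact hqp
    have hqz : ((q : ℤ) : ZMod p) ≠ 0 := by
      rw [Int.cast_natCast, Ne, ZMod.natCast_eq_zero_iff, Nat.prime_dvd_prime_iff_eq hp.out hq]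
      exact hqp.symm
    rw [cubicSymbol_conj hq3 hqn, hlaw q hq hq3 hqp]
    refine (resSymbol_eq hp3 hw0.sq hqz ?_).symm
    rw [hw0.sq.pow_neg, hw0.sq_sq, resSymbol_spec hp3 hw0 hqz]

end Fermat.Agent.DihedralTwo

end
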