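import Fermat.Agent.DihedralTwo.RootCriterion

/-!
Descending a binary cubic form to fundamental discriminant, when it has a simple zero modulo every
prime whose square divides the index.
-/

set_option autoImplicit false

noncomputable section

namespace Fermat.Agent.DihedralTwo

namespace Cubic

/-- Substitution `x ↦ α x + β y`, `y ↦ γ x + δ y`. -/
def subst (F : Cubic) (α β γ δ : ℤ) : Cubic where
  a := F.a * α ^ 3 + F.b * α ^ 2 * γ + F.c * α * γ ^ 2 + F.d * γ ^ 3
  b := 3 * F.a * α ^ 2 * β + F.b * (α ^ 2 * δ + 2 * α * β * γ)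
    + F.c * (2 * α * γ * δ + β * γ ^ 2) + 3 * F.d * γ ^ 2 * δ
  c := 3 * F.a * α * β ^ 2 + F.b * (2 * α * β * δ + β ^ 2 * γ)
    + F.c * (α * δ ^ 2 + 2 * β * γ * δ) + 3 * F.d * γ * δ ^ 2
  d := F.a * β ^ 3 + F.b * β ^ 2 * δ + F.c * β * δ ^ 2 + F.d * δ ^ 3

/-- Scalar multiple. -/
def scale (F : Cubic) (k : ℤ) : Cubic := ⟨k * F.a, k * F.b, k * F.c, k * F.d⟩

theorem subst_val {R : Type*} [CommRing R] (F : Cubic) (α β γ δ : ℤ) (x y : R) :
    (F.subst α β γ δ).val x y = F.val ((α : R) * x + β * y) ((γ : R) * x + δ * y) := by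
  simp only [subst, val]; push_cast; ring

theorem scale_val {R : Type*} [CommRing R] (F : Cubic) (k : ℤ) (x y : R) :
    (F.scale k).val x y = (k : R) * F.val x y := by
  simp only [scale, val]; push_cast; ring

theorem subst_disc (F : Cubic) (α β γ δ : ℤ) :
    (F.subst α β γ δ).disc = (α * δ - β * γ) ^ 6 * F.disc := by
  simp only [subst, disc]; ring

/-- The partial derivatives, over any ring. -/
def valX {R : Type*} [CommRing R] (F : Cubic) (x y : R) : R :=
  3 * (F.a : R) * x ^ 2 + 2 * (F.b : R) * x * y + (F.c : R) * y ^ 2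

/-- The partial derivatives, over any ring. -/
def valY {R : Type*} [CommRing R] (F : Cubic) (x y : R) : R :=
  (F.b : R) * x ^ 2 + 2 * (F.c : R) * x * y + 3 * (F.d : R) * y ^ 2

/-- A simple zero on the projective line over `ZMod q`. -/
def SimpleRoot (F : Cubic) (q : ℕ) : Prop :=
  ∃ x y : ZMod q, (x ≠ 0 ∨ y ≠ 0) ∧ F.val x y = 0 ∧ (F.valX x y ≠ 0 ∨ F.valY x y ≠ 0)

/-- `k F' = F ∘ M`. -/
structure Related (F F' : Cubic) (k α β γ δ : ℤ) : Prop where
  eq : F.subst α β γ δ = F'.scale k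

variable {F F' : Cubic} {k α β γ δ : ℤ}

theorem Related.val_eq (h : Related F F' k α β γ δ) {R : Type*} [CommRing R] (x y : R) :
    F.val ((α : R) * x + β * y) ((γ : R) * x + δ * y) = (k : R) * F'.val x y := by
  rw [← subst_val, h.eq, scale_val]

theorem Related.deriv_eq (h : Related F F' k α β γ δ) {R : Type*} [CommRing R] (x y : R) :
    (α : R) * F.valX ((α : R) * x + β * y) ((γ : R) * x + δ * y) +
        γ * F.valY ((α : R) * x + β * y) ((γ : R) * x + δ * y) = (k : R) * F'.valX x y ∧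
      (β : R) * F.valX ((α : R) * x + β * y) ((γ : R) * x + δ * y) +
        δ * F.valY ((α : R) * x + β * y) ((γ : R) * x + δ * y) = (k : R) * F'.valY x y := by
  have e := h.eq
  simp only [subst, scale, Cubic.mk.injEq] at e
  obtain ⟨ea, eb, ec, ed⟩ := e
  have ea' := congrArg (Int.cast : ℤ → R) ea
  have eb' := congrArg (Int.cast : ℤ → R) eb
  have ec' := congrArg (Int.cast : ℤ → R) ec
  have ed' := congrArg (Int.cast : ℤ → R) ed
  push_cast at ea' eb' ec' ed'
  constructor <;> simp only [valX, valY]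
  · linear_combination (3 * x ^ 2) * ea' + (2 * x * y) * eb' + y ^ 2 * ec'
  · linear_combination x ^ 2 * eb' + (2 * x * y) * ec' + (3 * y ^ 2) * ed'

theorem Related.solve (h : Related F F' k α β γ δ) {p : ℕ} [Fact p.Prime]
    (hdet : ((α * δ - β * γ : ℤ) : ZMod p) ≠ 0) (x y : ZMod p) :
    ∃ x' y' : ZMod p, (α : ZMod p) * x' + β * y' = x ∧ (γ : ZMod p) * x' + δ * y' = y := by
  have _ := h
  push_cast at hdet
  refine ⟨((δ : ZMod p) * x - β * y) / ((α : ZMod p) * δ - β * γ),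
    ((α : ZMod p) * y - γ * x) / ((α : ZMod p) * δ - β * γ), ?_, ?_⟩ <;>
    rw [mul_div_assoc', mul_div_assoc', ← add_div, div_eq_iff hdet] <;> ring

theorem Related.hasRoot_iff (h : Related F F' k α β γ δ) {p : ℕ} [Fact p.Prime]
    (hk : (k : ZMod p) ≠ 0) (hdet : ((α * δ - β * γ : ℤ) : ZMod p) ≠ 0) :
    F.HasRoot p ↔ F'.HasRoot p := by
  constructor
  · rintro ⟨x, y, hxy, hv⟩
    obtain ⟨x', y', e1, e2⟩ := h.solve hdet x y
    refine ⟨x', y', ?_, ?_⟩
    · by_contra hc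
      push Not at hc
      rw [hc.1, hc.2] at e1 e2
      simp only [mul_zero, add_zero] at e1 e2
      rcases hxy with e | e <;> [exact e e1.symm; exact e e2.symm]
    · have := h.val_eq x' y'
      rw [e1, e2, hv] at this
      exact (mul_eq_zero.1 this.symm).resolve_left hk
  · rintro ⟨x', y', hxy, hv⟩
    refine ⟨(α : ZMod p) * x' + β * y', (γ : ZMod p) * x' + δ * y', ?_, by
      rw [h.val_eq, hv, mul_zero]⟩
    by_contra hc
    push Not at hc
    push_cast at hdet
    have hx : ((α : ZMod p) * δ - β * γ) * x' = 0 := by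
      linear_combination (δ : ZMod p) * hc.1 - (β : ZMod p) * hc.2
    have hy : ((α : ZMod p) * δ - β * γ) * y' = 0 := by
      linear_combination (α : ZMod p) * hc.2 - (γ : ZMod p) * hc.1
    rcases hxy with e | e
    · exact e ((mul_eq_zero.1 hx).resolve_left hdet)
    · exact e ((mul_eq_zero.1 hy).resolve_left hdet)

theorem Related.simpleRoot (h : Related F F' k α β γ δ) {p : ℕ} [Fact p.Prime]
    (hk : (k : ZMod p) ≠ 0) (hdet : ((α * δ - β * γ : ℤ) : ZMod p) ≠ 0) (hs : F.SimpleRoot p) :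
    F'.SimpleRoot p := by
  obtain ⟨x, y, hxy, hv, hd⟩ := hs
  obtain ⟨x', y', e1, e2⟩ := h.solve hdet x y
  refine ⟨x', y', ?_, ?_, ?_⟩
  · by_contra hc
    push Not at hc
    rw [hc.1, hc.2] at e1 e2
    simp only [mul_zero, add_zero] at e1 e2
    rcases hxy with e | e <;> [exact e e1.symm; exact e e2.symm]
  · have := h.val_eq x' y'
    rw [e1, e2, hv] at this
    exact (mul_eq_zero.1 this.symm).resolve_left hk
  · by_contra hc
    push Not at hc
    obtain ⟨d1, d2⟩ := h.deriv_eq x' y'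
    rw [e1, e2, hc.1, mul_zero] at d1
    rw [e1, e2, hc.2, mul_zero] at d2
    push_cast at hdet
    have hx : ((α : ZMod p) * δ - β * γ) * F.valX x y = 0 := by
      linear_combination (δ : ZMod p) * d1 - (γ : ZMod p) * d2
    have hy : ((α : ZMod p) * δ - β * γ) * F.valY x y = 0 := by
      linear_combination (α : ZMod p) * d2 - (β : ZMod p) * d1
    rcases hd with e | e
    · exact e ((mul_eq_zero.1 hx).resolve_left hdet)
    · exact e ((mul_eq_zero.1 hy).resolve_left hdet)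

theorem Related.irred (h : Related F F' k α β γ δ) (hdet : α * δ - β * γ ≠ 0)
    (hirr : ∀ z : ℤ × ℤ, F.at' z = 0 → z = 0) : ∀ z : ℤ × ℤ, F'.at' z = 0 → z = 0 := by
  rintro ⟨x, y⟩ hz
  have e := h.val_eq x y
  simp only [Int.cast_id] at e
  have hM := hirr (α * x + β * y, γ * x + δ * y) (by
    unfold at' at hz ⊢
    rw [e, hz, mul_zero])
  simp only [Prod.mk_eq_zero] at hM ⊢
  constructor
  · exact (mul_eq_zero.1 (show (α * δ - β * γ) * x = 0 by
      linear_combination δ * hM.1 - β * hM.2)).resolve_left hdet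
  · exact (mul_eq_zero.1 (show (α * δ - β * γ) * y = 0 by
      linear_combination α * hM.2 - γ * hM.1)).resolve_left hdet

/-- A simple zero modulo a prime can be moved to infinity. -/
theorem exists_simple_at_infinity (F : Cubic) {q : ℕ} [Fact q.Prime] (hs : F.SimpleRoot q) :
    ∃ α β γ δ : ℤ, α * δ - β * γ = 1 ∧ (q : ℤ) ∣ (F.subst α β γ δ).a ∧
      ¬ (q : ℤ) ∣ (F.subst α β γ δ).b := by
  obtain ⟨x, y, hxy, hv, hd⟩ := hs
  simp only [← ZMod.intCast_zmod_eq_zero_iff_dvd]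
  by_cases hy : y = 0
  · subst hy
    have hx : x ≠ 0 := hxy.resolve_right fun h => h rfl
    have ha : (F.a : ZMod q) = 0 := by
      simp only [val] at hv
      exact (mul_eq_zero.1 (show (F.a : ZMod q) * x ^ 3 = 0 by linear_combination hv)).resolve_right
        (pow_ne_zero 3 hx)
    refine ⟨1, 0, 0, 1, by norm_num, by simpa [subst] using ha, ?_⟩
    intro hb
    have hb' : (F.b : ZMod q) = 0 := by simpa [subst] using hb
    simp [valX, valY, ha, hb'] at hd
  · set x₀ := x / y with hx₀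
    have hv0 : F.val x₀ 1 = 0 := by
      simp only [val] at hv ⊢
      rw [hx₀]; field_simp
      linear_combination hv
    have hd0 : F.valX x₀ 1 ≠ 0 := by
      intro e
      have hE : x₀ * F.valX x₀ 1 + F.valY x₀ 1 = 3 * F.val x₀ 1 := by
        simp only [val, valX, valY]; ring
      rw [e, hv0, mul_zero, zero_add, mul_zero] at hE
      have hxe : x = x₀ * y := by rw [hx₀]; field_simp
      rcases hd with h | h <;> apply h
      · rw [show F.valX x y = y ^ 2 * F.valX x₀ 1 by simp only [valX, hxe]; ring, e, mul_zero]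
      · rw [show F.valY x y = y ^ 2 * F.valY x₀ 1 by simp only [valY, hxe]; ring, hE, mul_zero]
    refine ⟨(x₀.val : ℤ), -1, 1, 0, by ring, ?_, ?_⟩
    · simp only [subst]; push_cast; rw [ZMod.natCast_zmod_val]
      simp only [val] at hv0
      linear_combination hv0
    · simp only [subst]; push_cast; rw [ZMod.natCast_zmod_val]
      intro e
      apply hd0
      simp only [valX]
      linear_combination -e

theorem zmod_two_facts :
    (∀ v : ZMod 2, v ≠ 0 → v = 1) ∧ (∀ v w : ZMod 2, v ^ 2 = 4 * 1 * w → v = 0) ∧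
      ∀ w : ZMod 2, 2 * 1 * w + 0 = 0 ∧ 1 * w ^ 2 + 0 * w + w = 0 := by decide

/-- One descent step at a prime. -/
theorem exists_step (F : Cubic) {q : ℕ} (hq : q.Prime) (hs : F.SimpleRoot q) {Δ u : ℤ}
    (hΔ : Δ % 4 = 0 ∨ Δ % 4 = 1) (hdisc : F.disc = Δ * (q * u) ^ 2) :
    ∃ (F' : Cubic) (α β γ δ : ℤ), Related F F' ((q : ℤ) ^ 2) α β γ δ ∧
      α * δ - β * γ = q ∧ F'.disc = Δ * u ^ 2 ∧ F'.SimpleRoot q := by
  have := Fact.mk hq
  obtain ⟨α, β, γ, δ, hdet, ha, hb⟩ := exists_simple_at_infinity F hs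
  set G := F.subst α β γ δ with hG
  have hGd : G.disc = Δ * (q * u) ^ 2 := by rw [hG, subst_disc, hdet, hdisc]; ring
  have hb0 : (G.b : ZMod q) ≠ 0 := by rwa [Ne, ZMod.intCast_zmod_eq_zero_iff_dvd]
  have ha0 : (G.a : ZMod q) = 0 := by rwa [ZMod.intCast_zmod_eq_zero_iff_dvd]
  have hc2 : (G.c : ZMod q) ^ 2 = 4 * G.b * G.d := by
    have e : ((G.disc : ℤ) : ZMod q) = 0 := by rw [hGd]; push_cast; simp
    simp only [disc] at e
    push_cast at e
    rw [ha0] at e
    have : (G.b : ZMod q) ^ 2 * ((G.c : ZMod q) ^ 2 - 4 * G.b * G.d) = 0 := by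
      linear_combination e
    exact sub_eq_zero.1 ((mul_eq_zero.1 this).resolve_left (pow_ne_zero 2 hb0))
  obtain ⟨x₀, hx1, hx2⟩ : ∃ x₀ : ZMod q, 2 * (G.b : ZMod q) * x₀ + G.c = 0 ∧
      (G.b : ZMod q) * x₀ ^ 2 + G.c * x₀ + G.d = 0 := by
    by_cases h2 : (2 : ZMod q) = 0
    · have hq2 : q = 2 := (Nat.prime_dvd_prime_iff_eq hq Nat.prime_two).1
        ((ZMod.natCast_eq_zero_iff 2 q).1 (by exact_mod_cast h2))
      subst hq2
      have hb1 : (G.b : ZMod 2) = 1 := zmod_two_facts.1 _ hb0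
      have hc0 : (G.c : ZMod 2) = 0 := zmod_two_facts.2.1 _ _ (hb1 ▸ hc2)
      refine ⟨(G.d : ZMod 2), ?_, ?_⟩ <;> rw [hb1, hc0]
      exacts [(zmod_two_facts.2.2 _).1, (zmod_two_facts.2.2 _).2]
    · refine ⟨-(G.c : ZMod q) / (2 * G.b), ?_, ?_⟩ <;> field_simp
      · ring
      · linear_combination -hc2
  set t : ℤ := (x₀.val : ℤ) with ht
  set H := G.subst 1 t 0 1 with hH
  have hHd : H.disc = Δ * (q * u) ^ 2 := by rw [hH, subst_disc, hGd]; ring
  have hHa : (q : ℤ) ∣ H.a := by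
    rw [← ZMod.intCast_zmod_eq_zero_iff_dvd]; simp [hH, subst, ha0]
  have hHb : ¬ (q : ℤ) ∣ H.b := by
    rw [← ZMod.intCast_zmod_eq_zero_iff_dvd]; simpa [hH, subst, ha0] using hb0
  have hHc : (q : ℤ) ∣ H.c := by
    rw [← ZMod.intCast_zmod_eq_zero_iff_dvd]
    simp only [hH, subst, ht]; push_cast; rw [ZMod.natCast_zmod_val, ha0]
    linear_combination hx1
  have hHd0 : (q : ℤ) ∣ H.d := by
    rw [← ZMod.intCast_zmod_eq_zero_iff_dvd]
    simp only [hH, subst, ht]; push_cast; rw [ZMod.natCast_zmod_val, ha0]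
    linear_combination hx2
  obtain ⟨a', hae⟩ := hHa
  obtain ⟨c', hce⟩ := hHc
  obtain ⟨d', hde⟩ := hHd0
  have hd' : (q : ℤ) ∣ d' := by
    simp only [disc, hae, hce, hde] at hHd
    have hq0 : (q : ℤ) ≠ 0 := by exact_mod_cast hq.ne_zero
    by_cases h2 : q = 2
    · subst h2
      push_cast at hHd
      have h4 : H.b ^ 2 * c' ^ 2 - 2 * H.b ^ 3 * d' - 16 * a' * c' ^ 3
          - 108 * a' ^ 2 * d' ^ 2 + 36 * a' * H.b * c' * d' = Δ * u ^ 2 :=
        mul_left_cancel₀ (show (4 : ℤ) ≠ 0 by norm_num) (by linear_combination hHd)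
      have hkey : ∀ b c d e v : ZMod 4, b ^ 2 = 1 → (e = 0 ∨ e = 1) →
          b ^ 2 * c ^ 2 - 2 * b ^ 3 * d = e * v ^ 2 → 2 * d = 0 := by decide
      have h4' := congrArg (Int.cast : ℤ → ZMod 4) h4
      push_cast at h4'
      have z16 : (16 : ZMod 4) = 0 := by decide
      have z108 : (108 : ZMod 4) = 0 := by decide
      have z36 : (36 : ZMod 4) = 0 := by decide
      rw [z16, z108, z36] at h4'
      simp only [zero_mul, sub_zero, add_zero] at h4'
      have hb4 : (H.b : ZMod 4) ^ 2 = 1 := by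
        obtain ⟨v, hv⟩ : ∃ v, H.b = 2 * v + 1 := ⟨H.b / 2, by push_cast at hHb; omega⟩
        rw [hv]; push_cast
        generalize (v : ZMod 4) = w
        revert w; decide
      have hΔ4 : (Δ : ZMod 4) = 0 ∨ (Δ : ZMod 4) = 1 := by
        rcases hΔ with e | e
        · left; exact (ZMod.intCast_zmod_eq_zero_iff_dvd Δ 4).2 (by push_cast; omega)
        · right
          rw [← Int.cast_one, ZMod.intCast_eq_intCast_iff']; push_cast; omega
      have := hkey _ _ _ _ _ hb4 hΔ4 h4'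
      rw [show (2 : ZMod 4) * (d' : ZMod 4) = ((2 * d' : ℤ) : ZMod 4) by push_cast; ring,
        ZMod.intCast_zmod_eq_zero_iff_dvd] at this
      push_cast at this ⊢
      omega
    · have hdiv : (q : ℤ) ∣ 4 * H.b ^ 3 * d' := by
        refine ⟨H.b ^ 2 * c' ^ 2 - 4 * (q : ℤ) ^ 2 * a' * c' ^ 3
          - 27 * (q : ℤ) ^ 2 * a' ^ 2 * d' ^ 2
          + 18 * (q : ℤ) * a' * H.b * c' * d' - Δ * u ^ 2, ?_⟩
        apply mul_left_cancel₀ hq0
        linear_combination -hHd
      have hqp := Nat.prime_iff_prime_int.1 hq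
      refine (hqp.dvd_or_dvd hdiv).resolve_left fun e => ?_
      rcases hqp.dvd_or_dvd e with e | e
      · have : q ∣ 2 ^ 2 := by exact_mod_cast e
        exact h2 ((Nat.prime_dvd_prime_iff_eq hq Nat.prime_two).1 (hq.dvd_of_dvd_pow this))
      · exact hHb (hqp.dvd_of_dvd_pow e)
  obtain ⟨d'', hd''⟩ := hd'
  refine ⟨⟨q * H.a, H.b, c', d''⟩, α * q, α * t + β, γ * q, γ * t + δ, ⟨?_⟩, ?_, ?_, ?_⟩
  · have e1 : H.a = G.a := by simp [hH, subst]
    have e2 : H.b = 3 * G.a * t + G.b := by simp [hH, subst]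
    have e3 : H.c = 3 * G.a * t ^ 2 + 2 * G.b * t + G.c := by simp [hH, subst]; ring
    have e4 : H.d = G.a * t ^ 3 + G.b * t ^ 2 + G.c * t + G.d := by simp [hH, subst]
    simp only [hG, subst] at e1 e2 e3 e4
    simp only [subst, scale, Cubic.mk.injEq]
    refine ⟨?_, ?_, ?_, ?_⟩
    · rw [e1]; ring
    · rw [e2]; ring
    · linear_combination (-(q : ℤ)) * e3 + (q : ℤ) * hce
    · linear_combination -e4 + hde + (q : ℤ) * hd''
  · linear_combination (q : ℤ) * hdet
  · have hq0 : (q : ℤ) ^ 2 ≠ 0 := pow_ne_zero 2 (by exact_mod_cast hq.ne_zero)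
    apply mul_left_cancel₀ hq0
    simp only [disc, hce, hde, hd''] at hHd ⊢
    linear_combination hHd
  · refine ⟨1, 0, Or.inl one_ne_zero, ?_, Or.inr ?_⟩
    · simp [val]
    · simpa [valY, ← ZMod.intCast_zmod_eq_zero_iff_dvd] using hHb

end Cubic

/-- Descent to fundamental discriminant. -/
theorem exists_goodCubic_of_simpleRoot {Δ : ℤ} (hΔ : Δ < 0) (hΔ4 : Δ % 4 = 0 ∨ Δ % 4 = 1)
    (hfund : ∀ q : ℕ, q.Prime → ∀ e : ℤ, Δ = (q : ℤ) ^ 2 * e → ¬ (e % 4 = 0 ∨ e % 4 = 1))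
    (F : Cubic) (s : ℤ) (hdisc : F.disc = Δ * s ^ 2) (hs0 : s ≠ 0)
    (hirr : ∀ z : ℤ × ℤ, F.at' z = 0 → z = 0)
    (hsimple : ∀ q : ℕ, q.Prime → (q : ℤ) ∣ s → F.SimpleRoot q) :
    ∃ F' : Cubic, GoodCubic F' Δ ∧
      ∀ p : ℕ, p.Prime → ¬ (p : ℤ) ∣ s → (F'.HasRoot p ↔ F.HasRoot p) := by
  induction hn : s.natAbs using Nat.strong_induction_on generalizing F s with
  | _ n ih =>
  by_cases h1 : s.natAbs = 1
  · refine ⟨F, ⟨?_, hΔ, hfund, hirr⟩, fun p _ _ => Iff.rfl⟩
    rw [hdisc, ← Int.natAbs_sq s, h1]; simp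
  · obtain ⟨q, hq, hqs⟩ := Nat.exists_prime_and_dvd h1
    have hqs' : (q : ℤ) ∣ s := Int.natCast_dvd.2 hqs
    obtain ⟨u, hu⟩ := hqs'
    obtain ⟨F', α, β, γ, δ, hrel, hdet, hd', hsr⟩ :=
      F.exists_step hq (hsimple q hq (Int.natCast_dvd.2 hqs)) hΔ4 (u := u) (by rw [hdisc, hu])
    have hu0 : u ≠ 0 := fun e => hs0 (by rw [hu, e, mul_zero])
    have hlt : u.natAbs < n := by
      rw [← hn, hu, Int.natAbs_mul, Int.natAbs_natCast]
      exact lt_mul_of_one_lt_left (Int.natAbs_pos.2 hu0) hq.one_lt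
    have hcast : ∀ p : ℕ, p.Prime → p ≠ q → (q : ZMod p) ≠ 0 := fun p hp hne e =>
      hne ((Nat.prime_dvd_prime_iff_eq hp hq).1 ((ZMod.natCast_eq_zero_iff q p).1 e))
    obtain ⟨F'', hgood, hiff⟩ := ih u.natAbs hlt F' u hd' hu0
      (hrel.irred (by rw [hdet]; exact_mod_cast hq.ne_zero) hirr) (fun l hl hlu => by
        by_cases hlq : l = q
        · exact hlq ▸ hsr
        · have := Fact.mk hl
          exact hrel.simpleRoot (by push_cast; exact pow_ne_zero 2 (hcast l hl hlq))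
            (by rw [hdet, Int.cast_natCast]; exact hcast l hl hlq)
            (hsimple l hl (hu ▸ hlu.mul_left _))) rfl
    refine ⟨F'', hgood, fun p hp hps => ?_⟩
    have := Fact.mk hp
    have hpq : p ≠ q := fun e => hps (e ▸ hu ▸ dvd_mul_right _ _)
    rw [hiff p hp fun e => hps (hu ▸ e.mul_left _)]
    exact (hrel.hasRoot_iff (by push_cast; exact pow_ne_zero 2 (hcast p hp hpq))
      (by rw [hdet, Int.cast_natCast]; exact hcast p hp hpq)).symm

end Fermat.Agent.DihedralTwo
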