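import Fermat.Agent.DihedralTwo.Reduce
import Fermat.Agent.DihedralTwo.Main
import Fermat.Agent.EC.Torsion.Main
import Fermat.Prelude.Def_FLTPrelim_ModularRep
import Fermat.Prelude.Def_WeierstrassCurve_ConductorLevel

/-!
The binary cubic of fundamental discriminant attached to the 2-division cubic of a semistable
Weierstrass model which is multiplicative at `2` and has discriminant of odd valuation everywhere,
and the resulting class group character computing `a_p mod 2`.
-/

set_option autoImplicit false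

noncomputable section

open scoped WeierstrassCurve.Affine

namespace Fermat.Agent.DihedralTwo

open WeierstrassCurve WeierstrassCurve.Affine.Point

local notation "ℚbar" => AlgebraicClosure ℚ

/-- The 2-division cubic in the variable `4 X`. -/
def weierCubic (W : WeierstrassCurve ℤ) : Cubic := ⟨1, W.b₂, 8 * W.b₄, 16 * W.b₆⟩

theorem weierCubic_disc (W : WeierstrassCurve ℤ) : (weierCubic W).disc = 256 * W.Δ := by
  simp only [weierCubic, Cubic.disc, WeierstrassCurve.Δ]
  linear_combination (64 * W.b₂ ^ 2) * W.b_relation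

/-- A monic cubic with vanishing discriminant and non-vanishing Hessian has a simple zero. -/
theorem exists_simpleRoot_monic (F : Cubic) (ha : F.a = 1) {q : ℕ} [Fact q.Prime]
    (hd : (F.disc : ZMod q) = 0) (hH : (F.hA : ZMod q) ≠ 0) : F.SimpleRoot q := by
  simp only [Cubic.disc, ha] at hd
  simp only [Cubic.hA, ha] at hH
  push_cast at hd hH
  set b := (F.b : ZMod q); set c := (F.c : ZMod q); set d := (F.d : ZMod q)
  set H := b ^ 2 - 3 * c with hHdef
  set x := (4 * b * c - 9 * d - b ^ 3) / H with hx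
  have hxH : x * H = 4 * b * c - 9 * d - b ^ 3 := by rw [hx, div_mul_cancel₀ _ hH]
  refine ⟨x, 1, Or.inr one_ne_zero, ?_, Or.inl ?_⟩
  · have h3 : H ^ 3 * F.val x (1 : ZMod q) = (2 * b ^ 3 - 9 * b * c + 27 * d) *
        (b ^ 2 * c ^ 2 - 4 * c ^ 3 - 4 * b ^ 3 * d - 27 * d ^ 2 + 18 * b * c * d) := by
      have e : H ^ 3 * F.val x (1 : ZMod q) =
          (x * H) ^ 3 + b * (x * H) ^ 2 * H + c * (x * H) * H ^ 2 + d * H ^ 3 := by
        simp only [Cubic.val, ha]; push_cast; ring
      rw [e, hxH, hHdef]; ring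
    rw [hd, mul_zero] at h3
    exact (mul_eq_zero.1 h3).resolve_left (pow_ne_zero 3 hH)
  · intro e0
    have h2 : H ^ 2 * F.valX x (1 : ZMod q) = H ^ 3 - 9 *
        (b ^ 2 * c ^ 2 - 4 * c ^ 3 - 4 * b ^ 3 * d - 27 * d ^ 2 + 18 * b * c * d) := by
      have e : H ^ 2 * F.valX x (1 : ZMod q) =
          3 * (x * H) ^ 2 + 2 * b * (x * H) * H + c * H ^ 2 := by
        simp only [Cubic.valX, ha]; push_cast; ring
      rw [e, hxH, hHdef]; ring
    rw [e0, hd, mul_zero, mul_zero, sub_zero] at h2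
    exact pow_ne_zero 3 hH h2.symm

/-- No rational root of the 2-division cubic when the mod 2 representation is irreducible. -/
theorem no_rat_root_of_irreducible (W : WeierstrassCurve ℤ) (hΔ : W.Δ ≠ 0)
    (hirr : W.ModRepIsIrreducible 2) (r : ℚ) :
    4 * r ^ 3 + (W.b₂ : ℚ) * r ^ 2 + 2 * (W.b₄ : ℚ) * r + (W.b₆ : ℚ) ≠ 0 := by
  intro hr
  have := EC.Torsion.isElliptic_baseChange_map W hΔ ℚbar
  set E := (W.map (Int.castRingHom ℚ)).toAffine
  set x : ℚbar := algebraMap ℚ ℚbar r with hx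
  set y : ℚbar := algebraMap ℚ ℚbar (-((W.a₁ : ℚ) * r + W.a₃) / 2) with hy
  have hy2 : 2 * y = -((W.a₁ : ℚbar) * x + W.a₃) := by
    rw [hy, hx, map_div₀, map_neg, map_add, map_mul, map_intCast, map_intCast, map_ofNat]
    field_simp
  have hr' : 4 * x ^ 3 + (W.b₂ : ℚbar) * x ^ 2 + 2 * (W.b₄ : ℚbar) * x + (W.b₆ : ℚbar) = 0 := by
    have := congrArg (algebraMap ℚ ℚbar) hr
    simpa only [map_add, map_mul, map_pow, map_ofNat, map_intCast, _root_.map_zero, ← hx] using this
  have hns : (E⁄ℚbar).toAffine.Nonsingular x y := by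
    rw [← Affine.equation_iff_nonsingular, Affine.equation_iff]
    simp only [E, WeierstrassCurve.baseChange, map_a₁, map_a₂, map_a₃, map_a₄, map_a₆,
      eq_intCast, map_intCast]
    simp only [WeierstrassCurve.b₂, WeierstrassCurve.b₄, WeierstrassCurve.b₆] at hr'
    push_cast at hr'
    refine mul_left_cancel₀ (show (4 : ℚbar) ≠ 0 by norm_num) ?_
    linear_combination (2 * y + (W.a₁ : ℚbar) * x + W.a₃) * hy2 - hr'
  let P₀ : (E⁄ℚbar).Point := .some x y hns
  have hP2 : P₀ ∈ Submodule.torsionBy ℤ (E⁄ℚbar).Point (2 : ℕ) := by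
    rw [EC.Torsion.mem_torsionBy_iff_nsmul, two_nsmul, add_eq_zero_iff_eq_neg,
      Affine.Point.neg_some, Affine.Point.some.injEq]
    refine ⟨rfl, ?_⟩
    simp only [Affine.negY, E, WeierstrassCurve.baseChange, map_a₁, map_a₃, eq_intCast, map_intCast]
    linear_combination hy2
  let P : Submodule.torsionBy ℤ (E⁄ℚbar).Point (2 : ℕ) := ⟨P₀, hP2⟩
  have hP0 : P ≠ 0 := fun e => by simpa [P, P₀] using congrArg Subtype.val e
  obtain ⟨-, hmax⟩ := hirr
  have hfix : ∀ σ : ℚbar ≃ₐ[ℚ] ℚbar, σ • P = P := fun σ => by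
    refine Subtype.ext ?_
    show σ • P₀ = P₀
    simp only [P₀, algEquiv_smul_def, Affine.Point.map_some, Affine.Point.some.injEq]
    simp [hx, hy, map_ofNat]
  rcases hmax (Submodule.span (ZMod 2) {P}) (fun σ Q hQ => by
      obtain ⟨c, rfl⟩ := Submodule.mem_span_singleton.1 hQ
      rw [smul_comm, hfix]
      exact Submodule.smul_mem _ c (Submodule.mem_span_singleton_self P)) with h | h
  · exact hP0 (Submodule.span_singleton_eq_bot.1 h)
  · have h2 := EC.Torsion.finrank_torsionBy (W.map (Int.castRingHom ℚ)).toAffine ℚbar (p := 2)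
      two_ne_zero
    have h1 := finrank_span_singleton (K := ZMod 2) hP0
    rw [h, finrank_top, h2] at h1
    norm_num at h1

/-- `Δ = -N t²` when every valuation of the negative discriminant is odd. -/
theorem exists_disc_eq (W : WeierstrassCurve ℤ) (hneg : W.Δ < 0)
    (hodd : ∀ q : ℕ, q.Prime → (q : ℤ) ∣ W.Δ → Odd (padicValInt q W.Δ)) :
    ∃ t : ℕ, t ≠ 0 ∧ W.Δ = -((W.conductorLevel : ℤ) * (t : ℤ) ^ 2) := by
  set n := W.Δ.natAbs with hn
  have hn0 : n ≠ 0 := by simpa [hn] using hneg.ne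
  set N := W.conductorLevel with hNdef
  have hN : N = ∏ p ∈ n.primeFactors, p := by
    rw [hNdef, conductorLevel, Nat.radical_eq_prod_primeFactors]
  set t : ℕ := ∏ p ∈ n.primeFactors, p ^ ((n.factorization p - 1) / 2) with ht
  have hnt : n = N * t ^ 2 := by
    conv_lhs => rw [← Nat.prod_factorization_pow_eq_self hn0]
    rw [Finsupp.prod, Nat.support_factorization, hN, ht, ← Finset.prod_pow,
      ← Finset.prod_mul_distrib]
    refine Finset.prod_congr rfl fun p hp => ?_
    obtain ⟨hpp, hpn, -⟩ := Nat.mem_primeFactors.1 hp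
    have ho := hodd p hpp (Int.natCast_dvd.2 hpn)
    rw [padicValInt, ← hn, ← Nat.factorization_def n hpp] at ho
    obtain ⟨k, hk⟩ := ho
    rw [hk, show (2 * k + 1 - 1) / 2 = k by omega, ← pow_mul, mul_comm k 2, pow_succ']
  have hΔeq : W.Δ = -((N : ℤ) * (t : ℤ) ^ 2) := by
    have : (W.Δ.natAbs : ℤ) = -W.Δ := Int.ofNat_natAbs_of_nonpos hneg.le
    rw [← hn, hnt] at this
    push_cast at this
    linarith
  refine ⟨t, fun e => hn0 (by rw [hnt, e]; simp), hΔeq⟩

/-- The cubic of fundamental discriminant `-4 N`. -/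
theorem exists_goodCubic_of_weierstrass (W : WeierstrassCurve ℤ) (hss : W.IsSemistableModel)
    (hneg : W.Δ < 0) (h2 : (2 : ℤ) ∣ W.Δ)
    (hodd : ∀ q : ℕ, q.Prime → (q : ℤ) ∣ W.Δ → Odd (padicValInt q W.Δ))
    (hirr : W.ModRepIsIrreducible 2) :
    ∃ F : Cubic, GoodCubic F (-4 * (W.conductorLevel : ℤ)) ∧
      ∀ p : ℕ, p.Prime → W.IsGoodPrimeFor p →
        (F.HasRoot p ↔ ∃ x : ZMod p, 4 * x ^ 3 + (W.b₂ : ZMod p) * x ^ 2
          + 2 * (W.b₄ : ZMod p) * x + (W.b₆ : ZMod p) = 0) := by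
  obtain ⟨t, ht0, hΔeq⟩ := exists_disc_eq W hneg hodd
  set N := W.conductorLevel with hNdef
  have hsq : Squarefree N := squarefree_conductorLevel W
  obtain ⟨m, hm⟩ : 2 ∣ N :=
    (prime_dvd_conductorLevel_iff W hneg.ne Nat.prime_two).2 (by exact_mod_cast h2)
  have hmodd : ¬ 2 ∣ m := fun ⟨k, hk⟩ => by
    have := hsq 2 ⟨k, by rw [hm, hk]; ring⟩
    simp at this
  have hfund : ∀ q : ℕ, q.Prime → ∀ e : ℤ, -4 * (N : ℤ) = (q : ℤ) ^ 2 * e →
      ¬ (e % 4 = 0 ∨ e % 4 = 1) := by
    intro q hq e he hmod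
    by_cases hq2 : q = 2
    · subst hq2
      rw [hm] at he
      push_cast at he
      omega
    · have hdvd : (q : ℤ) ^ 2 ∣ 4 * (N : ℤ) := ⟨-e, by linear_combination -he⟩
      have hdvd' : q ^ 2 ∣ 4 * N := by exact_mod_cast hdvd
      have hco : Nat.Coprime (q ^ 2) 4 :=
        Nat.Coprime.pow_left 2 (show q.Coprime (2 ^ 2) from
          Nat.Coprime.pow_right 2 ((Nat.coprime_primes hq Nat.prime_two).2 hq2))
      have := hsq q (by rw [← pow_two]; exact hco.dvd_of_dvd_mul_left hdvd')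
      exact hq.ne_one (Nat.isUnit_iff.1 this)
  have hs : ∀ q : ℕ, q.Prime → (q : ℤ) ∣ 8 * (t : ℤ) → (q : ℤ) ∣ W.Δ := by
    intro q hq hqs
    rcases (Nat.prime_iff_prime_int.1 hq).dvd_or_dvd hqs with e | e
    · have : q ∣ 2 ^ 3 := by exact_mod_cast e
      rw [(Nat.prime_dvd_prime_iff_eq hq Nat.prime_two).1 (hq.dvd_of_dvd_pow this)]
      exact_mod_cast h2
    · rw [hΔeq, dvd_neg]; exact dvd_mul_of_dvd_right (e.trans (dvd_pow_self _ two_ne_zero)) _
  obtain ⟨F, hF, hiff⟩ := exists_goodCubic_of_simpleRoot (Δ := -4 * (N : ℤ)) (by omega)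
    (Or.inl (by omega)) hfund (weierCubic W) (8 * t) (by rw [weierCubic_disc, hΔeq]; ring)
    (by
      simpa using ht0)
    (fun z hz => by
      by_contra hne
      have hz2 : z.2 ≠ 0 := by
        intro e
        simp [Cubic.at'_eq, weierCubic, e] at hz
        exact hne (Prod.ext hz e)
      refine no_rat_root_of_irreducible W hneg.ne hirr ((z.1 : ℚ) / (4 * z.2)) ?_
      have e := congrArg (Int.cast : ℤ → ℚ) hz
      simp only [Cubic.at'_eq, weierCubic] at e
      push_cast at e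
      field_simp
      linear_combination e)
    (fun q hq hqs => by
      have := Fact.mk hq
      have hqΔ := hs q hq hqs
      refine exists_simpleRoot_monic _ rfl ?_ ?_
      · rw [weierCubic_disc, Int.cast_mul, (ZMod.intCast_zmod_eq_zero_iff_dvd _ _).2 hqΔ, mul_zero]
      · rw [Ne, ZMod.intCast_zmod_eq_zero_iff_dvd]
        have : (weierCubic W).hA = W.c₄ := by
          simp only [weierCubic, Cubic.hA, WeierstrassCurve.c₄]; ring
        rw [this]
        exact hss q hq hqΔ)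
  refine ⟨F, hF, fun p hp hgood => ?_⟩
  have := Fact.mk hp
  rw [hiff p hp fun e => hgood (hs p hp e)]
  have h20 : (2 : ZMod p) ≠ 0 := fun e => hgood (by
    rw [(Nat.prime_dvd_prime_iff_eq hp Nat.prime_two).1
      ((ZMod.natCast_eq_zero_iff 2 p).1 (by exact_mod_cast e))]
    exact_mod_cast h2)
  have h40 : (4 : ZMod p) ≠ 0 := by
    rw [show (4 : ZMod p) = 2 * 2 by norm_num]; exact mul_ne_zero h20 h20
  constructor
  · rintro ⟨x, y, hxy, hv⟩
    simp only [Cubic.val, weierCubic] at hv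
    push_cast at hv
    have hy : y ≠ 0 := by
      intro e; subst e
      exact hxy.elim (fun h => h (eq_zero_of_pow_eq_zero (n := 3) (by linear_combination hv)))
        (fun h => h rfl)
    refine ⟨x / (4 * y), ?_⟩
    field_simp
    linear_combination hv
  · rintro ⟨x, hv⟩
    refine ⟨4 * x, 1, Or.inr one_ne_zero, ?_⟩
    simp only [Cubic.val, weierCubic]
    push_cast
    linear_combination 16 * hv

/-- `a_p` is odd exactly when the 2-division cubic has no root modulo `p`. -/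
theorem apOfModel_two (W : WeierstrassCurve ℤ) {p : ℕ} (hp : p.Prime) (h2 : p ≠ 2)
    (hgood : W.IsGoodPrimeFor p) :
    (W.apOfModel p : ZMod 2) = 0 ↔
      ∃ x : ZMod p, 4 * x ^ 3 + (W.b₂ : ZMod p) * x ^ 2
          + 2 * (W.b₄ : ZMod p) * x + (W.b₆ : ZMod p) = 0 := by
  classical
  have := Fact.mk hp
  set E := W.reductionMod p with hE
  have h20 : (2 : ZMod p) ≠ 0 := fun e => h2 ((Nat.prime_dvd_prime_iff_eq hp Nat.prime_two).1
    ((ZMod.natCast_eq_zero_iff 2 p).1 (by exact_mod_cast e)))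
  have hΔ : E.Δ ≠ 0 := by
    rw [hE, reductionMod, map_Δ, eq_intCast, Ne, ZMod.intCast_zmod_eq_zero_iff_dvd]; exact hgood
  have hev : (W.apOfModel p : ZMod 2) = 0 ↔ 2 ∣ Nat.card E.toAffine.Point := by
    rw [apOfModel, ← hE, traceOfFrobenius, card, Nat.card_zmod, ZMod.intCast_zmod_eq_zero_iff_dvd]
    have : p % 2 = 1 := Nat.odd_iff.1 (hp.odd_of_ne_two h2)
    omega
  have hb : E.b₂ = (W.b₂ : ZMod p) ∧ E.b₄ = (W.b₄ : ZMod p) ∧ E.b₆ = (W.b₆ : ZMod p) :=
    ⟨map_b₂ _ _, map_b₄ _ _, map_b₆ _ _⟩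
  have hcore : 2 ∣ Nat.card E.toAffine.Point ↔
      ∃ x : ZMod p, 4 * x ^ 3 + E.b₂ * x ^ 2 + 2 * E.b₄ * x + E.b₆ = 0 := by
    simp only [WeierstrassCurve.b₂, WeierstrassCurve.b₄, WeierstrassCurve.b₆]
    constructor
    · intro h
      obtain ⟨P, hP⟩ := exists_prime_addOrderOf_dvd_card' (G := E.toAffine.Point) 2 h
      have hne : P ≠ 0 := fun e => by rw [e, addOrderOf_zero] at hP; norm_num at hP
      have h2P : P + P = 0 := by rw [← two_nsmul, ← hP]; exact addOrderOf_nsmul_eq_zero P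
      rcases P with _ | ⟨x, y, hns⟩
      · exact absurd rfl hne
      · rw [add_eq_zero_iff_eq_neg, Affine.Point.neg_some, Affine.Point.some.injEq] at h2P
        have hy := h2P.2
        simp only [Affine.negY] at hy
        have he := (Affine.equation_iff x y).1 hns.1
        exact ⟨x, by linear_combination (2 * y + E.a₁ * x + E.a₃) * hy - 4 * he⟩
    · rintro ⟨x, hx⟩
      set y := -(E.a₁ * x + E.a₃) / 2 with hy
      have hy2 : 2 * y = -(E.a₁ * x + E.a₃) := by rw [hy]; field_simp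
      have hns : E.toAffine.Nonsingular x y := by
        rw [← Affine.equation_iff_nonsingular_of_Δ_ne_zero hΔ, Affine.equation_iff]
        refine mul_left_cancel₀ (show (4 : ZMod p) ≠ 0 by
          rw [show (4 : ZMod p) = 2 * 2 by norm_num]; exact mul_ne_zero h20 h20) ?_
        linear_combination (2 * y + E.a₁ * x + E.a₃) * hy2 - hx
      let P : E.toAffine.Point := .some x y hns
      have h2P : P + P = 0 := by
        rw [add_eq_zero_iff_eq_neg, Affine.Point.neg_some, Affine.Point.some.injEq]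
        refine ⟨rfl, ?_⟩
        simp only [Affine.negY]
        linear_combination hy2
      have : addOrderOf P = 2 := addOrderOf_eq_prime (by rw [two_nsmul]; exact h2P)
        (fun e => by simp [P] at e)
      exact this ▸ addOrderOf_dvd_natCard P
  rw [hev, hcore, hb.1, hb.2.1, hb.2.2]

/-- The class group character computing `a_p mod 2`. -/
theorem exists_character_of_weierstrass (W : WeierstrassCurve ℤ) (hss : W.IsSemistableModel)
    (hneg : W.Δ < 0) (h2 : (2 : ℤ) ∣ W.Δ)
    (hodd : ∀ q : ℕ, q.Prime → (q : ℤ) ∣ W.Δ → Odd (padicValInt q W.Δ))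
    (hirr : W.ModRepIsIrreducible 2) (K : Type*) [Field K] [NumberField K]
    (hK : Module.finrank ℚ K = 2)
    (hdisc : NumberField.discr K = -4 * (W.conductorLevel : ℤ)) :
    ∃ X : ClassGroup (NumberField.RingOfIntegers K) →* Multiplicative (ZMod 3), X ≠ 1 ∧
      (∀ (P : Ideal (NumberField.RingOfIntegers K))
          (hP : P ∈ nonZeroDivisors (Ideal (NumberField.RingOfIntegers K))) (p : ℕ),
        p.Prime → Ideal.absNorm P = p → W.IsGoodPrimeFor p → p ≠ 3 →
          (X (ClassGroup.mk0 ⟨P, hP⟩) = 1 ↔ (W.apOfModel p : ZMod 2) = 0)) ∧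
      (∀ p : ℕ, p.Prime → W.IsGoodPrimeFor p → p ≠ 3 →
        ¬ IsSquare ((-4 * (W.conductorLevel : ℤ) : ℤ) : ZMod p) →
          (W.apOfModel p : ZMod 2) = 0) := by
  obtain ⟨F, hF, hiff⟩ := exists_goodCubic_of_weierstrass W hss hneg h2 hodd hirr
  obtain ⟨X, hX1, hX, hin⟩ := exists_cubicCharacter hF K hK hdisc
  have hp2 : ∀ p : ℕ, W.IsGoodPrimeFor p → p ≠ 2 := fun p hg e =>
    hg (e ▸ (by exact_mod_cast h2))
  have hnd : ∀ p : ℕ, p.Prime → W.IsGoodPrimeFor p → p ≠ 3 →
      ¬ (p : ℤ) ∣ 6 * (-4 * (W.conductorLevel : ℤ)) := by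
    intro p hp hg h3 e
    have e' : p ∣ 3 * (2 ^ 3 * W.conductorLevel) := by
      rw [show 6 * (-4 * (W.conductorLevel : ℤ)) =
        -((3 * (2 ^ 3 * W.conductorLevel) : ℕ) : ℤ) by push_cast; ring, dvd_neg] at e
      exact_mod_cast e
    rcases hp.dvd_mul.1 e' with e | e
    · exact h3 ((Nat.prime_dvd_prime_iff_eq hp Nat.prime_three).1 e)
    rcases hp.dvd_mul.1 e with e | e
    · exact hp2 p hg ((Nat.prime_dvd_prime_iff_eq hp Nat.prime_two).1 (hp.dvd_of_dvd_pow e))
    · exact hg ((prime_dvd_conductorLevel_iff W hneg.ne hp).1 e)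
  refine ⟨X, hX1, fun P hP p hp hN hg h3 => ?_, fun p hp hg h3 hns => ?_⟩
  · rw [hX P hP p hp hN (hnd p hp hg h3), hiff p hp hg, apOfModel_two W hp (hp2 p hg) hg]
  · exact (apOfModel_two W hp (hp2 p hg) hg).2 ((hiff p hp hg).1 (hin p hp (hnd p hp hg h3) hns))

/-- The discriminant of `ℚ(√-N)` for squarefree `N ≡ 2 (mod 4)`. -/
theorem discr_eq_of_sq (K : Type*) [Field K] [NumberField K] (h2 : Module.finrank ℚ K = 2)
    {N : ℕ} (hsf : Squarefree N) (h4 : N % 4 = 2) (s : K) (hs : s ^ 2 = -(N : K)) :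
    NumberField.discr K = -4 * (N : ℤ) := by
  obtain ⟨q⟩ := exists_quadData K h2
  have hint : IsIntegral ℤ s := ⟨Polynomial.X ^ 2 + Polynomial.C (N : ℤ),
    Polynomial.monic_X_pow_add_C _ two_ne_zero, by simp [hs]⟩
  set σ : NumberField.RingOfIntegers K := ⟨s, hint⟩ with hσ
  have hσ2 : σ * σ = ((-(N : ℤ) : ℤ) : NumberField.RingOfIntegers K) := by
    refine IsFractionRing.injective (NumberField.RingOfIntegers K) K ?_
    rw [map_mul, map_intCast]
    show s * s = _
    rw [← pow_two, hs]; push_cast; rfl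
  obtain ⟨x, y, hxy⟩ := q.exists_eq σ
  have hsq : σ * σ = ((x ^ 2 - q.n * y ^ 2 : ℤ) : NumberField.RingOfIntegers K)
      + ((2 * x * y + q.t * y ^ 2 : ℤ) : NumberField.RingOfIntegers K) * q.θ := by
    rw [hxy]; push_cast
    linear_combination ((y : NumberField.RingOfIntegers K) ^ 2) * q.sq
  rw [hσ2] at hsq
  have e0 := congrArg (fun a => q.basis.repr a 0) hsq
  have e1 := congrArg (fun a => q.basis.repr a 1) hsq
  simp only [(q.repr_add_mul _ _).1] at e0
  simp only [(q.repr_add_mul _ _).2] at e1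
  have r0 := (q.repr_add_mul (-(N : ℤ)) 0).1
  have r1 := (q.repr_add_mul (-(N : ℤ)) 0).2
  simp only [Int.cast_zero, zero_mul, add_zero] at r0 r1
  rw [r0] at e0
  rw [r1] at e1
  have hy0 : y ≠ 0 := by
    intro e
    rw [e] at e0
    have : (0 : ℤ) < N := by omega
    nlinarith [sq_nonneg x]
  have hX : 2 * x + q.t * y = 0 :=
    (mul_eq_zero.1 (show (2 * x + q.t * y) * y = 0 by linear_combination -e1)).resolve_right hy0
  have hD : -4 * (N : ℤ) = y ^ 2 * NumberField.discr K := by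
    rw [← q.disc]
    linear_combination 4 * e0 + (2 * x - q.t * y) * hX
  have hD4 : NumberField.discr K % 4 = 0 ∨ NumberField.discr K % 4 = 1 := by
    rw [← q.disc]
    rcases Int.even_or_odd' q.t with ⟨k, e | e⟩ <;> rw [e]
    · left; rw [show (2 * k) ^ 2 - 4 * q.n = 4 * (k ^ 2 - q.n) by ring]; omega
    · right; rw [show (2 * k + 1) ^ 2 - 4 * q.n = 4 * (k ^ 2 + k - q.n) + 1 by ring]; omega
  have hy : y.natAbs = 1 := by
    by_contra hne
    obtain ⟨p, hp, hpy⟩ := Nat.exists_prime_and_dvd hne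
    obtain ⟨u, hu⟩ := Int.natCast_dvd.2 hpy
    rw [hu] at hD
    by_cases hp2 : p = 2
    · subst hp2
      rw [show ((2 : ℕ) * u : ℤ) ^ 2 * NumberField.discr K =
        4 * (u ^ 2 * NumberField.discr K) by push_cast; ring] at hD
      rcases Int.even_or_odd' u with ⟨v, e | e⟩ <;> rw [e] at hD
      · rw [show (2 * v) ^ 2 * NumberField.discr K = 4 * (v ^ 2 * NumberField.discr K) by
          ring] at hD
        omega
      · rw [show (2 * v + 1) ^ 2 * NumberField.discr K =
          4 * ((v ^ 2 + v) * NumberField.discr K) + NumberField.discr K by ring] at hD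
        omega
    · have hdvd : (p : ℤ) ^ 2 ∣ 4 * (N : ℤ) :=
        ⟨-(u ^ 2 * NumberField.discr K), by linear_combination -hD⟩
      have hdvd' : p ^ 2 ∣ 4 * N := by exact_mod_cast hdvd
      have hco : Nat.Coprime (p ^ 2) 4 :=
        Nat.Coprime.pow_left 2 (show p.Coprime (2 ^ 2) from
          Nat.Coprime.pow_right 2 ((Nat.coprime_primes hp Nat.prime_two).2 hp2))
      exact hp.ne_one (Nat.isUnit_iff.1
        (hsf p (by rw [← pow_two]; exact hco.dvd_of_dvd_mul_left hdvd')))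
  rw [← Int.natAbs_sq, hy] at hD
  simpa using hD.symm

end Fermat.Agent.DihedralTwo
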